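import Fermat.Agent.FlatModel.Order

/-!
# The Hopf algebra of a flat model

The algebra of a model is a finite flat cocommutative Hopf algebra whose points are `G`
(`Model.exists_hopfAlgebra`).
-/

set_option autoImplicit false

open GaloisRep
open scoped TensorProduct

namespace Fermat.Agent.FlatModel

variable (ℓ : ℕ)

local notation "R" => ratLocalizedAt ℓ

/-- Pullback of functions along a map. -/
def pullAlg {X Y : Type*} (f : X → Y) : (Y → Qbar) →ₐ[R] (X → Qbar) where
  toFun φ x := φ (f x)
  map_one' := rfl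
  map_mul' _ _ := rfl
  map_zero' := rfl
  map_add' _ _ := rfl
  commutes' _ := rfl

@[simp]
theorem pullAlg_apply {X Y : Type*} (f : X → Y) (φ : Y → Qbar) (x : X) :
    pullAlg ℓ f φ x = φ (f x) := rfl

/-- A tensor product of algebras embeds into a target if products of two bases are independent. -/
theorem lift_injective_of_basis {S A B C : Type*} [CommRing S] [CommRing A] [Algebra S A]
    [CommRing B] [Algebra S B] [CommRing C] [Algebra S C] {ι κ : Type*} (a : Module.Basis ι S A)
    (b : Module.Basis κ S B) (f : A →ₐ[S] C) (g : B →ₐ[S] C)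
    (hli : LinearIndependent S fun q : ι × κ => f (a q.1) * g (b q.2)) :
    Function.Injective (Algebra.TensorProduct.lift f g fun _ _ => Commute.all _ _) := by
  rw [injective_iff_map_eq_zero]
  intro x hx
  have h : Finsupp.linearCombination S (fun q : ι × κ => f (a q.1) * g (b q.2))
      ((a.tensorProduct b).repr x) = 0 := by
    let L : A ⊗[S] B →ₗ[S] C :=
      (Algebra.TensorProduct.lift f g fun _ _ => Commute.all _ _).toLinearMap
    have hx' : L (Finsupp.linearCombination S (a.tensorProduct b) ((a.tensorProduct b).repr x))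
        = 0 := by
      rw [(a.tensorProduct b).linearCombination_repr x]; exact hx
    rw [← hx', Finsupp.apply_linearCombination]
    refine congrArg (fun w => Finsupp.linearCombination S w _) (funext fun q => ?_)
    show _ = (Algebra.TensorProduct.lift f g fun _ _ => Commute.all _ _) (a.tensorProduct b q)
    rw [Module.Basis.tensorProduct_apply', Algebra.TensorProduct.lift_tmul]
  exact (a.tensorProduct b).repr.map_eq_zero_iff.mp (linearIndependent_iff.mp hli _ h)

/-- The same for a product of three factors. -/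
theorem lift_injective_of_basis₃ {S A C : Type*} [CommRing S] [CommRing A] [Algebra S A]
    [CommRing C] [Algebra S C] {ι : Type*} (a : Module.Basis ι S A) (f : A →ₐ[S] C)
    (g : A ⊗[S] A →ₐ[S] C)
    (hli : LinearIndependent S fun q : ι × (ι × ι) => f (a q.1) * g (a q.2.1 ⊗ₜ a q.2.2)) :
    Function.Injective (Algebra.TensorProduct.lift f g fun _ _ => Commute.all _ _) :=
  lift_injective_of_basis a (a.tensorProduct a) f g
    (by simpa only [Module.Basis.tensorProduct_apply'] using hli)

namespace Model

variable {ℓ} [Fact ℓ.Prime] {G : Type} [AddCommGroup G] {act : GalQ →* AddMonoid.End G}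
  (M : Model ℓ act)

/-- Evaluation of `H ⊗ H` on pairs. -/
noncomputable def ev₂ : M.H ⊗[R] M.H →ₐ[R] (G × G → Qbar) :=
  Algebra.TensorProduct.lift ((pullAlg ℓ Prod.fst).comp M.H.val)
    ((pullAlg ℓ Prod.snd).comp M.H.val) fun _ _ => Commute.all _ _

omit [Fact ℓ.Prime] in
@[simp]
theorem ev₂_tmul (a b : M.H) (p : G × G) :
    M.ev₂ (a ⊗ₜ b) p = (a : G → Qbar) p.1 * (b : G → Qbar) p.2 := rfl

/-- Evaluation of `H ⊗ (H ⊗ H)` on triples. -/
noncomputable def ev₃ : M.H ⊗[R] (M.H ⊗[R] M.H) →ₐ[R] (G × (G × G) → Qbar) :=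
  Algebra.TensorProduct.lift ((pullAlg ℓ Prod.fst).comp M.H.val)
    ((pullAlg ℓ Prod.snd).comp M.ev₂) fun _ _ => Commute.all _ _

omit [Fact ℓ.Prime] in
@[simp]
theorem ev₃_tmul (a : M.H) (z : M.H ⊗[R] M.H) (p : G × (G × G)) :
    M.ev₃ (a ⊗ₜ z) p = (a : G → Qbar) p.1 * M.ev₂ z p.2 := rfl

omit [Fact ℓ.Prime] in
theorem restrict_ratLoc {X ι : Type*} {v : ι → X → Qbar} (hv : LinearIndependent Qbar v) :
    LinearIndependent R v := by
  rw [linearIndependent_iff'] at hv ⊢
  intro s g hg i hi
  refine algebraMap_ratLoc_injective ℓ (Eq.trans (hv s (fun j => algebraMap R Qbar (g j)) ?_ i hi)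
    (map_zero _).symm)
  funext x
  have := congrFun hg x
  simpa [Finset.sum_apply, Algebra.smul_def] using this

theorem ev₂_injective : Function.Injective M.ev₂ := by
  have := M.free
  have := M.finite
  suffices ∀ {ι : Type} (b : Module.Basis ι R M.H), Function.Injective M.ev₂ from
    this (Module.Free.chooseBasis R M.H)
  intro ι b
  have h := M.linearIndependent_basis b
  let f : M.H →ₐ[R] (G × G → Qbar) := (pullAlg ℓ Prod.fst).comp M.H.val
  let g : M.H →ₐ[R] (G × G → Qbar) := (pullAlg ℓ Prod.snd).comp M.H.val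
  have hpt : ∀ q : ι × ι, f (b q.1) * g (b q.2) =
      fun p => (b q.1 : G → Qbar) p.1 * (b q.2 : G → Qbar) p.2 :=
    fun q => funext fun p => by
      simp only [f, g, Pi.mul_apply, AlgHom.comp_apply, pullAlg_apply, Subalgebra.coe_val]
  have hli : LinearIndependent R fun q : ι × ι => f (b q.1) * g (b q.2) := by
    simp only [hpt]
    have h4 := restrict_ratLoc (ℓ := ℓ) (linearIndependent_mul h h)
    exact h4
  exact lift_injective_of_basis b b f g hli

theorem ev₃_injective : Function.Injective M.ev₃ := by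
  have := M.free
  have := M.finite
  suffices ∀ {ι : Type} (b : Module.Basis ι R M.H), Function.Injective M.ev₃ from
    this (Module.Free.chooseBasis R M.H)
  intro ι b
  have h := M.linearIndependent_basis b
  let f : M.H →ₐ[R] (G × (G × G) → Qbar) := (pullAlg ℓ Prod.fst).comp M.H.val
  let g : M.H ⊗[R] M.H →ₐ[R] (G × (G × G) → Qbar) := (pullAlg ℓ Prod.snd).comp M.ev₂
  have hpt : ∀ q : ι × (ι × ι), f (b q.1) * g (b q.2.1 ⊗ₜ b q.2.2) = fun p =>
      (b q.1 : G → Qbar) p.1 * ((b q.2.1 : G → Qbar) p.2.1 * (b q.2.2 : G → Qbar) p.2.2) :=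
    fun q => funext fun p => by
      simp only [f, g, Pi.mul_apply, AlgHom.comp_apply, pullAlg_apply, Subalgebra.coe_val,
        ev₂_tmul]
  have hli : LinearIndependent R fun q : ι × (ι × ι) => f (b q.1) * g (b q.2.1 ⊗ₜ b q.2.2) := by
    simp only [hpt]
    have h4 := restrict_ratLoc (ℓ := ℓ) (linearIndependent_mul h (linearIndependent_mul h h))
    exact h4
  exact lift_injective_of_basis₃ b f g hli

omit [Fact ℓ.Prime] in
theorem exists_ev₂_eq (φ : M.H) :
    ∃ z, M.ev₂ z = fun p => (φ : G → Qbar) (p.1 + p.2) := by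
  suffices h : Submodule.span R {F : G × G → Qbar | ∃ a ∈ M.H, ∃ b ∈ M.H,
      F = fun p => a p.1 * b p.2} ≤ LinearMap.range M.ev₂.toLinearMap by
    obtain ⟨z, hz⟩ := h (M.add_mem _ φ.2)
    exact ⟨z, hz⟩
  rw [Submodule.span_le]
  rintro _ ⟨a, ha, b, hb, rfl⟩
  exact ⟨(⟨a, ha⟩ : M.H) ⊗ₜ (⟨b, hb⟩ : M.H), by ext p; simp⟩

/-- Comultiplication. -/
noncomputable def comul : M.H →ₐ[R] M.H ⊗[R] M.H where
  toFun φ := (M.exists_ev₂_eq φ).choose
  map_one' := M.ev₂_injective (by rw [(M.exists_ev₂_eq 1).choose_spec, map_one]; rfl)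
  map_mul' a b := M.ev₂_injective (by
    rw [map_mul, (M.exists_ev₂_eq _).choose_spec, (M.exists_ev₂_eq a).choose_spec,
      (M.exists_ev₂_eq b).choose_spec]; rfl)
  map_zero' := M.ev₂_injective (by rw [(M.exists_ev₂_eq 0).choose_spec, map_zero]; rfl)
  map_add' a b := M.ev₂_injective (by
    rw [map_add, (M.exists_ev₂_eq _).choose_spec, (M.exists_ev₂_eq a).choose_spec,
      (M.exists_ev₂_eq b).choose_spec]; rfl)
  commutes' r := M.ev₂_injective (by rw [(M.exists_ev₂_eq _).choose_spec, AlgHom.commutes]; rfl)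

@[simp]
theorem ev₂_comul (φ : M.H) (p : G × G) : M.ev₂ (M.comul φ) p = (φ : G → Qbar) (p.1 + p.2) :=
  congrFun (M.exists_ev₂_eq φ).choose_spec p

/-- Counit. -/
noncomputable def counit : M.H →ₐ[R] R where
  toFun φ := (M.apply_zero_mem φ.2).choose
  map_one' := algebraMap_ratLoc_injective ℓ (by
    rw [← (M.apply_zero_mem (1 : M.H).2).choose_spec, map_one]; rfl)
  map_mul' a b := algebraMap_ratLoc_injective ℓ (by
    rw [map_mul, ← (M.apply_zero_mem (a * b).2).choose_spec,
      ← (M.apply_zero_mem a.2).choose_spec, ← (M.apply_zero_mem b.2).choose_spec]; rfl)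
  map_zero' := algebraMap_ratLoc_injective ℓ (by
    rw [← (M.apply_zero_mem (0 : M.H).2).choose_spec, map_zero]; rfl)
  map_add' a b := algebraMap_ratLoc_injective ℓ (by
    rw [map_add, ← (M.apply_zero_mem (a + b).2).choose_spec,
      ← (M.apply_zero_mem a.2).choose_spec, ← (M.apply_zero_mem b.2).choose_spec]; rfl)
  commutes' r := algebraMap_ratLoc_injective ℓ (by
    rw [← (M.apply_zero_mem (algebraMap R M.H r).2).choose_spec]; rfl)

@[simp]
theorem algebraMap_counit (φ : M.H) : algebraMap R Qbar (M.counit φ) = (φ : G → Qbar) 0 :=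
  (M.apply_zero_mem φ.2).choose_spec.symm

theorem map_counit_left (z : M.H ⊗[R] M.H) (x : G) :
    ((Algebra.TensorProduct.lid R M.H
      (Algebra.TensorProduct.map M.counit (AlgHom.id R M.H) z) : M.H) : G → Qbar) x
      = M.ev₂ z (0, x) := by
  induction z using TensorProduct.induction_on with
  | zero => simp
  | tmul a b =>
    rw [Algebra.TensorProduct.map_tmul, Algebra.TensorProduct.lid_tmul, ev₂_tmul,
      ← M.algebraMap_counit a, ← Algebra.smul_def]
    rfl
  | add a b ha hb => simp [map_add, ha, hb]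

theorem map_counit_right (z : M.H ⊗[R] M.H) (x : G) :
    ((Algebra.TensorProduct.rid R R M.H
      (Algebra.TensorProduct.map (AlgHom.id R M.H) M.counit z) : M.H) : G → Qbar) x
      = M.ev₂ z (x, 0) := by
  induction z using TensorProduct.induction_on with
  | zero => simp
  | tmul a b =>
    rw [Algebra.TensorProduct.map_tmul, Algebra.TensorProduct.rid_tmul, ev₂_tmul,
      ← M.algebraMap_counit b, mul_comm, ← Algebra.smul_def]
    rfl
  | add a b ha hb => simp [map_add, ha, hb]

omit [Fact ℓ.Prime] in
theorem ev₃_assoc (z : M.H ⊗[R] M.H) (c : M.H) (p : G × (G × G)) :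
    M.ev₃ (Algebra.TensorProduct.assoc R R R M.H M.H M.H (z ⊗ₜ c)) p
      = M.ev₂ z (p.1, p.2.1) * (c : G → Qbar) p.2.2 := by
  induction z using TensorProduct.induction_on with
  | zero => simp
  | tmul a b => simp [mul_assoc]
  | add a b ha hb => simp [TensorProduct.add_tmul, map_add, ha, hb, add_mul]

theorem ev₃_assoc_map (z : M.H ⊗[R] M.H) (p : G × (G × G)) :
    M.ev₃ (Algebra.TensorProduct.assoc R R R M.H M.H M.H
      (Algebra.TensorProduct.map M.comul (AlgHom.id R M.H) z)) p
      = M.ev₂ z (p.1 + p.2.1, p.2.2) := by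
  induction z using TensorProduct.induction_on with
  | zero => simp
  | tmul a b => simp [ev₃_assoc]
  | add a b ha hb => simp [map_add, ha, hb]

theorem ev₃_map (z : M.H ⊗[R] M.H) (p : G × (G × G)) :
    M.ev₃ (Algebra.TensorProduct.map (AlgHom.id R M.H) M.comul z) p
      = M.ev₂ z (p.1, p.2.1 + p.2.2) := by
  induction z using TensorProduct.induction_on with
  | zero => simp
  | tmul a b => simp
  | add a b ha hb => simp [map_add, ha, hb]

/-- The bialgebra structure. -/
@[reducible]
noncomputable def bialgebra : Bialgebra R M.H :=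
  Bialgebra.ofAlgHom M.comul M.counit
    (AlgHom.ext fun φ => M.ev₃_injective (funext fun p => by
      show M.ev₃ (Algebra.TensorProduct.assoc R R R M.H M.H M.H
        (Algebra.TensorProduct.map M.comul (AlgHom.id R M.H) (M.comul φ))) p
        = M.ev₃ (Algebra.TensorProduct.map (AlgHom.id R M.H) M.comul (M.comul φ)) p
      rw [M.ev₃_assoc_map, M.ev₃_map]
      simp [add_assoc]))
    (AlgHom.ext fun φ =>
      (Algebra.TensorProduct.lid R M.H).injective (Subtype.ext (funext fun x => by
        show ((Algebra.TensorProduct.lid R M.H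
          (Algebra.TensorProduct.map M.counit (AlgHom.id R M.H) (M.comul φ)) : M.H) :
            G → Qbar) x = _
        rw [M.map_counit_left]
        simp)))
    (AlgHom.ext fun φ =>
      (Algebra.TensorProduct.rid R R M.H).injective (Subtype.ext (funext fun x => by
        show ((Algebra.TensorProduct.rid R R M.H
          (Algebra.TensorProduct.map (AlgHom.id R M.H) M.counit (M.comul φ)) : M.H) :
            G → Qbar) x = _
        rw [M.map_counit_right]
        simp)))

variable [Finite G]

/-- Antipode. -/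
noncomputable def antipodeHom : M.H →ₐ[R] M.H :=
  ((pullAlg ℓ fun x : G => -x).comp M.H.val).codRestrict M.H fun φ => M.neg_comp_mem φ.2

@[simp]
theorem antipodeHom_apply (φ : M.H) (x : G) :
    ((M.antipodeHom φ : M.H) : G → Qbar) x = (φ : G → Qbar) (-x) := rfl

theorem lift_antipode_left (z : M.H ⊗[R] M.H) (x : G) :
    ((Algebra.TensorProduct.lift M.antipodeHom (AlgHom.id R M.H) (fun _ _ => Commute.all _ _) z :
      M.H) : G → Qbar) x = M.ev₂ z (-x, x) := by
  induction z using TensorProduct.induction_on with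
  | zero => simp
  | tmul a b => simp
  | add a b ha hb => simp [map_add, ha, hb]

theorem lift_antipode_right (z : M.H ⊗[R] M.H) (x : G) :
    ((Algebra.TensorProduct.lift (AlgHom.id R M.H) M.antipodeHom (fun _ _ => Commute.all _ _) z :
      M.H) : G → Qbar) x = M.ev₂ z (x, -x) := by
  induction z using TensorProduct.induction_on with
  | zero => simp
  | tmul a b => simp
  | add a b ha hb => simp [map_add, ha, hb]

/-- The Hopf algebra structure. -/
@[reducible]
noncomputable def hopfAlgebra : HopfAlgebra R M.H :=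
  letI := M.bialgebra
  HopfAlgebra.ofAlgHom M.antipodeHom
    (AlgHom.ext fun φ => Subtype.ext (funext fun x => by
      show ((Algebra.TensorProduct.lift M.antipodeHom (AlgHom.id R M.H)
        (fun _ _ => Commute.all _ _) (M.comul φ) : M.H) : G → Qbar) x
        = algebraMap R Qbar (M.counit φ)
      rw [M.lift_antipode_left]
      simp))
    (AlgHom.ext fun φ => Subtype.ext (funext fun x => by
      show ((Algebra.TensorProduct.lift (AlgHom.id R M.H) M.antipodeHom
        (fun _ _ => Commute.all _ _) (M.comul φ) : M.H) : G → Qbar) x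
        = algebraMap R Qbar (M.counit φ)
      rw [M.lift_antipode_right]
      simp))

omit [Fact ℓ.Prime] [Finite G] in
theorem ev₂_comm (z : M.H ⊗[R] M.H) (p : G × G) :
    M.ev₂ (TensorProduct.comm R M.H M.H z) p = M.ev₂ z (p.2, p.1) := by
  induction z using TensorProduct.induction_on with
  | zero => simp
  | tmul a b => simp [mul_comm]
  | add a b ha hb => simp [map_add, ha, hb]

theorem isCocomm :
    letI := M.hopfAlgebra
    Coalgebra.IsCocomm R M.H :=
  letI := M.hopfAlgebra
  ⟨LinearMap.ext fun φ => M.ev₂_injective (funext fun p => by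
    show M.ev₂ (TensorProduct.comm R M.H M.H (M.comul φ)) p = M.ev₂ (M.comul φ) p
    rw [M.ev₂_comm]
    simp [add_comm])⟩

/-- Evaluation at a point, as a point of the Hopf algebra. -/
noncomputable def point (x : G) : WithConv (M.H →ₐ[R] Qbar) :=
  WithConv.toConv ((Pi.evalAlgHom R (fun _ : G => Qbar) x).comp M.H.val)

theorem point_bijective : Function.Bijective M.point := by
  refine ⟨fun x y h => M.separates x y fun φ hφ => ?_, fun f => ?_⟩
  · exact DFunLike.congr_fun (congrArg WithConv.ofConv h) ⟨φ, hφ⟩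
  · obtain ⟨x, hx⟩ := M.exists_eval_eq f.ofConv
    exact ⟨x, congrArg WithConv.toConv (AlgHom.ext fun φ => (hx φ).symm)⟩

omit [Fact ℓ.Prime] [Finite G] in
theorem lift_eval (z : M.H ⊗[R] M.H) (x y : G) :
    Algebra.TensorProduct.lift (M.point x).ofConv (M.point y).ofConv
      (fun _ _ => Commute.all _ _) z = M.ev₂ z (x, y) := by
  induction z using TensorProduct.induction_on with
  | zero => simp
  | tmul a b => simp [point]
  | add a b ha hb => simp [map_add, ha, hb]

theorem point_add (x y : G) :
    letI := M.hopfAlgebra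
    M.point (x + y) = M.point x * M.point y := by
  let := M.hopfAlgebra
  refine (congrArg WithConv.toConv (AlgHom.ext fun φ => ?_) :
    WithConv.toConv (M.point (x + y)).ofConv = WithConv.toConv (M.point x * M.point y).ofConv)
  rw [AlgHom.convMul_apply]
  show (φ : G → Qbar) (x + y) = Algebra.TensorProduct.lift _ _ _ (M.comul φ)
  rw [M.lift_eval]
  simp

include M in
/-- A model gives a finite flat cocommutative Hopf algebra. -/
theorem exists_hopfAlgebra :
    ∃ (H : Type) (_ : CommRing H) (_ : HopfAlgebra R H),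
      Module.Finite R H ∧ Module.Flat R H ∧ Coalgebra.IsCocomm R H ∧
      ∃ e : WithConv (H →ₐ[R] Qbar) ≃ G,
        (∀ f g, e (f * g) = e f + e g) ∧
        ∀ (σ : GalQ) (f g : WithConv (H →ₐ[R] Qbar)),
          (∀ h : H, g h = σ (f h)) → e g = act σ (e f) := by
  let := M.hopfAlgebra
  have := M.finite
  have := M.free
  have hflat : Module.Flat R M.H := Module.Flat.of_free
  let e := Equiv.ofBijective _ M.point_bijective
  refine ⟨M.H, inferInstance, inferInstance, inferInstance, hflat, M.isCocomm,
    e.symm, fun f g => ?_, fun σ f g h => ?_⟩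
  · rw [Equiv.symm_apply_eq]
    show f * g = M.point (e.symm f + e.symm g)
    rw [M.point_add]
    show f * g = e (e.symm f) * e (e.symm g)
    rw [e.apply_symm_apply, e.apply_symm_apply]
  · rw [Equiv.symm_apply_eq]
    show g = M.point (act σ (e.symm f))
    have hf : M.point (e.symm f) = f := e.apply_symm_apply f
    refine congrArg WithConv.toConv (AlgHom.ext fun φ => ?_)
    show g φ = (φ : G → Qbar) (act σ (e.symm f))
    rw [M.equivariant _ φ.2, h φ]
    conv_lhs => rw [← hf]
    rfl

end Model

end Fermat.Agent.FlatModel
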