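import Fermat.Agent.FlatModel.Rigid

/-!
# The residual bounds in the addition law

For large `n` the sections of `n·pt - E` attain the top order and generate the ideal of `E`
(`exists_ample`); this gives the bounds `mem_jPart_of_mul` and `mem_jPart_of_mul_mul` on reduced
sections used in the addition law.
-/

set_option autoImplicit false

noncomputable section

open HahnSeries AlgebraicCurve

namespace Fermat.Agent.Reduction.CurveRed

variable {K k : Type*} [Field K] [Field k] {A : ValuationSubring K} {π : A →+* k}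
variable {S : CurveRed A π} {n₀ : ℕ}

/-- A shortcut for a slow instance search in this file. -/
local instance sectionsAlgebraF : Algebra K S.F := inferInstance

variable (S n₀) in
/-- The sections of `n·pt - E` attain the top order and generate the ideal. -/
def Ample (E : Divisor K S.F) (n : ℤ) : Prop :=
  S.BigFor n₀ E (n - 1) ∧
    S.effIdeal E ≤ Submodule.span S.Cbar (S.jPart E n : Set (LaurentSeries k))

/-- `n·pt - E` is ample for all large `n`. -/
theorem exists_ample (hgap : S.GapBound n₀) {E : Divisor K S.F} (hE : S.IsEff E) :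
    ∃ B : ℤ, ∀ n, B ≤ n → S.Ample n₀ E n := by
  obtain ⟨B, hB⟩ := exists_le_span_jPart hgap hE
  refine ⟨max B ((n₀ : ℤ) + S.g + 2 * Divisor.degree E + 1), fun n hn => ⟨?_, hB n (by omega)⟩⟩
  rw [BigFor]
  omega

theorem Ample.exists_top (hgap : S.GapBound n₀) {E : Divisor K S.F} (hE : S.IsEff E) {n : ℤ}
    (h : S.Ample n₀ E n) : ∃ x ∈ S.jPart E n, x ≠ 0 ∧ x.order = -(n - S.loss E) :=
  exists_order_eq_jPart hgap hE h.1

theorem smul_coe_eq (c : S.Cbar) (y : LaurentSeries k) : c • y = (c : LaurentSeries k) * y :=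
  Algebra.smul_def c y

/-- If `x` multiplies the sections of `m·pt - E` into `t` times those of `m'·pt - G`, where `t`
reduces a function with zeros `E + R`, then `x` is a section of `m'·pt - (R + G)`. -/
theorem mem_jPart_of_mul (hgap : S.GapBound n₀) {E R G : Divisor K S.F} (hE : S.IsEff E)
    (hR : S.IsEff R) (hG : S.IsEff G) {m m' : ℤ} (hEm : S.Ample n₀ E m) {p : S.F} (hp : p ≠ 0)
    (hpdiv : ∀ v, v.ord p = (E + R) v - S.atPt m v) {t : LaurentSeries k} (ht : t ≠ 0)
    (hpt : Red A π (p : LaurentSeries K) t) {x : LaurentSeries k}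
    (hx : ∀ a ∈ S.jPart E m, ∃ h ∈ S.jPart G m', a * x = t * h) :
    x ∈ S.jPart (R + G) m' := by
  have hspan := effIdeal_eq_span (hE.add hR) hp hpdiv ht hpt
  have htmem : t ∈ S.effIdeal (E + R) := hspan ▸ Submodule.mem_span_singleton_self t
  refine ⟨?_, mem_effIdeal_of_mul_le hgap (hR.add hG) hE fun y hy => ?_⟩
  · obtain ⟨a, ha, ha0, hao⟩ := hEm.exists_top hgap hE
    obtain ⟨h, hh, he⟩ := hx a ha
    rcases eq_or_ne x 0 with rfl | hx0
    · exact fun _ _ => rfl
    have hh0 : h ≠ 0 := fun h0 => mul_ne_zero ha0 hx0 (by rw [he, h0, mul_zero])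
    obtain ⟨-, hto⟩ := degree_and_order_of_div hgap (hE.add hR) hp hpdiv ht hpt
    rw [loss_add hgap hE hR] at hto
    have h1 := congrArg HahnSeries.order he
    rw [HahnSeries.order_mul ha0 hx0, HahnSeries.order_mul ht hh0, hao, hto] at h1
    have h2 := (poleLE_iff_order hh0).mp hh.1
    refine (poleLE_iff_order hx0).mpr ?_
    rw [loss_add hgap hR hG]
    omega
  · have hy' := hEm.2 hy
    clear hy
    induction hy' using Submodule.span_induction with
    | mem a ha =>
      obtain ⟨h, hh, he⟩ := hx a ha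
      rw [mul_comm x a, he, show R + G + E = E + R + G by abel]
      exact effIdeal_mul_mem hgap (hE.add hR) hG htmem hh.2
    | zero => rw [mul_zero]; exact Submodule.zero_mem _
    | add a b _ _ ha hb =>
      rw [mul_add]
      exact Submodule.add_mem _ ha hb
    | smul c a _ ha =>
      rw [smul_coe_eq, mul_left_comm, ← smul_coe_eq]
      exact Submodule.smul_mem _ c ha

/-- If `x·t` multiplies the sections of `m'·pt - G` into `s` times those of `(m + M)·pt - E`, where
`s` reduces a function with zeros `R + G + Ez`, then `x` is a section of `M·pt - Ez`. -/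
theorem mem_jPart_of_mul_mul (hgap : S.GapBound n₀) {E R G Ez : Divisor K S.F} (hE : S.IsEff E)
    (hR : S.IsEff R) (hG : S.IsEff G) (hEz : S.IsEff Ez) {m m' M : ℤ} (hGm : S.Ample n₀ G m')
    {p : S.F} (hp : p ≠ 0) (hpdiv : ∀ v, v.ord p = (E + R) v - S.atPt m v)
    {t : LaurentSeries k} (ht : t ≠ 0) (hpt : Red A π (p : LaurentSeries K) t) {f : S.F}
    (hf : f ≠ 0) (hfdiv : ∀ v, v.ord f = (R + G + Ez) v - S.atPt m' v) {s : LaurentSeries k}
    (hs : s ≠ 0) (hfs : Red A π (f : LaurentSeries K) s) {x : LaurentSeries k}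
    (hx : ∀ h ∈ S.jPart G m', ∃ a ∈ S.jPart E (m + M), t * h * x = s * a) :
    x ∈ S.jPart Ez M := by
  have hER := hE.add hR
  have hRGz := (hR.add hG).add hEz
  have hspan := effIdeal_eq_span hER hp hpdiv ht hpt
  have hspan' := effIdeal_eq_span hRGz hf hfdiv hs hfs
  have hsmem : s ∈ S.effIdeal (R + G + Ez) := hspan' ▸ Submodule.mem_span_singleton_self s
  refine ⟨?_, mem_effIdeal_of_mul_le hgap hEz (hER.add hG) fun y hy => ?_⟩
  · obtain ⟨h, hh, hh0, hho⟩ := hGm.exists_top hgap hG
    obtain ⟨a, ha, he⟩ := hx h hh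
    rcases eq_or_ne x 0 with rfl | hx0
    · exact fun _ _ => rfl
    have ha0 : a ≠ 0 := fun h0 =>
      mul_ne_zero (mul_ne_zero ht hh0) hx0 (by rw [he, h0, mul_zero])
    obtain ⟨-, hto⟩ := degree_and_order_of_div hgap hER hp hpdiv ht hpt
    obtain ⟨-, hso⟩ := degree_and_order_of_div hgap hRGz hf hfdiv hs hfs
    rw [loss_add hgap hE hR] at hto
    rw [loss_add hgap (hR.add hG) hEz, loss_add hgap hR hG] at hso
    have h1 := congrArg HahnSeries.order he
    rw [HahnSeries.order_mul (mul_ne_zero ht hh0) hx0, HahnSeries.order_mul ht hh0,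
      HahnSeries.order_mul hs ha0, hho, hto, hso] at h1
    have h2 := (poleLE_iff_order ha0).mp ha.1
    refine (poleLE_iff_order hx0).mpr ?_
    omega
  · rw [hgap.effIdeal_add hER hG, hspan] at hy
    obtain ⟨y', hy', rfl⟩ := Submodule.mem_span_singleton_mul.mp hy
    have hy'' := hGm.2 hy'
    clear hy hy'
    induction hy'' using Submodule.span_induction with
    | mem h hh =>
      obtain ⟨a, ha, he⟩ := hx h hh
      rw [mul_comm x, he, show Ez + (E + R + G) = R + G + Ez + E by abel]
      exact effIdeal_mul_mem hgap hRGz hE hsmem ha.2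
    | zero => rw [mul_zero, mul_zero]; exact Submodule.zero_mem _
    | add a b _ _ ha hb =>
      rw [mul_add, mul_add]
      exact Submodule.add_mem _ ha hb
    | smul c a _ ha =>
      rw [smul_coe_eq, mul_left_comm t, mul_left_comm, ← smul_coe_eq]
      exact Submodule.smul_mem _ c ha

/-- A nonzero section of `D` is a function whose divisor is `R - D` with `R` effective. -/
theorem exists_zero_divisor {D : Divisor K S.F} {y : LaurentSeries K} (hy : y ∈ S.space D)
    (hy0 : y ≠ 0) : ∃ (u : S.F) (R : Divisor K S.F), (u : LaurentSeries K) = y ∧ u ≠ 0 ∧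
      S.IsEff R ∧ ∀ v, v.ord u = R v - D v := by
  obtain ⟨u, rfl, hu⟩ := S.exists_of_mem_space hy
  have hu0 : u ≠ 0 := fun h => hy0 (by rw [h]; rfl)
  obtain ⟨Eu, hEu, -⟩ := S.exists_div hu0
  refine ⟨u, Eu + D, rfl, hu0, fun v => ?_, fun v => ?_⟩
  · rw [Finsupp.add_apply, hEu]
    have := (hu v).resolve_left hu0
    omega
  · rw [Finsupp.add_apply, hEu]
    ring

/-- Transporting sections along a quotient of functions. -/
theorem exists_mul_eq_mul {D D' : Divisor K S.F} {p q : S.F} (hp : p ≠ 0)
    (hle : ∀ v, v.ord p - D' v ≤ v.ord q - D v) {y : LaurentSeries K} (hy : y ∈ S.space D) :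
    ∃ w ∈ S.space D', y * (q : LaurentSeries K) = (p : LaurentSeries K) * w := by
  obtain ⟨u, rfl, hu⟩ := S.exists_of_mem_space hy
  refine ⟨((u * q / p : S.F) : LaurentSeries K), S.coe_mem_space.mpr fun v => ?_, ?_⟩
  · rcases eq_or_ne u 0 with rfl | hu0
    · simp
    rcases eq_or_ne q 0 with rfl | hq0
    · simp
    right
    rw [FF.ord_div v (mul_ne_zero hu0 hq0) hp, v.ord_mul hu0 hq0]
    have := (hu v).resolve_left hu0
    have := hle v
    omega
  · rw [← MulMemClass.coe_mul, ← MulMemClass.coe_mul, mul_div_cancel₀ _ hp]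

end Fermat.Agent.Reduction.CurveRed
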