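import Fermat.Agent.FlatModel.Frame
import Fermat.Agent.FlatModel.Sections
import Fermat.Agent.Gal.Residue

/-!
# Adding effective divisors in families

From frames of `L(M·pt - Ea)` and `L(M·pt - Eb)` one obtains a frame of `L(M·pt - Ec)` over the
same algebra, when `Ea + Eb ~ Ec + G` with `Ec` rigid and `M` is large.

Main result: `exists_frame_add`.
-/

set_option autoImplicit false

noncomputable section

open AlgebraicCurve HahnSeries IsLocalRing

namespace Fermat.Agent.FlatModel

open Fermat.Agent.Reduction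

variable {A : ValuationSubring Qbar} {S : CurveRed A (IsLocalRing.residue A)} {n₀ : ℕ}

/-- A shortcut for a slow instance search in this file. -/
local instance additionAlgebraF : Algebra Qbar S.F := inferInstance

local notation "𝕜" => ResidueField A

variable (S) in
theorem exists_latBasis_space {D : Divisor Qbar S.F} (hD : S.OffNonpos D) :
    Nonempty (LatBasis (A := A) (π := residue A) IsLocalRing.residue_surjective (S.space D)
      (Module.finrank Qbar (S.space D))) :=
  have := S.finiteDimensional_space D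
  exists_latBasis _ _ (S.normalizable_space hD)

theorem sub_le_atPt (n : ℤ) (E : Divisor Qbar S.F) (hE : S.IsEff E) (v : Place Qbar S.F) :
    (S.atPt n - E) v ≤ S.atPt n v := by
  rw [Finsupp.sub_apply]
  have := hE v
  omega

variable {Z : Type*} {B : Subalgebra A (Z → A)}

/-- Multiplying a frame by a family of nonzero reduction. -/
theorem exists_frame_map_mul {V Vy : Submodule Qbar (LaurentSeries Qbar)} {R Ry : ℕ}
    (b : LatBasis (A := A) (π := residue A) IsLocalRing.residue_surjective V R)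
    (by' : LatBasis (A := A) (π := residue A) IsLocalRing.residue_surjective Vy Ry)
    {W : Z → Submodule Qbar (LaurentSeries Qbar)} {r : ℕ} (F : Frame B W r)
    (hWV : ∀ z, W z ≤ V) (y : Z → LaurentSeries Qbar) (x : Z → LaurentSeries 𝕜)
    (hy : CoeffIn B y) (hyV : ∀ z, y z ∈ Vy) (hred : ∀ z, Red A (residue A) (y z) (x z))
    (hx : ∀ z, x z ≠ 0) :
    ∃ F' : Frame B (fun z => (W z).map (mulLin (y z))) r,
      ∀ j z, F'.rvec j z = x z * F.rvec j z := by
  have hy0 : ∀ z, y z ≠ 0 := fun z h => hx z ((h ▸ hred z).unique red_zero)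
  refine ⟨⟨fun j z => y z * F.vec j z, fun j z => x z * F.rvec j z,
    fun j => CoeffIn.mul by' b hy (F.coeff j) hyV fun z => hWV z (F.mem j z),
    fun j z => ⟨_, F.mem j z, rfl⟩, fun j z => (hred z).mul (F.red j z), fun z => ?_,
    fun z => ?_, fun z => ?_⟩, fun _ _ => rfl⟩
  · exact (F.li z).map' (mulLin (x z)) (LinearMap.ker_eq_bot.mpr (mulLin_injective (hx z)))
  · have := F.fin z
    exact Module.Finite.map _ _
  · rw [← (Submodule.equivMapOfInjective _ (mulLin_injective (hy0 z)) _).finrank_eq, F.finrank z]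

/-- A constant frame. -/
theorem exists_frame_const {V : Submodule Qbar (LaurentSeries Qbar)} {R : ℕ}
    (b : LatBasis (A := A) (π := residue A) IsLocalRing.residue_surjective V R) :
    ∃ F : Frame B (fun _ => V) R, ∀ j z, F.rvec j z = b.rvec j := by
  refine ⟨⟨fun j _ => b.vec j, fun j _ => b.rvec j, fun j => CoeffIn.const (b.red j),
    fun j _ => b.mem j, fun j _ => b.red j, fun _ => ?_, fun _ => finite_of_latBasis b,
    fun _ => b.finrank_eq⟩, fun _ _ => rfl⟩
  rw [Fintype.linearIndependent_iff]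
  intro g hg l
  have h1 := congrArg (fun x : LaurentSeries 𝕜 => x.coeff (b.idx l)) hg
  simpa [HahnSeries.coeff_sum, b.rvec_coeff] using h1

theorem smulC_mul {R : Type*} [Field R] (c : R) (y z : LaurentSeries R) :
    c • y * z = c • (y * z) := by
  rw [smul_eq_algebraMap_mul, smul_eq_algebraMap_mul, mul_assoc]

theorem mul_smulC {R : Type*} [Field R] (c : R) (y z : LaurentSeries R) :
    y * (c • z) = c • (y * z) := by
  rw [smul_eq_algebraMap_mul, smul_eq_algebraMap_mul, mul_left_comm]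

theorem span_mul_le {ι κ : Type*} (u : ι → LaurentSeries 𝕜) (v : κ → LaurentSeries 𝕜) :
    Submodule.span 𝕜 {z | ∃ x ∈ Submodule.span 𝕜 (Set.range u),
      ∃ y ∈ Submodule.span 𝕜 (Set.range v), z = x * y} ≤
      Submodule.span 𝕜 (Set.range fun p : ι × κ => u p.1 * v p.2) := by
  rw [Submodule.span_le]
  rintro _ ⟨x, hx, y, hy, rfl⟩
  rw [SetLike.mem_coe]
  induction hx using Submodule.span_induction with
  | mem a ha =>
    obtain ⟨i, rfl⟩ := ha
    induction hy using Submodule.span_induction with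
    | mem c hc =>
      obtain ⟨j, rfl⟩ := hc
      exact Submodule.subset_span ⟨(i, j), rfl⟩
    | zero => rw [mul_zero]; exact Submodule.zero_mem _
    | add c e _ _ hc he => rw [mul_add]; exact Submodule.add_mem _ hc he
    | smul c e _ he => rw [mul_smulC]; exact Submodule.smul_mem _ c he
  | zero => rw [zero_mul]; exact Submodule.zero_mem _
  | add c e _ _ hc he => rw [add_mul]; exact Submodule.add_mem _ hc he
  | smul c e _ he => rw [smulC_mul]; exact Submodule.smul_mem _ c he

variable (S n₀) in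
/-- `M` is large for adding `Ea` and `Eb` with correction `G`. -/
def LargeAdd (Ea Eb G : Divisor Qbar S.F) (M : ℤ) : Prop :=
  (n₀ : ℤ) + 5 * S.g + 1 ≤ M ∧ S.Ample n₀ (Ea + Eb) (M + M) ∧ S.Ample n₀ G (M + M) ∧
    (S.jPart (Ea + Eb) (M + M) ≤
      Submodule.span 𝕜 {z | ∃ x ∈ S.jPart Ea M, ∃ y ∈ S.jPart Eb M, z = x * y}) ∧
    S.jPart (Ea + Eb + 0) (M + M + M) ≤
      Submodule.span 𝕜 {z | ∃ x ∈ S.jPart (Ea + Eb) (M + M), ∃ y ∈ S.jPart 0 M, z = x * y}

theorem exists_largeAdd (hgap : S.GapBound n₀) {Ea Eb G : Divisor Qbar S.F} (ha : S.IsEff Ea)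
    (hb : S.IsEff Eb) (hG : S.IsEff G) :
    ∃ N : ℤ, ∀ M, N ≤ M → LargeAdd S n₀ Ea Eb G M := by
  obtain ⟨B₁, h₁⟩ := CurveRed.exists_ample hgap (ha.add hb)
  obtain ⟨B₂, h₂⟩ := CurveRed.exists_ample hgap hG
  obtain ⟨B₃, h₃⟩ := CurveRed.exists_span_mul_jPart hgap ha hb
  obtain ⟨B₄, h₄⟩ := CurveRed.exists_span_mul_jPart hgap (ha.add hb) CurveRed.isEff_zero
  exact ⟨max ((n₀ : ℤ) + 5 * S.g + 1) (max (max B₁ B₂) (max B₃ B₄)), fun M hM =>
    ⟨by omega, h₁ _ (by omega), h₂ _ (by omega), h₃ _ _ (by omega) (by omega),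
      h₄ _ _ (by omega) (by omega)⟩⟩

/-- **Addition.** -/
theorem exists_frame_add [Finite Z] [Nonempty Z] [Infinite (ResidueField A)]
    (hgap : S.GapBound n₀) {M : ℤ} {r : ℕ} {Ea Eb Ec : Z → Divisor Qbar S.F}
    {G : Divisor Qbar S.F} (ha : ∀ z, S.IsEff (Ea z)) (hb : ∀ z, S.IsEff (Eb z))
    (hc : ∀ z, S.IsEff (Ec z)) (hG : S.IsEff G) (hda : ∀ z, Divisor.degree (Ea z) = S.g)
    (hdb : ∀ z, Divisor.degree (Eb z) = S.g) (hdc : ∀ z, Divisor.degree (Ec z) = S.g)
    (hdG : Divisor.degree G = S.g) (hcl : ∀ z, S.LinEq (Ea z + Eb z) (Ec z + G))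
    (hrig : ∀ z, S.Rigid (Ec z)) (hlarge : ∀ z, LargeAdd S n₀ (Ea z) (Eb z) G M)
    (Fa : Frame B (fun z => S.space (S.atPt M - Ea z)) r)
    (Fb : Frame B (fun z => S.space (S.atPt M - Eb z)) r) :
    Nonempty (Frame B (fun z => S.space (S.atPt M - Ec z)) r) := by
  classical
  obtain ⟨z₀⟩ := ‹Nonempty Z›
  have hM := (hlarge z₀).1
  have hbig : ∀ (E : Divisor Qbar S.F) (m : ℤ), Divisor.degree E ≤ 2 * (S.g : ℤ) → M ≤ m →
      S.BigFor n₀ E m := fun E m hE hm => by rw [CurveRed.BigFor]; omega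
  have hoff : ∀ (m : ℤ), S.OffNonpos (S.atPt m) := S.offNonpos_atPt
  obtain ⟨b1⟩ := exists_latBasis_space S (hoff M)
  obtain ⟨b2⟩ := exists_latBasis_space S (hoff (M + M))
  obtain ⟨b3⟩ := exists_latBasis_space S (hoff (M + M + M))
  obtain ⟨b4⟩ := exists_latBasis_space S (hoff (M + M + (M + M)))
  obtain ⟨b5⟩ := exists_latBasis_space S (hoff (M + M + (M + M + M)))
  obtain ⟨bG⟩ := exists_latBasis_space S ((hG.offNonpos (M + M)))
  have hrM : (r : ℤ) = M - S.g + 1 - S.g := by
    rw [← Fa.finrank z₀]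
    have h := (CurveRed.finrank_jPart hgap (ha z₀)
      (hbig _ _ (by rw [hda]; omega) le_rfl)).2.2
    rw [hda] at h
    exact h
  -- the products
  set E2 : Z → Divisor Qbar S.F := fun z => Ea z + Eb z with hE2
  have he2 : ∀ z, S.IsEff (E2 z) := fun z => (ha z).add (hb z)
  have hd2 : ∀ z, Divisor.degree (E2 z) = 2 * (S.g : ℤ) := fun z => by
    rw [hE2, map_add, hda, hdb]; ring
  set r₂ : ℕ := (M + M - 2 * S.g + 1 - S.g).toNat with hr₂
  have hdim2 : ∀ z, redSub S.surj (S.space (S.atPt (M + M) - E2 z)) = S.jPart (E2 z) (M + M) ∧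
      Module.finrank 𝕜 (S.jPart (E2 z) (M + M)) = r₂ ∧
      Module.finrank Qbar (S.space (S.atPt (M + M) - E2 z)) = r₂ := fun z => by
    obtain ⟨h1, h2, h3⟩ := CurveRed.finrank_jPart hgap (he2 z)
      (hbig _ (M + M) (hd2 z).le (by omega))
    rw [hd2] at h2 h3
    exact ⟨h1, by omega, by omega⟩
  have hsub : ∀ (m : ℤ) (E : Divisor Qbar S.F), S.IsEff E →
      S.space (S.atPt m - E) ≤ S.space (S.atPt m) :=
    fun m E hE => S.space_mono (sub_le_atPt m E hE)
  have hFspan : ∀ (E : Z → Divisor Qbar S.F) (hE : ∀ z, S.IsEff (E z))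
      (hd : ∀ z, Divisor.degree (E z) = S.g) (F : Frame B (fun z => S.space (S.atPt M - E z)) r)
      (z : Z), S.jPart (E z) M = Submodule.span 𝕜 (Set.range fun j => F.rvec j z) := by
    intro E hE hd F z
    rw [← (CurveRed.finrank_jPart hgap (hE z) (hbig _ M (by rw [hd]; omega) le_rfl)).1]
    exact F.span_rvec S.surj z
  obtain ⟨P⟩ := exists_frame_of_image b2 (B := B)
    (W := fun z => S.space (S.atPt (M + M) - E2 z)) (r := r₂)
    (fun z => hsub _ _ (he2 z)) (fun z => S.finiteDimensional_space _) (fun z => (hdim2 z).2.2)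
    (fun (p : Fin r × Fin r) z => Fa.vec p.1 z * Fb.vec p.2 z)
    (fun p z => Fa.rvec p.1 z * Fb.rvec p.2 z)
    (fun p => CoeffIn.mul b1 b1 (Fa.coeff p.1) (Fb.coeff p.2)
      (fun z => hsub _ _ (ha z) (Fa.mem _ z)) fun z => hsub _ _ (hb z) (Fb.mem _ z))
    (fun p z => by
      have h := S.mul_mem_space (Fa.mem p.1 z) (Fb.mem p.2 z)
      rwa [show S.atPt M - Ea z + (S.atPt M - Eb z) = S.atPt (M + M) - E2 z by
        simp only [hE2, S.atPt_add]; abel] at h)
    (fun p z => (Fa.red p.1 z).mul (Fb.red p.2 z))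
    (fun z => by
      rw [← (hdim2 z).2.1]
      have h := (hlarge z).2.2.2.1
      rw [hFspan Ea ha hda Fa z, hFspan Eb hb hdb Fb z] at h
      have := FiniteDimensional.span_of_finite 𝕜
        (Set.finite_range fun p : Fin r × Fin r => Fa.rvec p.1 z * Fb.rvec p.2 z)
      exact Submodule.finrank_mono (h.trans (span_mul_le _ _)))
  have hPspan : ∀ z, S.jPart (E2 z) (M + M) = Submodule.span 𝕜 (Set.range fun j => P.rvec j z) :=
    fun z => (hdim2 z).1 ▸ P.span_rvec S.surj z
  -- the auxiliary section and its zeros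
  have hr₂pos : 0 < r₂ := by omega
  set i₀ : Fin r₂ := ⟨0, hr₂pos⟩
  set t : Z → LaurentSeries 𝕜 := fun z => P.rvec i₀ z with ht
  have ht0 : ∀ z, t z ≠ 0 := fun z => (P.li z).ne_zero i₀
  have hp : ∀ z, ∃ (u : S.F) (R : Divisor Qbar S.F), (u : LaurentSeries Qbar) = P.vec i₀ z ∧
      u ≠ 0 ∧ S.IsEff R ∧ ∀ v, v.ord u = (E2 z + R) v - S.atPt (M + M) v := by
    intro z
    obtain ⟨u, R, h1, h2, h3, h4⟩ := CurveRed.exists_zero_divisor (P.mem i₀ z)
      fun h => ht0 z ((h ▸ P.red i₀ z).unique red_zero)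
    refine ⟨u, R, h1, h2, h3, fun v => ?_⟩
    rw [h4 v]
    simp only [hE2, Finsupp.sub_apply, Finsupp.add_apply]
    ring
  choose p R hpvec hp0 hR hpdiv using hp
  have hpt : ∀ z, Red A (residue A) (p z : LaurentSeries Qbar) (t z) := fun z => by
    rw [hpvec]; exact P.red i₀ z
  have hpV : ∀ z, P.vec i₀ z ∈ S.space (S.atPt (M + M)) := fun z => hsub _ _ (he2 z) (P.mem _ z)
  obtain ⟨FG, hFG⟩ := exists_frame_const (B := B) bG
  obtain ⟨F4, hF4⟩ := exists_frame_map_mul b2 b2 FG (fun _ => hsub _ _ hG) (P.vec i₀) t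
    (P.coeff i₀) hpV (P.red i₀) ht0
  have hGspan : ∀ z, Submodule.span 𝕜 (Set.range fun j => F4.rvec j z) =
      (S.jPart G (M + M)).map (mulLin (t z)) := fun z => by
    rw [← (CurveRed.finrank_jPart hgap hG (hbig _ _ (by rw [hdG]; omega) (by omega))).1,
      show redSub S.surj (S.space (S.atPt (M + M) - G)) = _ from FG.span_rvec S.surj z,
      Submodule.map_span, ← Set.range_comp]
    congr 1
    ext w
    simp [hF4, mulLin]
  -- the function with zeros at `R + G + Ec`
  have hLE : ∀ z, S.LinEq (R z + G + Ec z) (S.atPt (M + M)) := fun z => by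
    have h1 : S.LinEq (E2 z + R z) (S.atPt (M + M)) :=
      ⟨p z, hp0 z, fun v => by rw [Finsupp.sub_apply, hpdiv z v]⟩
    refine CurveRed.LinEq.trans ?_ h1
    rw [show R z + G + Ec z = Ec z + G + R z by abel]
    exact (hcl z).symm.add (CurveRed.LinEq.refl _)
  choose f hf0 hfdiv using fun z => (hLE z).exists_fun
  set Wf : Z → Submodule Qbar (LaurentSeries Qbar) :=
    fun z => Submodule.span Qbar {(f z : LaurentSeries Qbar)} with hWf
  have hfmem : ∀ z, (f z : LaurentSeries Qbar) ∈ S.space (S.atPt (M + M)) := fun z => by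
    refine S.coe_mem_space.mpr fun v => Or.inr ?_
    rw [hfdiv z v]
    have := (((hR z).add hG).add (hc z)) v
    omega
  have hVmul : ∀ (m m' : ℤ), ∀ w ∈ S.space (S.atPt m), ∀ u ∈ S.space (S.atPt m'),
      w * u ∈ S.space (S.atPt (m + m')) := fun m m' w hw u hu => by
    rw [S.atPt_add]; exact S.mul_mem_space hw hu
  obtain ⟨Ff⟩ := exists_frame_of_colon b2 b4 F4 (W := Wf) (r := 1)
    (fun z => by
      rintro _ ⟨w, hw, rfl⟩
      exact hVmul _ _ _ (hpV z) _ (hsub _ _ hG hw))
    (fun z => by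
      rw [hWf, Submodule.span_singleton_le_iff_mem]
      exact hfmem z)
    (fun z => by rw [hWf]; infer_instance)
    (fun z => finrank_span_singleton fun h => hf0 z (Subtype.ext h))
    b2 (fun i z => P.vec i z) (fun i z => P.rvec i z) P.coeff
    (fun i z => hsub _ _ (he2 z) (P.mem i z)) P.red (hVmul _ _)
    (fun z u hu i => by
      obtain ⟨c, rfl⟩ := Submodule.mem_span_singleton.mp hu
      obtain ⟨w, hw, he⟩ := CurveRed.exists_mul_eq_mul (D := S.atPt (M + M) - E2 z)
        (D' := S.atPt (M + M) - G) (p := p z) (q := f z) (hp0 z) (fun v => by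
          simp only [Finsupp.sub_apply, Finsupp.add_apply, hpdiv z v, hfdiv z v]
          have := hc z v
          omega) (P.mem i z)
      rw [mul_smulC]
      refine Submodule.smul_mem _ _ ⟨w, hw, ?_⟩
      rw [mulLin_apply, ← hpvec, ← he])
    (fun z => by
      have hEG : S.LinEq (S.atPt (M + M) - (R z + G)) (Ec z) := by
        refine ⟨(f z)⁻¹, inv_ne_zero (hf0 z), fun v => ?_⟩
        simp only [Finsupp.sub_apply, Finsupp.add_apply, Place.ord_inv, hfdiv z v]
        ring
      have := CurveRed.finite_jPart hgap ((hR z).add hG) (M + M)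
      refine le_trans (Submodule.finrank_mono fun x hx => ?_)
        (hrig z (R z + G) (M + M) ((hR z).add hG) hEG)
      rw [mem_colonSub, hGspan] at hx
      refine CurveRed.mem_jPart_of_mul hgap (he2 z) (hR z) hG (hlarge z).2.1 (hp0 z)
        (hpdiv z) (ht0 z) (hpt z) fun a ha => ?_
      rw [hPspan] at ha
      induction ha using Submodule.span_induction with
      | mem a ha =>
        obtain ⟨i, rfl⟩ := ha
        obtain ⟨h, hh, he⟩ := hx.2 i
        exact ⟨h, hh, he.symm⟩
      | zero => exact ⟨0, Submodule.zero_mem _, by simp⟩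
      | add a b _ _ ha hb =>
        obtain ⟨h, hh, he⟩ := ha
        obtain ⟨h', hh', he'⟩ := hb
        exact ⟨h + h', Submodule.add_mem _ hh hh', by rw [add_mul, he, he', mul_add]⟩
      | smul c a _ ha =>
        obtain ⟨h, hh, he⟩ := ha
        exact ⟨c • h, Submodule.smul_mem _ c hh, by rw [smulC_mul, he, mul_smulC]⟩)
  set fb : Z → LaurentSeries 𝕜 := fun z => Ff.rvec 0 z with hfb
  have hfb0 : ∀ z, fb z ≠ 0 := fun z => (Ff.li z).ne_zero 0
  have hf' : ∀ z, ∃ q : S.F, (q : LaurentSeries Qbar) = Ff.vec 0 z ∧ q ≠ 0 ∧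
      ∀ v, v.ord q = (R z + G + Ec z) v - S.atPt (M + M) v := by
    intro z
    obtain ⟨c, hcv⟩ := Submodule.mem_span_singleton.mp (Ff.mem 0 z)
    have hc0 : c ≠ 0 := by
      rintro rfl
      rw [zero_smul] at hcv
      exact hfb0 z ((hcv.symm ▸ Ff.red 0 z).unique red_zero)
    refine ⟨algebraMap Qbar S.F c * f z, ?_, mul_ne_zero ((map_ne_zero _).mpr hc0) (hf0 z),
      fun v => ?_⟩
    · rw [← hcv, smul_eq_algebraMap_mul, MulMemClass.coe_mul]
      rfl
    · rw [v.ord_mul ((map_ne_zero _).mpr hc0) (hf0 z), FF.ord_algebraMap, zero_add, hfdiv z v]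
  choose q hqvec hq0 hqdiv using hf'
  -- sections of `3M·pt - E2`
  set r₃ : ℕ := (M + M + M - 2 * S.g + 1 - S.g).toNat with hr₃
  have hdim3 : ∀ z, redSub S.surj (S.space (S.atPt (M + M + M) - E2 z)) =
      S.jPart (E2 z) (M + M + M) ∧
      Module.finrank 𝕜 (S.jPart (E2 z) (M + M + M)) = r₃ ∧
      Module.finrank Qbar (S.space (S.atPt (M + M + M) - E2 z)) = r₃ := fun z => by
    obtain ⟨h1, h2, h3⟩ := CurveRed.finrank_jPart hgap (he2 z)
      (hbig _ (M + M + M) (hd2 z).le (by omega))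
    rw [hd2] at h2 h3
    exact ⟨h1, by omega, by omega⟩
  obtain ⟨P3⟩ := exists_frame_of_image b3 (B := B)
    (W := fun z => S.space (S.atPt (M + M + M) - E2 z)) (r := r₃)
    (fun z => hsub _ _ (he2 z)) (fun z => S.finiteDimensional_space _) (fun z => (hdim3 z).2.2)
    (fun (w : Fin r₂ × Fin _) z => P.vec w.1 z * b1.vec w.2)
    (fun w z => P.rvec w.1 z * b1.rvec w.2)
    (fun w => CoeffIn.mul b2 b1 (P.coeff w.1) (CoeffIn.const (b1.red w.2))
      (fun z => hsub _ _ (he2 z) (P.mem _ z)) fun _ => b1.mem w.2)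
    (fun w z => by
      have h := S.mul_mem_space (P.mem w.1 z) (b1.mem w.2)
      rwa [show S.atPt (M + M) - E2 z + S.atPt M = S.atPt (M + M + M) - E2 z by
        rw [S.atPt_add (M + M) M]; abel] at h)
    (fun w z => (P.red w.1 z).mul (b1.red w.2))
    (fun z => by
      rw [← (hdim3 z).2.1]
      obtain ⟨F1, hF1⟩ := exists_frame_const (B := B) b1
      have h0 : S.jPart 0 M = Submodule.span 𝕜 (Set.range b1.rvec) := by
        rw [← (CurveRed.finrank_jPart hgap (E := 0) CurveRed.isEff_zero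
          (hbig _ M (by rw [map_zero]; omega) le_rfl)).1, sub_zero,
          show redSub S.surj (S.space (S.atPt M)) = _ from F1.span_rvec S.surj z]
        simp only [hF1]
      have h := (hlarge z).2.2.2.2
      rw [add_zero, h0, hPspan z] at h
      have := FiniteDimensional.span_of_finite 𝕜
        (Set.finite_range fun w : Fin r₂ × Fin _ => P.rvec w.1 z * b1.rvec w.2)
      exact Submodule.finrank_mono (h.trans (span_mul_le _ _)))
  obtain ⟨F5, hF5⟩ := exists_frame_map_mul b3 b2 P3 (fun z => hsub _ _ (he2 z)) (Ff.vec 0) fb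
    (Ff.coeff 0) (fun z => by
      obtain ⟨c, hcv⟩ := Submodule.mem_span_singleton.mp (Ff.mem 0 z)
      rw [← hcv]
      exact Submodule.smul_mem _ c (hfmem z)) (Ff.red 0) hfb0
  have h3span : ∀ z, Submodule.span 𝕜 (Set.range fun j => F5.rvec j z) =
      (S.jPart (E2 z) (M + M + M)).map (mulLin (fb z)) := fun z => by
    rw [← (hdim3 z).1, show redSub S.surj (S.space (S.atPt (M + M + M) - E2 z)) = _ from
      P3.span_rvec S.surj z, Submodule.map_span, ← Set.range_comp]
    congr 1
    ext w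
    simp [hF5, mulLin]
  refine exists_frame_of_colon b1 b5 F5 (fun z => ?_) (fun z => hsub _ _ (hc z))
    (fun z => S.finiteDimensional_space _) (fun z => ?_) b4
    (fun i z => F4.vec i z) (fun i z => F4.rvec i z) F4.coeff (fun i z => ?_) F4.red
    (fun w hw u hu => ?_) (fun z u hu i => ?_) fun z => ?_
  · rintro _ ⟨w, hw, rfl⟩
    obtain ⟨c, hcv⟩ := Submodule.mem_span_singleton.mp (Ff.mem 0 z)
    rw [mulLin_apply, ← hcv]
    exact hVmul _ _ _ (Submodule.smul_mem _ c (hfmem z)) _ (hsub _ _ (he2 z) hw)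
  · have h := (CurveRed.finrank_jPart hgap (hc z) (hbig _ M (by rw [hdc]; omega) le_rfl)).2.2
    rw [hdc] at h
    omega
  · obtain ⟨w, hw, he⟩ := F4.mem i z
    rw [← he]
    exact hVmul _ _ _ (hpV z) _ (hsub _ _ hG hw)
  · have h := hVmul _ _ w hw u hu
    rwa [show M + M + (M + M) + M = M + M + (M + M + M) by ring] at h
  · obtain ⟨w, hw, he⟩ := F4.mem i z
    obtain ⟨w', hw', he'⟩ := CurveRed.exists_mul_eq_mul
      (D := (S.atPt (M + M) - G) + (S.atPt M - Ec z)) (D' := S.atPt (M + M + M) - E2 z)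
      (p := q z) (q := p z) (hq0 z) (fun v => by
        simp only [Finsupp.sub_apply, Finsupp.add_apply, hpdiv z v, hqdiv z v]
        rw [S.atPt_add (M + M) M, Finsupp.add_apply]
        omega) (S.mul_mem_space hw hu)
    refine ⟨w', hw', ?_⟩
    rw [mulLin_apply, ← hqvec, ← he', ← he, mulLin_apply, ← hpvec]
    ring
  · have := CurveRed.finite_jPart hgap (hc z) M
    obtain ⟨-, h2, -⟩ := CurveRed.finrank_jPart hgap (hc z) (hbig _ M (by rw [hdc]; omega) le_rfl)
    rw [hdc] at h2
    refine le_trans (Submodule.finrank_mono fun x hx => ?_) (le_of_eq ?_)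
      (b := Module.finrank 𝕜 (S.jPart (Ec z) M))
    · rw [mem_colonSub, h3span] at hx
      refine CurveRed.mem_jPart_of_mul_mul hgap (he2 z) (hR z) hG (hc z) (hlarge z).2.2.1 (hp0 z)
        (hpdiv z) (ht0 z) (hpt z) (hq0 z) (hqdiv z) (hfb0 z) (by rw [hqvec]; exact Ff.red 0 z)
        fun h hh => ?_
      have hth : t z * h ∈ Submodule.span 𝕜 (Set.range fun j => F4.rvec j z) := by
        rw [hGspan]
        exact ⟨h, hh, rfl⟩
      have hall : ∀ y ∈ Submodule.span 𝕜 (Set.range fun j => F4.rvec j z),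
          ∃ a ∈ S.jPart (E2 z) (M + M + M), y * x = fb z * a := by
        intro y hy
        induction hy using Submodule.span_induction with
        | mem y hy =>
          obtain ⟨i, rfl⟩ := hy
          obtain ⟨a, ha', he⟩ := hx.2 i
          exact ⟨a, ha', he.symm⟩
        | zero => exact ⟨0, Submodule.zero_mem _, by simp⟩
        | add a b _ _ ha hb =>
          obtain ⟨h, hh, he⟩ := ha
          obtain ⟨h', hh', he'⟩ := hb
          exact ⟨h + h', Submodule.add_mem _ hh hh', by rw [add_mul, he, he', mul_add]⟩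
        | smul c a _ ha =>
          obtain ⟨h, hh, he⟩ := ha
          exact ⟨c • h, Submodule.smul_mem _ c hh, by rw [smulC_mul, he, mul_smulC]⟩
      exact hall _ hth
    · omega

end Fermat.Agent.FlatModel
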