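import Fermat.Agent.FlatModel.Family

/-!
# The flat model of a finite group of divisor classes

A finite group of degree zero divisor classes of a reduced curve with Galois action, stable
under that action, has a flat model (`nonempty_model_of_curveRed`).
-/

set_option autoImplicit false

noncomputable section

open AlgebraicCurve HahnSeries ModularCurve IsLocalRing Matrix GaloisRep

open scoped Pointwise

namespace Fermat.Agent.FlatModel

open Fermat.Agent.Reduction

variable {ℓ : ℕ} [Fact ℓ.Prime] {A : ValuationSubring Qbar}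
  {S : CurveRed A (IsLocalRing.residue A)} {n₀ : ℕ}

local notation "𝕜" => ResidueField A

/-- **Flat model.** A finite Galois stable group of divisor classes of a curve with good reduction
has a flat model. -/
theorem nonempty_model_of_curveRed (hA : A.LiesOverPrime ℓ) (hgap : S.GapBound n₀) (Γ : GalAct S)
    {G : Type} [AddCommGroup G] [Finite G] (act : GalQ →* AddMonoid.End G)
    (ι : G →+ Pic0 Qbar S.F) (hι : Function.Injective ι)
    (hact : ∀ σ x, ι (act σ x) = Γ.gal σ • ι x) :
    Nonempty (Model ℓ act) := by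
  classical
  have := Gal.isAlgClosed_residueField A
  obtain ⟨U, E, M, hU, hE, hEdeg, hErig, hgal, hU1, hinj, hM, ⟨G₁, hG₁, hG₁deg, hadd⟩, hstab⟩ :=
    exists_divisors Γ hgap hA act ι hι hact
  obtain ⟨b⟩ := exists_latBasis_space S (S.offNonpos_atPt M)
  set R := Module.finrank Qbar (S.space (S.atPt M)) with hR
  set r : ℕ := (M - S.g + 1 - S.g).toNat with hr
  let W : GalQ → G → Submodule Qbar (LaurentSeries Qbar) :=
    fun σ x => S.space (S.atPt M - E σ x)
  have hWV : ∀ σ x, W σ x ≤ S.space (S.atPt M) := fun σ x =>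
    S.space_mono (sub_le_atPt M _ (hE σ x))
  have hfin : ∀ σ x, FiniteDimensional Qbar (W σ x) := fun σ x => S.finiteDimensional_space _
  have hbig : ∀ D : Divisor Qbar S.F, Divisor.degree D ≤ 2 * (S.g : ℤ) → S.BigFor n₀ D M :=
    fun D hD => by rw [CurveRed.BigFor]; omega
  have hWr : ∀ σ x, Module.finrank Qbar (W σ x) = r := fun σ x => by
    have h := (CurveRed.finrank_jPart hgap (hE σ x) (hbig _ (by rw [hEdeg]; omega))).2.2
    rw [hEdeg] at h
    show Module.finrank Qbar (S.space (S.atPt M - E σ x)) = r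
    omega
  have hnorm : ∀ σ x, NormalizableSub A (residue A) (W σ x) := fun σ x =>
    S.normalizable_space ((hE σ x).offNonpos M)
  -- a regular `T` fixed by an unramified subgroup
  obtain ⟨Ftop⟩ := exists_frame_top (W := W 1) (hfin 1) (hWr 1) (hnorm 1)
  obtain ⟨T₀, hT₀⟩ := exists_reg b Ftop (hWV 1)
  obtain ⟨N, yT, hN, hyT, hyTfix⟩ := exists_root_lift hA fun p : Fin r × Fin R => T₀ p.1 p.2
  set T : Matrix (Fin r) (Fin R) A := Matrix.of fun i l => yT (i, l)
  have hreg : ∀ x, Reg b T (W 1 x) := hT₀ T (Matrix.ext fun i l => hyT (i, l))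
  set U' : Subgroup GalQ := U ⊓ fixer (muSet N : Set Qbar) with hU'
  have hU'd : UnrData ℓ U' := hU.inf_muSet hN
  -- the functions
  obtain ⟨nv, hnvc, hnvmem, hnvn⟩ := exists_normalised b Ftop (hWV 1) hreg
  have hcA : ∀ l j (x : G), (nv j x).coeff (b.idx l) ∈ A := fun l j x => by
    obtain ⟨c, hc⟩ := hnvc j (b.idx l)
    rw [← hc x]
    exact (evalB ⊤ x c).2
  let c : Fin R × Fin r → G → A := fun p x => ⟨_, hcA p.1 p.2 x⟩
  set 𝓗A : Subalgebra A (G → A) := Algebra.adjoin A (Set.range c) with h𝓗A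
  let φ : (G → A) →ₐ[A] (G → Qbar) := (Algebra.ofId A Qbar).compLeft G
  -- uniqueness of normalised sections
  have huniq : ∀ (x : G) (j : Fin r) (y : LaurentSeries Qbar), y ∈ W 1 x → IsNorm b T j y →
      y = nv j x := fun x j y hy hn =>
    (hreg x).eq_of_isNorm (hnorm 1 x) hy (hnvmem j x) hn (hnvn j x)
  -- addition
  have hcoadd : ∀ q ∈ Set.range c, (fun p : G × G => q (p.1 + p.2)) ∈
      Algebra.adjoin A ((Set.range fun i => fun p : G × G => c i p.1) ∪
        (Set.range fun i => fun p : G × G => c i p.2) : Set (G × G → A)) := by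
    set B₂ := Algebra.adjoin A ((Set.range fun i => fun p : G × G => c i p.1) ∪
      (Set.range fun i => fun p : G × G => c i p.2) : Set (G × G → A)) with hB₂
    obtain ⟨Fa⟩ := exists_frame_of_norm (B := B₂) b (W := fun p : G × G => W 1 p.1)
      (fun p => hWV 1 p.1) (fun p => hfin 1 p.1) (fun p => hWr 1 p.1) (T := T)
      (fun j p => nv j p.1)
      (Matrix.of fun l j => ⟨fun p => c (l, j) p.1,
        Algebra.subset_adjoin (Or.inl ⟨(l, j), rfl⟩)⟩)
      (fun l j p => rfl) (fun j p => hnvmem j p.1) (fun j p => hnvn j p.1)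
    obtain ⟨Fb⟩ := exists_frame_of_norm (B := B₂) b (W := fun p : G × G => W 1 p.2)
      (fun p => hWV 1 p.2) (fun p => hfin 1 p.2) (fun p => hWr 1 p.2) (T := T)
      (fun j p => nv j p.2)
      (Matrix.of fun l j => ⟨fun p => c (l, j) p.2,
        Algebra.subset_adjoin (Or.inr ⟨(l, j), rfl⟩)⟩)
      (fun l j p => rfl) (fun j p => hnvmem j p.2) (fun j p => hnvn j p.2)
    obtain ⟨Fc⟩ := exists_frame_add hgap (M := M) (Ea := fun p : G × G => E 1 p.1)
      (Eb := fun p => E 1 p.2) (Ec := fun p => E 1 (p.1 + p.2)) (fun p => hE _ _) (fun p => hE _ _)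
      (fun p => hE _ _) hG₁ (fun p => hEdeg _ _) (fun p => hEdeg _ _) (fun p => hEdeg _ _) hG₁deg
      (fun p => (hadd p.1 p.2).1) (fun p => hErig _ _) (fun p => (hadd p.1 p.2).2) Fa Fb
    obtain ⟨nv', hnv'c, hnv'mem, hnv'n⟩ := exists_normalised b Fc
      (fun p : G × G => hWV 1 (p.1 + p.2)) (fun p => hreg (p.1 + p.2))
    rintro _ ⟨⟨l, j⟩, rfl⟩
    obtain ⟨e, he⟩ := hnv'c j (b.idx l)
    have heq : (fun p : G × G => c (l, j) (p.1 + p.2)) = (e : G × G → A) := by
      funext p
      refine Subtype.ext ?_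
      rw [show (((e : G × G → A) p : A) : Qbar) = valB B₂ p e from rfl, he p,
        huniq _ j _ (hnv'mem j p) (hnv'n j p)]
    rw [heq]
    exact e.2
  -- stability
  have hmove : ∀ σ : GalQ, σ • A = A → ∀ l j,
      ∃ e ∈ 𝓗A, ∀ x, (e x : Qbar) = σ ((nv j (act σ⁻¹ x)).coeff (b.idx l)) := by
    intro σ hσ l j
    obtain ⟨G₂, hG₂, hG₂deg, hG₂l⟩ := hstab σ
    obtain ⟨Fa⟩ := exists_frame_of_norm (B := 𝓗A) b (W := W 1) (hWV 1) (hfin 1) (hWr 1) (T := T)
      nv (Matrix.of fun l j => ⟨c (l, j), Algebra.subset_adjoin ⟨(l, j), rfl⟩⟩)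
      (fun l j p => rfl) hnvmem hnvn
    obtain ⟨Fb⟩ := exists_frame_of_norm (B := 𝓗A) b (W := fun _ : G => W 1 0)
      (fun _ => hWV 1 0) (fun _ => hfin 1 0) (fun _ => hWr 1 0) (T := T) (fun j _ => nv j 0)
      (Matrix.of fun l j => algebraMap A 𝓗A (c (l, j) 0)) (fun l j p => rfl)
      (fun j _ => hnvmem j 0) (fun j _ => hnvn j 0)
    obtain ⟨Fc⟩ := exists_frame_add hgap (M := M) (Ea := E 1) (Eb := fun _ : G => E 1 0)
      (Ec := E σ) (hE 1) (fun _ => hE _ _) (hE σ) hG₂ (hEdeg 1) (fun _ => hEdeg _ _) (hEdeg σ)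
      hG₂deg (fun x => (hG₂l x).1) (hErig σ) (fun x => (hG₂l x).2) Fa Fb
    have hσx : ∀ x, Γ.sm σ (S.atPt M - E 1 (act σ⁻¹ x)) = S.atPt M - E σ x := fun x => by
      rw [Γ.sm_sub, Γ.sm_atPt, hgal, mul_one]
      congr 2
      show (act σ * act σ⁻¹) x = x
      rw [← map_mul, mul_inv_cancel, map_one]
      rfl
    have hregσ : ∀ x, Reg b (galMat σ hσ T) (W σ x) := fun x => by
      have h := reg_galMat Γ b σ hσ (hreg (act σ⁻¹ x))
      rwa [hσx] at h
    obtain ⟨nv', hnv'c, hnv'mem, hnv'n⟩ := exists_normalised b Fc (hWV σ) hregσ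
    obtain ⟨e, he⟩ := hnv'c j (b.idx l)
    refine ⟨e, e.2, fun x => ?_⟩
    have hy : cmap σ (nv j (act σ⁻¹ x)) = nv' j x := by
      refine (hregσ x).eq_of_isNorm (hnorm σ x) ?_ (hnv'mem j x)
        (isNorm_cmap b σ (fun i l => rfl) (hnvn j _)) (hnv'n j x)
      show _ ∈ S.space (S.atPt M - E σ x)
      rw [← hσx x]
      exact Γ.cmap_mem_space σ (hnvmem j _)
    rw [show (((e : G → A) x : A) : Qbar) = valB 𝓗A x e from rfl, he x, ← hy, cmap, coeffMap_coeff]
    rfl
  -- invariance
  have hfix : ∀ σ ∈ U', ∀ l j x, σ ((nv j (act σ⁻¹ x)).coeff (b.idx l)) =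
      (nv j x).coeff (b.idx l) := by
    intro σ hσ l j x
    obtain ⟨hσU, hσμ⟩ := Subgroup.mem_inf.mp hσ
    have hx : act σ (act σ⁻¹ x) = x := by
      show (act σ * act σ⁻¹) x = x
      rw [← map_mul, mul_inv_cancel, map_one]
      rfl
    have hy : cmap σ (nv j (act σ⁻¹ x)) = nv j x := by
      refine huniq x j _ ?_ (isNorm_cmap b σ (fun i l => (hyTfix (i, l) σ hσμ).symm) (hnvn j _))
      show _ ∈ S.space (S.atPt M - E 1 x)
      have h := Γ.cmap_mem_space σ (hnvmem j (act σ⁻¹ x))
      rwa [Γ.sm_sub, Γ.sm_atPt, hgal, mul_one, hx, hU1 σ hσU] at h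
    rw [← hy, cmap, coeffMap_coeff]
    rfl
  refine ⟨DescentData.model (A := A) (𝓗 := 𝓗A.map φ) (U := U')
    ⟨hA, ?_, fun x y hxy => ?_, ?_, fun σ hσ => ?_, ?_, hU'd.closed, hU'd.normal,
      hU'd.finiteIndex, hU'd.trace⟩⟩
  · rintro _ ⟨f, -, rfl⟩ x
    exact (f x).2
  · -- separation
    have hc : ∀ l j, (nv j x).coeff (b.idx l) = (nv j y).coeff (b.idx l) := fun l j =>
      hxy (φ (c (l, j))) ⟨c (l, j), Algebra.subset_adjoin ⟨(l, j), rfl⟩, rfl⟩
    have hnveq : ∀ j, nv j x = nv j y := fun j => by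
      rw [← b.sum_vec (hWV 1 x (hnvmem j x)), ← b.sum_vec (hWV 1 y (hnvmem j y))]
      simp only [hc _ j]
    have hle : W 1 x ≤ W 1 y := by
      intro w hw
      set v : Fin r → Qbar := (T.map A.subtype) *ᵥ (coeffsAt b.idx w) with hv
      have h0 : w - ∑ j, v j • nv j x = 0 := by
        refine (hreg x).eq_zero (hnorm 1 x) ((W 1 x).sub_mem hw ((W 1 x).sum_mem fun j _ =>
          (W 1 x).smul_mem _ (hnvmem j x))) ?_
        rw [map_sub, Matrix.mulVec_sub, map_sum, Matrix.mulVec_sum]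
        simp only [map_smul, Matrix.mulVec_smul]
        rw [show ∑ j, v j • (T.map A.subtype *ᵥ coeffsAt b.idx (nv j x)) = v from ?_, ← hv,
          sub_self]
        funext i
        rw [Finset.sum_apply, Finset.sum_eq_single i]
        · rw [hnvn i x, Pi.smul_apply, Pi.single_eq_same, smul_eq_mul, mul_one]
        · intro j _ hj
          rw [hnvn j x, Pi.smul_apply, Pi.single_eq_of_ne (Ne.symm hj), smul_zero]
        · exact fun h => absurd (Finset.mem_univ i) h
      rw [sub_eq_zero.mp h0]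
      refine (W 1 y).sum_mem fun j _ => (W 1 y).smul_mem _ ?_
      rw [hnveq j]
      exact hnvmem j y
    set F : Divisor Qbar S.F := (E 1 y - E 1 x).mapRange (fun t => max t 0) (by simp) with hF
    have hFv : ∀ v, F v = max (E 1 y v - E 1 x v) 0 := fun v => by
      rw [hF, Finsupp.mapRange_apply, Finsupp.sub_apply]
    have hFe : S.IsEff F := fun v => by rw [hFv]; omega
    have hrest : S.IsEff (E 1 y - F) := fun v => by
      rw [Finsupp.sub_apply, hFv]
      have := hE 1 x v
      have := hE 1 y v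
      omega
    have hd := CurveRed.degree_nonneg_of_isEff hrest
    rw [map_sub, hEdeg] at hd
    have hd' := CurveRed.degree_nonneg_of_isEff hFe
    have h3 := (CurveRed.finrank_jPart hgap ((hE 1 x).add hFe)
      (hbig _ (by rw [map_add, hEdeg]; omega))).2.2
    rw [map_add, hEdeg] at h3
    have hle3 : W 1 x ≤ S.space (S.atPt M - (E 1 x + F)) := by
      intro w hw
      obtain ⟨u, rfl, hu⟩ := S.exists_of_mem_space hw
      obtain ⟨u', hu', hu'2⟩ := S.exists_of_mem_space (hle hw)
      obtain rfl : u' = u := Subtype.ext hu'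
      refine S.coe_mem_space.mpr fun v => ?_
      rcases hu v with h | h
      · exact Or.inl h
      rcases hu'2 v with h' | h'
      · exact Or.inl h'
      right
      rw [Finsupp.sub_apply] at h h' ⊢
      rw [Finsupp.add_apply, hFv]
      omega
    have := S.finiteDimensional_space (S.atPt M - (E 1 x + F))
    have h4 := Submodule.finrank_mono hle3
    rw [hWr 1 x] at h4
    have hFdeg : Divisor.degree F = 0 := by omega
    have hF0 := S.eq_zero_of_effective hFe hFdeg
    have hle4 : S.IsEff (E 1 x - E 1 y) := fun v => by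
      have := hFv v
      rw [hF0, Finsupp.coe_zero, Pi.zero_apply] at this
      rw [Finsupp.sub_apply]
      omega
    exact hinj (sub_eq_zero.mp (S.eq_zero_of_effective hle4 (by
      rw [map_sub, hEdeg, hEdeg, sub_self])))
  · -- addition
    rintro _ ⟨f, hf, rfl⟩
    set P : Set (G × G → Qbar) :=
      {F | ∃ a ∈ 𝓗A.map φ, ∃ b ∈ 𝓗A.map φ, F = fun p => a p.1 * b p.2} with hP
    let φ₂ : (G × G → A) →ₐ[A] (G × G → Qbar) := (Algebra.ofId A Qbar).compLeft (G × G)
    let δ : (G → A) →ₐ[A] (G × G → A) :=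
      { toFun := fun f p => f (p.1 + p.2)
        map_one' := rfl
        map_mul' := fun _ _ => rfl
        map_zero' := rfl
        map_add' := fun _ _ => rfl
        commutes' := fun _ => rfl }
    have hPmon : (Submonoid.closure P : Set (G × G → Qbar)) = P := by
      refine subset_antisymm (fun F hF => ?_) Submonoid.subset_closure
      induction hF using Submonoid.closure_induction with
      | mem F hF => exact hF
      | one => exact ⟨1, one_mem _, 1, one_mem _, funext fun _ => (mul_one 1).symm⟩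
      | mul F F' _ _ hF hF' =>
        obtain ⟨a, ha, d, hd, rfl⟩ := hF
        obtain ⟨a', ha', d', hd', rfl⟩ := hF'
        exact ⟨a * a', mul_mem ha ha', d * d', mul_mem hd hd',
          funext fun p => by simp only [Pi.mul_apply]; ring⟩
    have h1 : φ₂ (δ f) ∈ Algebra.adjoin A P := by
      have hle : 𝓗A ≤ ((Algebra.adjoin A P).comap φ₂).comap δ := by
        refine Algebra.adjoin_le fun q hq => ?_
        refine (Algebra.adjoin_le (S := (Algebra.adjoin A P).comap φ₂) ?_) (hcoadd q hq)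
        rintro _ (⟨i, rfl⟩ | ⟨i, rfl⟩)
        · exact Algebra.subset_adjoin ⟨φ (c i), ⟨c i, Algebra.subset_adjoin ⟨i, rfl⟩, rfl⟩, 1,
            one_mem _, funext fun p => (mul_one _).symm⟩
        · exact Algebra.subset_adjoin ⟨1, one_mem _, φ (c i),
            ⟨c i, Algebra.subset_adjoin ⟨i, rfl⟩, rfl⟩, funext fun p => (one_mul _).symm⟩
      exact hle hf
    rw [← Subalgebra.mem_toSubmodule, Algebra.adjoin_eq_span, hPmon] at h1
    exact h1
  · -- stability
    rintro _ ⟨f, hf, rfl⟩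
    induction hf using Algebra.adjoin_induction with
    | mem q hq =>
      obtain ⟨⟨l, j⟩, rfl⟩ := hq
      obtain ⟨e, he, hev⟩ := hmove σ hσ l j
      exact ⟨e, he, funext fun x => (hev x).trans rfl⟩
    | algebraMap a =>
      refine ⟨algebraMap A (G → A) ⟨σ a, (Gal.apply_mem_iff hσ _).mpr a.2⟩,
        𝓗A.algebraMap_mem _, funext fun x => ?_⟩
      rfl
    | add u v _ _ hu hv => rw [map_add, map_add]; exact add_mem hu hv
    | mul u v _ _ hu hv => rw [map_mul, map_mul]; exact mul_mem hu hv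
  · refine ⟨φ '' Set.range c, ?_, by rw [← AlgHom.map_adjoin]⟩
    rintro _ ⟨_, ⟨⟨l, j⟩, rfl⟩, rfl⟩ σ hσ
    funext x
    exact hfix σ hσ l j x

end Fermat.Agent.FlatModel
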