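import Fermat.Agent.Reduction.Ideals

/-!
# Riemann-Roch spaces of the reduced curve

For an effective divisor `E` the ideal `effIdeal E` has colength `degree E - loss E`, where
`loss E ≥ 0` is additive. The space `jPart E n` contains the reductions of `L(n·pt - E)`, agrees
with them for large `n`, and its dimension only depends on the class of `n·pt - E`.

Main results: `finrank_jPart`, `finrank_jPart_congr` and `exists_le_span_jPart`.
-/

set_option autoImplicit false

noncomputable section

namespace Fermat.Agent.Reduction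

open HahnSeries AlgebraicCurve

variable {K k : Type*} [Field K] [Field k] {A : ValuationSubring K} {π : A →+* k}

namespace CurveRed

variable {S : CurveRed A π} {n₀ : ℕ}

/-- A shortcut for a slow instance search in this file. -/
local instance classesAlgebraF : Algebra K S.F := inferInstance

variable (S) in
/-- The codimension of the ideal of `E`. -/
def colen (E : Divisor K S.F) : ℤ := Module.finrank k (S.Cbar ⧸ S.effIdeal' E)

variable (S) in
/-- The part of `E` lost at `q = 0` by reduction. -/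
def loss (E : Divisor K S.F) : ℤ := Divisor.degree E - S.colen E

theorem constSMul_mem (W : Submodule S.Cbar (LaurentSeries k)) (c : k) {x : LaurentSeries k}
    (hx : x ∈ W) : c • x ∈ W := by
  have h := W.smul_mem (⟨_, S.Cbar.algebraMap_mem c⟩ : S.Cbar) hx
  rw [Algebra.smul_def] at h
  rw [smul_eq_algebraMap_mul]
  exact h

variable (S) in
/-- Reduced sections of `n·pt - E`. -/
def jPart (E : Divisor K S.F) (n : ℤ) : Submodule k (LaurentSeries k) :=
  poleLESubmodule k (n - S.loss E) ⊓
    { carrier := {x | x ∈ S.effIdeal E}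
      add_mem' := fun ha hb => (S.effIdeal E).add_mem ha hb
      zero_mem' := (S.effIdeal E).zero_mem
      smul_mem' := fun c x hx => constSMul_mem (S.effIdeal E) c (x := x) hx }

theorem loss_nonneg (hgap : S.GapBound n₀) {E : Divisor K S.F} (hE : S.IsEff E) :
    0 ≤ S.loss E := by
  have := hgap.finrank_quotient_effIdeal'_le hE
  rw [loss, colen]; omega

theorem loss_le (E : Divisor K S.F) : S.loss E ≤ Divisor.degree E := by
  rw [loss, colen]; omega

theorem colen_add (hgap : S.GapBound n₀) {E E' : Divisor K S.F} (hE : S.IsEff E)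
    (hE' : S.IsEff E') : S.colen (E + E') = S.colen E + S.colen E' := by
  rw [colen, colen, colen, hgap.effIdeal'_add hE hE',
    hgap.finrank_quotient_mul (hgap.effIdeal'_ne_bot hE) (hgap.effIdeal'_ne_bot hE')]
  push_cast
  rfl

theorem loss_add (hgap : S.GapBound n₀) {E E' : Divisor K S.F} (hE : S.IsEff E)
    (hE' : S.IsEff E') : S.loss (E + E') = S.loss E + S.loss E' := by
  rw [loss, loss, loss, colen_add hgap hE hE', map_add]
  ring

/-- The zero divisor of a regular function: degree and pole of the reduction. -/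
theorem degree_and_order_of_div (hgap : S.GapBound n₀) {E : Divisor K S.F} (hE : S.IsEff E)
    {M : ℤ} {h : S.F} (hh : h ≠ 0) (hdiv : ∀ v, v.ord h = E v - S.atPt M v)
    {t : LaurentSeries k} (ht : t ≠ 0) (hht : Red A π (h : LaurentSeries K) t) :
    Divisor.degree E = M ∧ t.order = S.loss E - M := by
  have hspan := effIdeal_eq_span hE hh hdiv ht hht
  have hdeg : Divisor.degree E = M := by
    obtain ⟨Eh, hEh, hEhdeg⟩ := S.exists_div hh
    have : Eh = E - S.atPt M := Finsupp.ext fun v => by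
      rw [hEh v, hdiv v, Finsupp.sub_apply]
    rw [this, map_sub, S.degree_atPt] at hEhdeg
    omega
  have htC : t ∈ S.Cbar :=
    mem_Cbar_of_mem_effIdeal hE (hspan.symm ▸ Submodule.mem_span_singleton_self t)
  have hc : S.colen E = -t.order := by
    rw [colen, effIdeal'_eq_span (x := ⟨t, htC⟩) hspan]
    exact hgap.finrank_quotient_span fun h0 => ht (congrArg Subtype.val h0)
  refine ⟨hdeg, ?_⟩
  rw [loss, hc, hdeg]
  ring

/-- Reductions of sections of `n·pt - E`. -/
theorem red_le_jPart (hgap : S.GapBound n₀) {E : Divisor K S.F} (hE : S.IsEff E) (n : ℤ) :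
    redSub S.surj (S.space (S.atPt n - E)) ≤ S.jPart E n := by
  intro x hx
  have hxE : x ∈ S.effIdeal E := ⟨n.toNat, redSub_mono _ (S.space_mono fun v =>
    sub_le_sub_right (by
      rcases eq_or_ne v S.pt with rfl | hv
      · simp [atPt_self]
      · simp [atPt_of_ne, hv]) (E v)) hx⟩
  rcases eq_or_ne x 0 with rfl | hx0
  · exact Submodule.zero_mem _
  refine ⟨?_, hxE⟩
  obtain ⟨R, M, h, t, hR, hh, ht, hht, -, hdiv⟩ := exists_cofactor hE
  obtain ⟨hdeg, hto⟩ := degree_and_order_of_div hgap (hE.add hR) hh hdiv ht hht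
  set B : ℤ := (2 * n₀ + S.g + 1 : ℤ) + 2 * Divisor.degree R with hB
  obtain ⟨xR, hxR, hxR0, -, hxRo⟩ := hgap.exists_max_pole hR (M := B) le_rfl
  obtain ⟨y, hy, hyx⟩ := hx
  obtain ⟨z, hz, hzx⟩ := hxR
  have hmem : y * z ∈ S.space (S.atPt (n + B) - (E + R)) := by
    rw [S.atPt_add, show S.atPt n + S.atPt B - (E + R) = S.atPt n - E + (S.atPt B - R) by abel]
    exact S.mul_mem_space hy hz
  obtain ⟨q, ⟨w, hw, hwq⟩, hq⟩ :=
    exists_red_div (hE.add hR) hh hdiv ht hht hmem (hyx.mul hzx)
  have hq0 : q ≠ 0 := fun h0 => mul_ne_zero hx0 hxR0 (by rw [hq, h0, mul_zero])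
  have h1 := hwq.poleLE (S.poleLE_space hw)
  rw [S.atPt_self, poleLE_iff_order hq0] at h1
  have h2 := congrArg HahnSeries.order hq
  rw [HahnSeries.order_mul hx0 hxR0, HahnSeries.order_mul ht hq0, hto,
    loss_add hgap hE hR] at h2
  have h3 : S.loss R = Divisor.degree R - S.colen R := rfl
  rw [show (Module.finrank k (S.Cbar ⧸ S.effIdeal' R) : ℤ) = S.colen R from rfl] at hxRo
  refine (poleLE_iff_order hx0).mpr ?_
  omega

theorem finite_jPart (hgap : S.GapBound n₀) {E : Divisor K S.F} (hE : S.IsEff E) (n : ℤ) :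
    FiniteDimensional k (S.jPart E n) := by
  have := hgap.finite (n - S.loss E)
  exact Submodule.finiteDimensional_of_le (S₂ := S.regularSub (n - S.loss E)) fun x hx =>
    ⟨hgap.mem_Cbar_iff.mp (mem_Cbar_of_mem_effIdeal hE hx.2), hx.1⟩

variable (S n₀) in
/-- `n` is large compared with `E`. -/
def BigFor (E : Divisor K S.F) (n : ℤ) : Prop :=
  (n₀ : ℤ) + S.g + 2 * Divisor.degree E ≤ n

theorem BigFor.mono {E : Divisor K S.F} {n m : ℤ} (h : S.BigFor n₀ E n) (hnm : n ≤ m) :
    S.BigFor n₀ E m := le_trans h hnm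

/-- The exact dimension for large `n`. -/
theorem finrank_jPart (hgap : S.GapBound n₀) {E : Divisor K S.F} (hE : S.IsEff E) {n : ℤ}
    (hn : S.BigFor n₀ E n) :
    redSub S.surj (S.space (S.atPt n - E)) = S.jPart E n ∧
      (Module.finrank k (S.jPart E n) : ℤ) = n - Divisor.degree E + 1 - S.g ∧
      (Module.finrank K (S.space (S.atPt n - E)) : ℤ) = n - Divisor.degree E + 1 - S.g := by
  have hdeg0 := degree_nonneg_of_isEff hE
  have hloss := S.loss_le E
  rw [BigFor] at hn
  set M₀ : ℤ := S.g + Divisor.degree E with hM₀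
  obtain ⟨x₀, hx₀, hx₀0⟩ := exists_ne_zero_mem_redSub (S := S) (hE.offNonpos M₀)
    (by rw [map_sub, S.degree_atPt]; omega)
  obtain ⟨hx₀p, hx₀E⟩ := red_le_jPart hgap hE M₀ hx₀
  have hx₀o := (poleLE_iff_order hx₀0).mp hx₀p
  set x' : S.Cbar := ⟨x₀, mem_Cbar_of_mem_effIdeal hE hx₀E⟩ with hx'
  have hx'0 : x' ≠ 0 := fun h => hx₀0 (congrArg Subtype.val h)
  set N : ℤ := n - S.loss E with hN
  obtain ⟨-, hle⟩ := hgap.finrank_quotient_le hx'0
    (show x' ∈ S.effIdeal' E from hx₀E) (N := N) (by show (n₀ : ℤ) - x₀.order ≤ N; omega)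
  have := finite_jPart hgap hE n
  let ι : S.jPart E n →ₗ[k] S.Cbar :=
    { toFun := fun u => ⟨u, mem_Cbar_of_mem_effIdeal hE u.2.2⟩
      map_add' := fun _ _ => rfl
      map_smul' := fun c u => Subtype.ext (by
        simp only [RingHom.id_apply, SetLike.val_smul, Algebra.smul_def (A := S.Cbar),
          MulMemClass.coe_mul, Subalgebra.coe_algebraMap, smul_eq_algebraMap_mul]) }
  have hιinj : Function.Injective ι := fun a b h =>
    Subtype.ext (congrArg (fun z : S.Cbar => (z : LaurentSeries k)) h)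
  have hb := hle (LinearMap.range ι) (by rintro _ ⟨u, rfl⟩; exact u.2.1)
    (by rintro _ ⟨u, rfl⟩; exact u.2.2)
  rw [LinearMap.finrank_range_of_inj hιinj, hgap.finrank_polePart (n := N) (by omega)] at hb
  rw [show (Module.finrank k (S.Cbar ⧸ S.effIdeal' E) : ℤ) = Divisor.degree E - S.loss E by
    rw [loss, colen]; ring] at hb
  have := S.finiteDimensional_space (S.atPt n - E)
  have hdim := finrank_redSub S.surj _ (S.normalizable_space (hE.offNonpos n))
  have hge := S.finrank_space_ge (S.atPt n - E)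
  rw [map_sub, S.degree_atPt] at hge
  have hle' := Submodule.finrank_mono (red_le_jPart hgap hE n)
  exact ⟨Submodule.eq_of_le_of_finrank_le (red_le_jPart hgap hE n) (by omega), by omega, by omega⟩

theorem jPart_mono {E : Divisor K S.F} {m n : ℤ} (h : m ≤ n) : S.jPart E m ≤ S.jPart E n :=
  fun _ hx => ⟨hx.1.mono (by omega), hx.2⟩

theorem effIdeal_mul_mem {E E' : Divisor K S.F} {x y : LaurentSeries k} (hgap : S.GapBound n₀)
    (hE : S.IsEff E) (hE' : S.IsEff E') (hx : x ∈ S.effIdeal E) (hy : y ∈ S.effIdeal E') :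
    x * y ∈ S.effIdeal (E + E') :=
  hgap.effIdeal_add hE hE' ▸ Submodule.mul_mem_mul hx hy

theorem mul_mem_jPart (hgap : S.GapBound n₀) {E E' : Divisor K S.F} (hE : S.IsEff E)
    (hE' : S.IsEff E') {m m' : ℤ} {x y : LaurentSeries k} (hx : x ∈ S.jPart E m)
    (hy : y ∈ S.jPart E' m') : x * y ∈ S.jPart (E + E') (m + m') :=
  ⟨(hx.1.mul hy.1).mono (by rw [loss_add hgap hE hE']; omega),
    effIdeal_mul_mem hgap hE hE' hx.2 hy.2⟩

/-- Cancellation of an invertible ideal. -/
theorem mem_effIdeal_of_mul_le (hgap : S.GapBound n₀) {E X : Divisor K S.F} (hE : S.IsEff E)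
    (hX : S.IsEff X) {x : LaurentSeries k}
    (h : ∀ y ∈ S.effIdeal X, x * y ∈ S.effIdeal (E + X)) : x ∈ S.effIdeal E := by
  obtain ⟨u, hu⟩ := hgap.exists_effUnit hX
  have h1 : Submodule.span S.Cbar {x} * S.effIdeal X ≤ S.effIdeal E * S.effIdeal X := by
    rw [← hgap.effIdeal_add hE hX, Submodule.mul_le]
    intro a ha b hb
    obtain ⟨c, rfl⟩ := Submodule.mem_span_singleton.mp ha
    rw [smul_mul_assoc]
    exact Submodule.smul_mem _ c (h b hb)
  rw [← hu] at h1
  have h2 := mul_le_mul' h1 (le_refl ((u⁻¹ : (Submodule S.Cbar (LaurentSeries k))ˣ) :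
    Submodule S.Cbar (LaurentSeries k)))
  rw [mul_assoc, mul_assoc, Units.mul_inv, mul_one, mul_one] at h2
  exact h2 (Submodule.mem_span_singleton_self x)

/-- The dimension depends only on the class of `n·pt - E`. -/
theorem finrank_jPart_congr (hgap : S.GapBound n₀) {E E' : Divisor K S.F} (hE : S.IsEff E)
    (hE' : S.IsEff E') {n n' : ℤ} {f : S.F} (hf : f ≠ 0)
    (hdiv : ∀ v, v.ord f = (S.atPt n - E) v - (S.atPt n' - E') v) :
    Module.finrank k (S.jPart E n) = Module.finrank k (S.jPart E' n') := by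
  suffices key : ∀ {E E' : Divisor K S.F}, S.IsEff E → S.IsEff E' → ∀ {n n' : ℤ} {f : S.F},
      f ≠ 0 → (∀ v, v.ord f = (S.atPt n - E) v - (S.atPt n' - E') v) →
      Module.finrank k (S.jPart E n) ≤ Module.finrank k (S.jPart E' n') by
    refine le_antisymm (key hE hE' hf hdiv) (key hE' hE (inv_ne_zero hf) fun v => ?_)
    rw [v.ord_inv, hdiv v]
    ring
  intro E E' hE hE' n n' f hf hdiv
  obtain ⟨R, M, h, t, hR, hh, ht, hht, -, hdiv₀⟩ := exists_cofactor hE
  set M' : ℤ := (M : ℤ) + n' - n with hM'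
  have hh' : h * f ≠ 0 := mul_ne_zero hh hf
  have hdiv' : ∀ v, v.ord (h * f) = (E' + R) v - S.atPt M' v := fun v => by
    have e1 : S.atPt M' v = S.atPt (M : ℤ) v + S.atPt n' v - S.atPt n v := by
      rcases eq_or_ne v S.pt with rfl | hv
      · simp only [atPt_self, hM']
      · simp [atPt_of_ne, hv]
    rw [v.ord_mul hh hf, hdiv₀ v, hdiv v, e1]
    simp only [Finsupp.add_apply, Finsupp.sub_apply]
    ring
  have hreg : ∀ v, v ≠ S.pt → 0 ≤ v.ord (h * f) := fun v hv => by
    rw [hdiv' v, S.atPt_of_ne _ hv, sub_zero]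
    exact (hE'.add hR) v
  obtain ⟨c, hc, t', ht', hct⟩ := S.normalizable (h * f) hreg hh'
  set h₁ : S.F := algebraMap K S.F c * (h * f)
  have hh₁ : h₁ ≠ 0 := mul_ne_zero ((map_ne_zero _).mpr hc) hh'
  have hred : Red A π (h₁ : LaurentSeries K) t' := by
    simp only [h₁]
    push_cast
    rw [← smul_eq_algebraMap_mul]
    push_cast at hct
    exact hct
  have hdiv₁ : ∀ v, v.ord h₁ = (E' + R) v - S.atPt M' v := fun v => by
    rw [v.ord_mul ((map_ne_zero _).mpr hc) hh', FF.ord_algebraMap, zero_add, hdiv' v]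
  obtain ⟨-, hto⟩ := degree_and_order_of_div hgap (hE.add hR) hh hdiv₀ ht hht
  obtain ⟨-, hto'⟩ := degree_and_order_of_div hgap (hE'.add hR) hh₁ hdiv₁ ht' hred
  have hs := effIdeal_eq_span (hE.add hR) hh hdiv₀ ht hht
  have hs' := effIdeal_eq_span (hE'.add hR) hh₁ hdiv₁ ht' hred
  have := finite_jPart hgap hE' n'
  have hr : t' / t ≠ 0 := div_ne_zero ht' ht
  have hro : (t' / t).order = (S.loss E' - n') - (S.loss E - n) := by
    have h1 : t'.order = t.order + (t' / t).order := by
      rw [← HahnSeries.order_mul ht hr, mul_div_cancel₀ _ ht]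
    rw [hto, hto', loss_add hgap hE hR, loss_add hgap hE' hR] at h1
    omega
  have hmap : ∀ x ∈ S.jPart E n, t' / t * x ∈ S.jPart E' n' := by
    rintro x ⟨hxp, hxE⟩
    refine ⟨?_, mem_effIdeal_of_mul_le hgap hE' hR fun y hy => ?_⟩
    · rcases eq_or_ne x 0 with rfl | hx0
      · rw [mul_zero]; exact fun _ _ => rfl
      refine (poleLE_iff_order (mul_ne_zero hr hx0)).mpr ?_
      rw [HahnSeries.order_mul hr hx0, hro]
      have := (poleLE_iff_order hx0).mp hxp
      omega
    · have hxy := effIdeal_mul_mem hgap hE hR hxE hy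
      rw [hs, Submodule.mem_span_singleton] at hxy
      obtain ⟨d, hd⟩ := hxy
      rw [hs', mul_assoc, ← hd, Submodule.mem_span_singleton]
      refine ⟨d, ?_⟩
      rw [mul_smul_comm, div_mul_cancel₀ _ ht]
  refine LinearMap.finrank_le_finrank_of_injective
    (f := ((mulLin (t' / t)).comp (S.jPart E n).subtype).codRestrict (S.jPart E' n')
      fun x => hmap x x.2) ?_
  intro a b hab
  exact Subtype.val_injective (mulLin_injective hr (congrArg Subtype.val hab))

/-- For large `n` the full pole order is attained. -/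
theorem exists_order_eq_jPart (hgap : S.GapBound n₀) {E : Divisor K S.F} (hE : S.IsEff E) {n : ℤ}
    (hn : S.BigFor n₀ E (n - 1)) :
    ∃ x ∈ S.jPart E n, x ≠ 0 ∧ x.order = -(n - S.loss E) := by
  have := finite_jPart hgap hE (n - 1)
  by_contra hno
  push Not at hno
  have hle : S.jPart E n ≤ S.jPart E (n - 1) := by
    intro x hx
    rcases eq_or_ne x 0 with rfl | hx0
    · exact Submodule.zero_mem _
    refine ⟨(poleLE_iff_order hx0).mpr ?_, hx.2⟩
    have h1 := (poleLE_iff_order hx0).mp hx.1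
    have h2 := hno x hx hx0
    omega
  have h1 := Submodule.finrank_mono hle
  have h2 := (finrank_jPart hgap hE (hn.mono (by omega : n - 1 ≤ n))).2.1
  have h3 := (finrank_jPart hgap hE hn).2.1
  omega

/-- **Multiplication of sections is surjective** for large degrees. -/
theorem exists_span_mul_jPart (hgap : S.GapBound n₀) {E E' : Divisor K S.F} (hE : S.IsEff E)
    (hE' : S.IsEff E') :
    ∃ B : ℤ, ∀ m m' : ℤ, B ≤ m → B ≤ m' → S.jPart (E + E') (m + m') ≤
      Submodule.span k {z | ∃ x ∈ S.jPart E m, ∃ y ∈ S.jPart E' m', z = x * y} := by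
  classical
  set B₁ : ℤ := (n₀ : ℤ) + S.g + 2 * Divisor.degree E + 2 * Divisor.degree E' + 1 with hB₁
  have hdE := degree_nonneg_of_isEff hE
  have hdE' := degree_nonneg_of_isEff hE'
  -- the low part
  have hlow : ∀ u ∈ S.effIdeal E * S.effIdeal E', ∃ B : ℤ, ∀ m m' : ℤ, B ≤ m → B ≤ m' →
      u ∈ Submodule.span k {z | ∃ x ∈ S.jPart E m, ∃ y ∈ S.jPart E' m', z = x * y} := by
    intro u hu
    refine Submodule.mul_induction_on hu (fun a ha b hb => ?_) fun a b ha hb => ?_
    · refine ⟨max (-a.order + S.loss E) (-b.order + S.loss E'), fun m m' hm hm' =>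
        Submodule.subset_span ⟨a, ⟨(poleLE_neg_order a).mono (by omega), ha⟩, b,
          ⟨(poleLE_neg_order b).mono (by omega), hb⟩, rfl⟩⟩
    · obtain ⟨B, hB⟩ := ha
      obtain ⟨B', hB'⟩ := hb
      exact ⟨max B B', fun m m' hm hm' => Submodule.add_mem _ (hB m m' (by omega) (by omega))
        (hB' m m' (by omega) (by omega))⟩
  have := finite_jPart hgap (hE.add hE') (2 * B₁)
  let b := Module.finBasis k (S.jPart (E + E') (2 * B₁))
  have hb : ∀ i, (b i : LaurentSeries k) ∈ S.effIdeal E * S.effIdeal E' := fun i => by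
    rw [← hgap.effIdeal_add hE hE']
    exact (b i).2.2
  choose Bf hBf using fun i => hlow _ (hb i)
  set B₂ : ℤ := ∑ i, |Bf i| with hB₂
  refine ⟨max B₁ B₂, fun m m' hm hm' => ?_⟩
  suffices key : ∀ (j : ℕ), 2 * B₁ + j ≤ m + m' → S.jPart (E + E') (2 * B₁ + j) ≤
      Submodule.span k {z | ∃ x ∈ S.jPart E m, ∃ y ∈ S.jPart E' m', z = x * y} by
    obtain ⟨j, hj⟩ := Int.eq_ofNat_of_zero_le (a := m + m' - 2 * B₁) (by omega)
    have h := key j (by omega)
    rwa [show 2 * B₁ + (j : ℤ) = m + m' by omega] at h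
  intro j
  induction j with
  | zero =>
    intro _ u hu
    rw [Nat.cast_zero, add_zero] at hu
    have h := congrArg Subtype.val (b.sum_repr ⟨u, hu⟩)
    rw [AddSubmonoidClass.coe_finsetSum] at h
    rw [← show _ = u from h]
    refine Submodule.sum_mem _ fun i _ => Submodule.smul_mem _ _ (hBf i m m' ?_ ?_) <;>
    · have := Finset.single_le_sum (f := fun i => |Bf i|) (fun i _ => abs_nonneg _)
        (Finset.mem_univ i)
      have := le_abs_self (Bf i)
      simp only at *
      omega
  | succ j ih =>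
    intro hj u hu
    push_cast at hj hu
    rcases eq_or_ne u 0 with rfl | hu0
    · exact Submodule.zero_mem _
    set J : ℤ := 2 * B₁ + ((j : ℤ) + 1) with hJ
    -- split the top order
    set i : ℤ := min m (J - B₁) with hi
    obtain ⟨x, hx, hx0, hxo⟩ := exists_order_eq_jPart hgap hE (n := i)
      (by rw [BigFor]; omega)
    obtain ⟨y, hy, hy0, hyo⟩ := exists_order_eq_jPart hgap hE' (n := J - i)
      (by rw [BigFor]; omega)
    have hxy : x * y ∈ Submodule.span k
        {z | ∃ x ∈ S.jPart E m, ∃ y ∈ S.jPart E' m', z = x * y} :=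
      Submodule.subset_span ⟨x, jPart_mono (by omega) hx, y, jPart_mono (by omega) hy, rfl⟩
    have hxyJ : x * y ∈ S.jPart (E + E') J := by
      have := mul_mem_jPart hgap hE hE' hx hy
      rwa [add_sub_cancel] at this
    set o : ℤ := -(J - S.loss (E + E')) with ho
    have hxyo : (x * y).order = o := by
      rw [HahnSeries.order_mul hx0 hy0, hxo, hyo, ho, loss_add hgap hE hE']
      ring
    have hxyc : (x * y).coeff o ≠ 0 := fun h =>
      mul_ne_zero hx0 hy0 (HahnSeries.coeff_order_eq_zero.mp (by rw [hxyo]; exact h))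
    set a : k := u.coeff o / (x * y).coeff o
    have hu' : u - a • (x * y) ∈ S.jPart (E + E') (2 * B₁ + j) := by
      have h1 := Submodule.sub_mem _ hu (Submodule.smul_mem _ a hxyJ)
      refine ⟨fun l hl => ?_, h1.2⟩
      rcases lt_or_ge l o with h | h
      · exact h1.1 l (by omega)
      · obtain rfl : l = o := by omega
        rw [HahnSeries.coeff_sub, coeff_smulC, div_mul_cancel₀ _ hxyc, sub_self]
    have := Submodule.add_mem _ (ih (by omega) hu') (Submodule.smul_mem _ a hxy)
    rwa [sub_add_cancel] at this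

/-- For large `n` the sections generate the ideal. -/
theorem exists_le_span_jPart (hgap : S.GapBound n₀) {E : Divisor K S.F} (hE : S.IsEff E) :
    ∃ B : ℤ, ∀ n : ℤ, B ≤ n → S.effIdeal E ≤
      Submodule.span S.Cbar (S.jPart E n : Set (LaurentSeries k)) := by
  obtain ⟨B, hB⟩ := exists_span_mul_jPart hgap hE (isEff_zero (S := S))
  refine ⟨B, fun n hn x hx => ?_⟩
  have hx' : x ∈ S.jPart (E + 0) (n + max B (-x.order + S.loss E - n)) :=
    ⟨(poleLE_neg_order x).mono (by rw [add_zero]; omega), by rwa [add_zero]⟩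
  have h := hB n (max B (-x.order + S.loss E - n)) hn (le_max_left _ _) hx'
  revert h
  generalize max B (-x.order + S.loss E - n) = N
  intro h
  clear hx hx'
  induction h using Submodule.span_induction with
  | mem z hz =>
    obtain ⟨a, ha, c, hc, rfl⟩ := hz
    rw [mul_comm]
    have hc' : c ∈ S.Cbar := mem_Cbar_of_mem_effIdeal isEff_zero hc.2
    have h1 : (⟨c, hc'⟩ : S.Cbar) • a ∈ Submodule.span S.Cbar (S.jPart E n : Set _) :=
      Submodule.smul_mem _ _ (Submodule.subset_span ha)
    rwa [Algebra.smul_def] at h1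
  | zero => exact Submodule.zero_mem _
  | add a b _ _ ha hb => exact Submodule.add_mem _ ha hb
  | smul c a _ ha => exact constSMul_mem _ c ha

end CurveRed

end Fermat.Agent.Reduction
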