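import Fermat.Agent.Reduction.Valued

/-!
# Coefficient coordinates on lattices of series

A finite dimensional space of normalisable series has a basis dual to suitable coefficient
functionals whose reduction is a basis of the space of reductions.

Main result: `exists_latBasis`.
-/

set_option autoImplicit false

noncomputable section

namespace Fermat.Agent.Reduction

open HahnSeries

variable {K k : Type*} [Field K] [Field k] {A : ValuationSubring K} {π : A →+* k}

/-- Coefficients at given positions. -/
def coeffsAt {R : Type*} [Field R] {r : ℕ} (idx : Fin r → ℤ) :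
    LaurentSeries R →ₗ[R] (Fin r → R) where
  toFun y j := y.coeff (idx j)
  map_add' a b := funext fun j => by simp
  map_smul' c a := funext fun j => by simp

@[simp]
theorem coeffsAt_apply {R : Type*} [Field R] {r : ℕ} (idx : Fin r → ℤ) (y : LaurentSeries R)
    (j : Fin r) : coeffsAt idx y j = y.coeff (idx j) := rfl

/-- A basis of `V` dual to coefficient functionals, with independent reductions. -/
structure LatBasis (hπ : Function.Surjective π) (V : Submodule K (LaurentSeries K)) (r : ℕ) where
  /-- positions -/
  idx : Fin r → ℤ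
  /-- the basis -/
  vec : Fin r → LaurentSeries K
  /-- the reductions -/
  rvec : Fin r → LaurentSeries k
  mem : ∀ j, vec j ∈ V
  red : ∀ j, Red A π (vec j) (rvec j)
  coeff : ∀ j l, (vec j).coeff (idx l) = if l = j then 1 else 0
  eq_zero : ∀ y ∈ V, (∀ l, y.coeff (idx l) = 0) → y = 0
  red_eq_zero : ∀ x ∈ redSub hπ V, (∀ l, x.coeff (idx l) = 0) → x = 0

namespace LatBasis

variable {hπ : Function.Surjective π} {V : Submodule K (LaurentSeries K)} {r : ℕ}
  (b : LatBasis hπ V r)

theorem rvec_mem (j : Fin r) : b.rvec j ∈ redSub hπ V := ⟨_, b.mem j, b.red j⟩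

theorem rvec_coeff (j l : Fin r) : (b.rvec j).coeff (b.idx l) = if l = j then 1 else 0 := by
  obtain ⟨h, hl⟩ := b.red j (b.idx l)
  rw [← hl]
  have h' : (⟨(b.vec j).coeff (b.idx l), h⟩ : A) = if l = j then 1 else 0 := by
    apply Subtype.ext
    show (b.vec j).coeff (b.idx l) = _
    rw [b.coeff]
    split_ifs <;> rfl
  rw [h']
  split_ifs <;> simp

theorem sum_vec {y : LaurentSeries K} (hy : y ∈ V) :
    ∑ j, y.coeff (b.idx j) • b.vec j = y := by
  classical
  refine (sub_eq_zero.mp (b.eq_zero _ (V.sub_mem hy
    (V.sum_mem fun j _ => V.smul_mem _ (b.mem j))) fun l => ?_)).symm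
  rw [HahnSeries.coeff_sub, HahnSeries.coeff_sum, Finset.sum_eq_single l]
  · rw [coeff_smulC, b.coeff, if_pos rfl, mul_one, sub_self]
  · intro j _ hj
    rw [coeff_smulC, b.coeff, if_neg (Ne.symm hj), mul_zero]
  · exact fun h => absurd (Finset.mem_univ l) h

theorem sum_rvec {x : LaurentSeries k} (hx : x ∈ redSub hπ V) :
    ∑ j, x.coeff (b.idx j) • b.rvec j = x := by
  classical
  refine (sub_eq_zero.mp (b.red_eq_zero _ (Submodule.sub_mem _ hx
    (Submodule.sum_mem _ fun j _ => Submodule.smul_mem _ _ (b.rvec_mem j))) fun l => ?_)).symm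
  rw [HahnSeries.coeff_sub, HahnSeries.coeff_sum, Finset.sum_eq_single l]
  · rw [coeff_smulC, b.rvec_coeff, if_pos rfl, mul_one, sub_self]
  · intro j _ hj
    rw [coeff_smulC, b.rvec_coeff, if_neg (Ne.symm hj), mul_zero]
  · exact fun h => absurd (Finset.mem_univ l) h

theorem red_sum (a : Fin r → A) :
    Red A π (∑ j, (a j : K) • b.vec j) (∑ j, π (a j) • b.rvec j) :=
  Red.sum Finset.univ fun j _ => (b.red j).smul (a j)

theorem coeff_sum_vec (c : Fin r → K) (l : Fin r) :
    (∑ j, c j • b.vec j).coeff (b.idx l) = c l := by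
  classical
  rw [HahnSeries.coeff_sum, Finset.sum_eq_single l]
  · rw [coeff_smulC, b.coeff, if_pos rfl, mul_one]
  · intro j _ hj
    rw [coeff_smulC, b.coeff, if_neg (Ne.symm hj), mul_zero]
  · exact fun h => absurd (Finset.mem_univ l) h

include b in
theorem finrank_eq : Module.finrank K V = r := by
  classical
  let f : V →ₗ[K] (Fin r → K) := (coeffsAt b.idx).comp V.subtype
  have hinj : Function.Injective f := by
    rw [injective_iff_map_eq_zero]
    exact fun y hy => Subtype.ext (b.eq_zero _ y.2 fun l => congrFun hy l)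
  have hsurj : Function.Surjective f := fun c =>
    ⟨⟨∑ j, c j • b.vec j, V.sum_mem fun j _ => V.smul_mem _ (b.mem j)⟩,
      funext fun l => b.coeff_sum_vec c l⟩
  rw [(LinearEquiv.ofBijective f ⟨hinj, hsurj⟩).finrank_eq, Module.finrank_fin_fun]

/-- The basis vectors are fixed by every coefficient automorphism preserving `V`. -/
theorem coeffMap_vec (e : K ≃+* K) (hV : ∀ y ∈ V, ModularCurve.coeffMap (e : K →+* K) y ∈ V)
    (j : Fin r) : ModularCurve.coeffMap (e : K →+* K) (b.vec j) = b.vec j := by
  refine sub_eq_zero.mp (b.eq_zero _ (V.sub_mem (hV _ (b.mem j)) (b.mem j)) fun l => ?_)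
  rw [HahnSeries.coeff_sub, ModularCurve.coeffMap_coeff, b.coeff]
  split_ifs <;> simp

end LatBasis

/-- Lattice bases exist. -/
theorem exists_latBasis (hπ : Function.Surjective π) (V : Submodule K (LaurentSeries K))
    [FiniteDimensional K V] (hV : NormalizableSub A π V) :
    Nonempty (LatBasis hπ V (Module.finrank K V)) := by
  classical
  set r := Module.finrank K V with hr
  have := (finiteDimensional_redSub hπ V).1
  have hrk : Module.finrank k (redSub hπ V) = r := finrank_redSub hπ V hV
  -- coefficient functionals span the dual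
  let φ : ℤ → (redSub hπ V →ₗ[k] k) := fun i =>
    { toFun := fun x => (x : LaurentSeries k).coeff i
      map_add' := fun a b => by simp
      map_smul' := fun c a => by simp }
  have hspan : Submodule.span k (Set.range φ) = ⊤ := by
    refine Submodule.eq_top_of_finrank_eq ?_
    refine le_antisymm (Submodule.finrank_le _) ?_
    rw [Subspace.dual_finrank_eq]
    let ev : redSub hπ V →ₗ[k] Module.Dual k (Submodule.span k (Set.range φ)) :=
      (Submodule.subtype _).dualMap.comp (Module.Dual.eval k (redSub hπ V))
    have hinj : Function.Injective ev := by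
      rw [injective_iff_map_eq_zero]
      intro x hx
      refine Subtype.ext (HahnSeries.ext (funext fun i => ?_))
      exact LinearMap.congr_fun hx ⟨φ i, Submodule.subset_span ⟨i, rfl⟩⟩
    have h := LinearMap.finrank_le_finrank_of_injective hinj
    exact h.trans_eq (Subspace.dual_finrank_eq (K := k) (V := Submodule.span k (Set.range φ)))
  obtain ⟨B, hBsub, hBspan, hBli⟩ := exists_linearIndependent k (Set.range φ)
  have : Finite B := hBli.finite
  let := Fintype.ofFinite B
  let bB : Module.Basis B k (Module.Dual k (redSub hπ V)) :=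
    Module.Basis.mk hBli (by rw [Subtype.range_coe, hBspan, hspan])
  have hcard : Fintype.card B = r := by
    rw [← Module.finrank_eq_card_basis bB, Subspace.dual_finrank_eq, hrk]
  let eB : Fin r ≃ B := (Fintype.equivFinOfCardEq hcard).symm
  choose idx hidx using fun j : Fin r => hBsub (eB j).2
  -- the reduced coordinates
  let f : redSub hπ V →ₗ[k] (Fin r → k) := (coeffsAt idx).comp (redSub hπ V).subtype
  have hfinj : Function.Injective f := by
    rw [injective_iff_map_eq_zero]
    intro x hx
    refine (Module.forall_dual_apply_eq_zero_iff k x).mp fun g => ?_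
    rw [← bB.sum_repr g, LinearMap.sum_apply]
    refine Finset.sum_eq_zero fun q _ => ?_
    obtain ⟨j, rfl⟩ := eB.surjective q
    rw [LinearMap.smul_apply, Module.Basis.mk_apply, ← hidx j]
    show _ • (x : LaurentSeries k).coeff (idx j) = 0
    rw [show (x : LaurentSeries k).coeff (idx j) = 0 from congrFun hx j, smul_zero]
  have hfsurj : Function.Surjective f :=
    (LinearMap.injective_iff_surjective_of_finrank_eq_finrank
      (by rw [hrk, Module.finrank_fin_fun])).mp hfinj
  choose x hx using fun j : Fin r => hfsurj (Pi.single j 1)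
  choose y hy hyx using fun j : Fin r => (x j).2
  -- correct the lifts
  let M : Matrix (Fin r) (Fin r) A := fun l j => ⟨(y j).coeff (idx l), (hyx j (idx l)).choose⟩
  have hM : M.map π = 1 := by
    ext l j
    have h1 : π (M l j) = (x j : LaurentSeries k).coeff (idx l) := (hyx j (idx l)).choose_spec
    rw [Matrix.map_apply, h1, show (x j : LaurentSeries k).coeff (idx l) = f (x j) l from rfl, hx,
      Matrix.one_apply, Pi.single_apply]
  have hu : IsUnit M.det := by
    by_contra h
    have h0 : π M.det = 1 := by
      rw [RingHom.map_det, RingHom.mapMatrix_apply, hM, Matrix.det_one]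
    have h1 : π M.det = 0 := by
      by_contra hne
      exact h ((ValuationSubring.valuation_eq_one_iff A _).mpr
        ((residue_ne_zero_iff hπ M.det).mp hne))
    exact one_ne_zero (h0.symm.trans h1)
  let vec : Fin r → LaurentSeries K := fun j => ∑ q, ((M⁻¹ q j : A) : K) • y q
  have hMinv : (M⁻¹).map π = 1 := by
    have h := congrArg (fun N : Matrix (Fin r) (Fin r) A => N.map π) (Matrix.mul_nonsing_inv M hu)
    simp only [Matrix.map_mul, hM, one_mul, Matrix.map_one _ (map_zero π) (map_one π)] at h
    exact h
  have hcoeff : ∀ j l, (vec j).coeff (idx l) = if l = j then 1 else 0 := by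
    intro j l
    have h := congrArg (fun N : Matrix (Fin r) (Fin r) A => ((N l j : A) : K))
      (Matrix.mul_nonsing_inv M hu)
    rw [HahnSeries.coeff_sum]
    simp only [coeff_smulC]
    rw [show (∑ q, ((M⁻¹ q j : A) : K) * (y q).coeff (idx l)) = (((M * M⁻¹) l j : A) : K) from ?_,
      h, Matrix.one_apply]
    · split_ifs <;> rfl
    · rw [Matrix.mul_apply, AddSubmonoidClass.coe_finsetSum]
      exact Finset.sum_congr rfl fun q _ => mul_comm _ _
  have hvinj : ∀ v ∈ V, (∀ l, v.coeff (idx l) = 0) → v = 0 := by
    let F : V →ₗ[K] (Fin r → K) := (coeffsAt idx).comp V.subtype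
    have hFs : Function.Surjective F := fun c => by
      refine ⟨⟨∑ j, c j • vec j, V.sum_mem fun j _ => V.smul_mem _
        (V.sum_mem fun q _ => V.smul_mem _ (hy q))⟩, funext fun l => ?_⟩
      show (∑ j, c j • vec j).coeff (idx l) = c l
      rw [HahnSeries.coeff_sum]
      simp only [coeff_smulC, hcoeff, mul_ite, mul_one, mul_zero, Finset.sum_ite_eq,
        Finset.mem_univ, if_true]
    have hFi := (LinearMap.injective_iff_surjective_of_finrank_eq_finrank (f := F)
      (by rw [Module.finrank_fin_fun])).mpr hFs
    intro v hv hv0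
    have h : F ⟨v, hv⟩ = F 0 := funext fun l => by
      rw [map_zero]
      exact hv0 l
    exact congrArg Subtype.val (hFi h)
  refine ⟨⟨idx, vec, fun j => (x j : LaurentSeries k),
    fun j => V.sum_mem fun q _ => V.smul_mem _ (hy q), fun j => ?_, hcoeff, hvinj,
    fun z hz hz0 => congrArg Subtype.val
      (hfinj (a₁ := ⟨z, hz⟩) (a₂ := 0) (funext fun l => by rw [map_zero]; exact hz0 l))⟩⟩
  have h1 := Red.sum Finset.univ (fun q _ => (hyx q).smul (M⁻¹ q j))
  rw [show (∑ q, π (M⁻¹ q j) • (x q : LaurentSeries k)) = (x j : LaurentSeries k) from ?_] at h1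
  · exact h1
  rw [Finset.sum_eq_single j]
  · rw [show π (M⁻¹ j j) = (M⁻¹.map π) j j from rfl, hMinv, Matrix.one_apply_eq, one_smul]
  · intro q _ hq
    rw [show π (M⁻¹ q j) = (M⁻¹.map π) q j from rfl, hMinv, Matrix.one_apply_ne hq, zero_smul]
  · exact fun h => absurd (Finset.mem_univ j) h

end Fermat.Agent.Reduction
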