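import Fermat.Agent.FlatModel.Galois
import Fermat.Agent.FlatModel.Lattice
import Fermat.Agent.Gal.Residue

/-!
# Two rational coordinates on the reduced curve

`t` and `θ` are rational, integral, with reductions of pole orders `d` and `d + 1`. Outside a
finite set of residues `a`, the fibre `t̄ = a` consists of `d` points separated by `θ̄`.

Main results: `exists_coord`, `Coord.exists_conductor` and `Coord.exists_bad`.
-/

set_option autoImplicit false

noncomputable section

open AlgebraicCurve HahnSeries ModularCurve Polynomial IsLocalRing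

namespace Fermat.Agent.FlatModel

open Fermat.Agent.Reduction

/-- A family of series with pairwise distinct orders is linearly independent. -/
theorem linearIndependent_of_injective_order {k ι : Type*} [Field k] {v : ι → LaurentSeries k}
    (h0 : ∀ i, v i ≠ 0) (hinj : Function.Injective fun i => (v i).order) :
    LinearIndependent k v := by
  classical
  rw [linearIndependent_iff']
  intro s g hg i hi
  by_contra hgi
  set T := s.filter (fun j => g j ≠ 0) with hT
  obtain ⟨m, hmT, hmin⟩ := T.exists_min_image (fun j => (v j).order)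
    ⟨i, Finset.mem_filter.mpr ⟨hi, hgi⟩⟩
  obtain ⟨hms, hm0⟩ := Finset.mem_filter.mp hmT
  have hcoeff := congrArg (fun y : LaurentSeries k => y.coeff (v m).order) hg
  simp only [HahnSeries.coeff_sum, HahnSeries.coeff_zero] at hcoeff
  rw [Finset.sum_eq_single m] at hcoeff
  · rw [coeff_smulC] at hcoeff
    rcases mul_eq_zero.mp hcoeff with h | h
    · exact hm0 h
    · exact h0 m (HahnSeries.coeff_order_eq_zero.mp h)
  · intro j hj hjm
    rw [coeff_smulC]
    by_cases hgj : g j = 0
    · rw [hgj, zero_mul]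
    · have hle := hmin j (Finset.mem_filter.mpr ⟨hj, hgj⟩)
      rw [HahnSeries.coeff_eq_zero_of_lt_order, mul_zero]
      exact lt_of_le_of_ne hle fun h => hjm (hinj h).symm
  · exact fun h => absurd hms h

/-- An element acting on a finite quotient is killed there by a nonzero polynomial. -/
theorem exists_conductor_of_finite {k C : Type*} [Field k] [CommRing C] [Algebra k C]
    (V : Submodule k C) (T : C) (hfin : FiniteDimensional k (C ⧸ V))
    (hT : ∀ x ∈ V, T * x ∈ V) :
    ∃ e : k[X], e ≠ 0 ∧ (∀ x : C, Polynomial.aeval T e * x ∈ V) ∧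
      ∀ (a : k) (x : C), e.eval a ≠ 0 → (T - algebraMap k C a) * x ∈ V → x ∈ V := by
  have := hfin
  let mT : Module.End k (C ⧸ V) := V.mapQ V (LinearMap.mulLeft k T) hT
  have hpow : ∀ (i : ℕ) (x : C), (mT ^ i) (Submodule.Quotient.mk x) =
      Submodule.Quotient.mk (T ^ i * x) := by
    intro i
    induction i with
    | zero => intro x; simp
    | succ i ih =>
      intro x
      rw [pow_succ', Module.End.mul_apply, ih]
      show Submodule.Quotient.mk (T * (T ^ i * x)) = _
      rw [pow_succ', mul_assoc]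
  have hmT : ∀ (p : k[X]) (x : C),
      Polynomial.aeval mT p (Submodule.Quotient.mk x) =
        Submodule.Quotient.mk (Polynomial.aeval T p * x) := by
    intro p
    induction p using Polynomial.induction_on' with
    | add p q hp hq =>
      intro x
      rw [map_add, map_add, LinearMap.add_apply, hp, hq, add_mul, Submodule.Quotient.mk_add]
    | monomial i a =>
      intro x
      rw [Polynomial.aeval_monomial, Module.End.mul_apply, hpow, Module.algebraMap_end_apply,
        Polynomial.aeval_monomial, ← Submodule.Quotient.mk_smul, Algebra.smul_def, mul_assoc]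
  refine ⟨mT.charpoly, (LinearMap.charpoly_monic mT).ne_zero, fun x => ?_, fun a x ha hx => ?_⟩
  · rw [← Submodule.Quotient.mk_eq_zero, ← hmT, LinearMap.aeval_self_charpoly,
      LinearMap.zero_apply]
  · obtain ⟨r, hr⟩ : X - Polynomial.C a ∣ mT.charpoly - Polynomial.C (mT.charpoly.eval a) := by
      rw [Polynomial.dvd_iff_isRoot]
      simp
    have h1 : Polynomial.aeval T (X - Polynomial.C a) * x ∈ V := by simpa using hx
    have h2 : Polynomial.aeval mT (Polynomial.C (mT.charpoly.eval a))
        (Submodule.Quotient.mk x) = 0 := by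
      rw [show Polynomial.C (mT.charpoly.eval a) = mT.charpoly - r * (X - Polynomial.C a) by
          rw [mul_comm r, ← hr]; ring,
        map_sub, map_mul, LinearMap.sub_apply, LinearMap.aeval_self_charpoly, Module.End.mul_apply,
        hmT (X - Polynomial.C a), (Submodule.Quotient.mk_eq_zero _).mpr h1, map_zero,
        LinearMap.zero_apply, sub_zero]
    rw [hmT, Submodule.Quotient.mk_eq_zero, Polynomial.aeval_C, ← Algebra.smul_def] at h2
    exact (Submodule.smul_mem_iff _ ha).mp h2

/-- A relation over `k[T]` specialises to a relation modulo `T - a`. -/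
theorem aeval_map_eval_mem {k C : Type*} [Field k] [CommRing C] [Algebra k C] (T θ : C) (a : k)
    (P : k[X][X]) (h : P.eval₂ (Polynomial.aeval T).toRingHom θ = 0) :
    Polynomial.aeval θ (P.map (Polynomial.evalRingHom a)) ∈
      Ideal.span {T - algebraMap k C a} := by
  rw [← Ideal.Quotient.eq_zero_iff_mem]
  set π := Ideal.Quotient.mk (Ideal.span {T - algebraMap k C a})
  have h' := congrArg π h
  rw [Polynomial.hom_eval₂, map_zero] at h'
  rw [Polynomial.aeval_def, Polynomial.eval₂_map, Polynomial.hom_eval₂, ← h']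
  congr 1
  refine RingHom.ext fun p => (Ideal.Quotient.eq.mpr ?_).symm
  obtain ⟨r, hr⟩ : X - Polynomial.C a ∣ p - Polynomial.C (p.eval a) := by
    rw [Polynomial.dvd_iff_isRoot]
    simp
  have h2 := congrArg (Polynomial.aeval T) hr
  simp only [map_sub, map_mul, Polynomial.aeval_X, Polynomial.aeval_C] at h2
  simp only [AlgHom.toRingHom_eq_coe, RingHom.coe_comp, RingHom.coe_coe, Function.comp_apply,
    Polynomial.coe_evalRingHom]
  rw [h2]
  exact Ideal.mul_mem_right _ _ (Ideal.mem_span_singleton_self _)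

variable {A : ValuationSubring Qbar}

/-- The coordinates. -/
structure Coord (S : CurveRed A (IsLocalRing.residue A)) (Γ : GalAct S) where
  /-- the degree -/
  d : ℕ
  /-- the first coordinate -/
  t : S.F
  /-- the second coordinate -/
  θ : S.F
  /-- the reduction of `t` -/
  tb : S.Cbar
  /-- the reduction of `θ` -/
  θb : S.Cbar
  two_le : 2 ≤ d
  dk : (d : ResidueField A) ≠ 0
  t_mem : (t : LaurentSeries Qbar) ∈ S.space (S.atPt d)
  θ_mem : (θ : LaurentSeries Qbar) ∈ S.space (S.atPt (d + 1 : ℕ))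
  t_fix : ∀ σ, cmap σ (t : LaurentSeries Qbar) = t
  θ_fix : ∀ σ, cmap σ (θ : LaurentSeries Qbar) = θ
  t_red : Red A (residue A) (t : LaurentSeries Qbar) (tb : LaurentSeries (ResidueField A))
  θ_red : Red A (residue A) (θ : LaurentSeries Qbar) (θb : LaurentSeries (ResidueField A))
  tb_ne : (tb : LaurentSeries (ResidueField A)) ≠ 0
  θb_ne : (θb : LaurentSeries (ResidueField A)) ≠ 0
  tb_order : (tb : LaurentSeries (ResidueField A)).order = -(d : ℤ)
  θb_order : (θb : LaurentSeries (ResidueField A)).order = -((d + 1 : ℕ) : ℤ)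

variable {S : CurveRed A (IsLocalRing.residue A)} {n₀ : ℕ} (hgap : S.GapBound n₀)

local notation "𝕜" => ResidueField A

include hgap in
/-- A rational integral function with reduction of pole order exactly `n`. -/
theorem exists_rational_of_pole (Γ : GalAct S) {n : ℕ} (hn : n₀ + S.g < n) :
    ∃ (y : S.F) (x : S.Cbar), (y : LaurentSeries Qbar) ∈ S.space (S.atPt n) ∧
      (∀ σ, cmap σ (y : LaurentSeries Qbar) = y) ∧
      Red A (residue A) (y : LaurentSeries Qbar) (x : LaurentSeries 𝕜) ∧
      (x : LaurentSeries 𝕜) ≠ 0 ∧ (x : LaurentSeries 𝕜).order = -(n : ℤ) := by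
  have := S.finiteDimensional_space (S.atPt n)
  obtain ⟨b⟩ := exists_latBasis S.surj (S.space (S.atPt n))
    (S.normalizable_space (S.offNonpos_atPt n))
  obtain ⟨x₀, hx₀, hx₀0, hx₀o⟩ := hgap.exists_order_eq (n := n) (by omega)
  rw [← hgap.redSub_eq (by omega : (n₀ : ℤ) ≤ n)] at hx₀
  obtain ⟨j, hj⟩ : ∃ j, (b.rvec j).coeff (-(n : ℤ)) ≠ 0 := by
    by_contra hno
    push Not at hno
    refine hx₀0 (HahnSeries.coeff_order_eq_zero.mp ?_)
    rw [← b.sum_rvec hx₀, hx₀o] at *
    rw [HahnSeries.coeff_sum]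
    exact Finset.sum_eq_zero fun l _ => by rw [coeff_smulC, hno l, mul_zero]
  have hne : b.rvec j ≠ 0 := fun h => hj (by rw [h]; rfl)
  have hp : PoleLE (n : ℤ) (b.rvec j) := by
    have := (b.red j).poleLE (S.poleLE_space (b.mem j))
    rwa [S.atPt_self] at this
  refine ⟨⟨b.vec j, S.mem_of_mem_space (b.mem j)⟩, ⟨b.rvec j, n, b.rvec_mem j⟩, b.mem j,
    fun σ => b.coeffMap_vec σ.toRingEquiv (fun y hy => Γ.cmap_mem_space_atPt σ n hy) j,
    b.red j, hne, le_antisymm (HahnSeries.order_le_of_coeff_ne_zero hj)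
      ((poleLE_iff_order hne).mp hp)⟩

include hgap in
/-- Rational coordinates exist. -/
theorem exists_coord {ℓ : ℕ} [Fact ℓ.Prime] (hA : A.LiesOverPrime ℓ) (Γ : GalAct S) :
    Nonempty (Coord S Γ) := by
  obtain ⟨d, hd, hdp⟩ := Nat.exists_infinite_primes (ℓ + n₀ + S.g + 1)
  obtain ⟨t, tb, h1, h2, h3, h4, h5⟩ := exists_rational_of_pole hgap Γ (n := d) (by omega)
  obtain ⟨θ, θb, g1, g2, g3, g4, g5⟩ := exists_rational_of_pole hgap Γ (n := d + 1) (by omega)
  have := Gal.charP_residueField A (Fact.out : ℓ.Prime) hA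
  refine ⟨⟨d, t, θ, tb, θb, hdp.two_le, ?_, h1, g1, h2, g2, h3, g3, h4, g4, h5, g5⟩⟩
  rw [Ne, CharP.cast_eq_zero_iff 𝕜 ℓ]
  exact fun h => (Nat.prime_dvd_prime_iff_eq Fact.out hdp).mp h |> fun e => by omega

namespace Coord

variable {Γ : GalAct S} (co : Coord S Γ)

/-- Polynomials in `t̄`. -/
def evalT : 𝕜[X] →+* S.Cbar := (Polynomial.aeval co.tb).toRingHom

/-- The monomial `t̄^i θ̄^j`. -/
def mono (q : ℕ × Fin co.d) : S.Cbar := co.tb ^ q.1 * co.θb ^ (q.2 : ℕ)

theorem mono_order (q : ℕ × Fin co.d) :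
    (co.mono q : LaurentSeries 𝕜) ≠ 0 ∧
      (co.mono q : LaurentSeries 𝕜).order = -((co.d : ℤ) * q.1 + (co.d + 1) * (q.2 : ℕ)) := by
  simp only [mono, Subalgebra.coe_mul, Subalgebra.coe_pow]
  have h1 := pow_ne_zero q.1 co.tb_ne
  have h2 := pow_ne_zero (q.2 : ℕ) co.θb_ne
  refine ⟨mul_ne_zero h1 h2, ?_⟩
  rw [HahnSeries.order_mul h1 h2, order_pow' co.tb_ne, order_pow' co.θb_ne, co.tb_order,
    co.θb_order]
  push_cast
  ring

theorem linearIndependent_mono : LinearIndependent 𝕜 co.mono := by
  have hinj : Function.Injective fun q => (co.mono q : LaurentSeries 𝕜).order := by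
    intro a b h
    simp only [(co.mono_order a).2, (co.mono_order b).2, neg_inj] at h
    have h' : co.d * a.1 + (co.d + 1) * (a.2 : ℕ) = co.d * b.1 + (co.d + 1) * (b.2 : ℕ) := by
      exact_mod_cast h
    have e : (a.2 : ℕ) = (b.2 : ℕ) := by
      have h2 := congrArg (· % co.d) h'
      simpa [Nat.add_mul, Nat.mul_add, Nat.add_mod, Nat.mod_eq_of_lt a.2.isLt,
        Nat.mod_eq_of_lt b.2.isLt] using h2
    refine Prod.ext ?_ (Fin.ext e)
    rw [e] at h'
    exact Nat.eq_of_mul_eq_mul_left (by have := co.two_le; omega) (Nat.add_right_cancel h')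
  have hli := linearIndependent_of_injective_order (fun q => (co.mono_order q).1) hinj
  rw [linearIndependent_iff'] at hli ⊢
  intro s g hg i hi
  refine hli s g ?_ i hi
  have h1 : ((∑ q ∈ s, g q • co.mono q : S.Cbar) : LaurentSeries 𝕜) = 0 := by rw [hg]; rfl
  rw [AddSubmonoidClass.coe_finsetSum] at h1
  rw [← h1]
  refine Finset.sum_congr rfl fun q _ => ?_
  rw [smul_eq_algebraMap_mul, Algebra.smul_def, Subalgebra.coe_mul, Subalgebra.coe_algebraMap]

/-- The span of the monomials. -/
def monoSpan : Submodule 𝕜 S.Cbar := Submodule.span 𝕜 (Set.range co.mono)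

theorem monoSpan_eq_bot_of_sum {q : Fin co.d → 𝕜[X]}
    (h : ∑ j, co.evalT (q j) * co.θb ^ (j : ℕ) = 0) : ∀ j, q j = 0 := by
  classical
  intro j
  ext i
  rw [Polynomial.coeff_zero]
  set N := (Finset.univ.sup fun j => (q j).natDegree) + 1 + i
  have hli := co.linearIndependent_mono
  rw [linearIndependent_iff'] at hli
  refine hli (Finset.range N ×ˢ Finset.univ) (fun r => (q r.2).coeff r.1) ?_ (i, j)
    (Finset.mem_product.mpr ⟨Finset.mem_range.mpr (by omega), Finset.mem_univ _⟩)
  rw [Finset.sum_product_right, ← h]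
  refine Finset.sum_congr rfl fun l _ => ?_
  have hl : (q l).natDegree < N := by
    have := Finset.le_sup (f := fun j => (q j).natDegree) (Finset.mem_univ l)
    omega
  rw [evalT, AlgHom.toRingHom_eq_coe, RingHom.coe_coe, Polynomial.aeval_eq_sum_range' hl,
    Finset.sum_mul]
  exact Finset.sum_congr rfl fun i' _ => (smul_mul_assoc _ _ _).symm

theorem evalT_mul_mem (q : 𝕜[X]) (j : Fin co.d) : co.evalT q * co.θb ^ (j : ℕ) ∈ co.monoSpan := by
  rw [evalT, AlgHom.toRingHom_eq_coe, RingHom.coe_coe, Polynomial.aeval_eq_sum_range,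
    Finset.sum_mul]
  refine Submodule.sum_mem _ fun i _ => ?_
  rw [smul_mul_assoc]
  exact Submodule.smul_mem _ _ (Submodule.subset_span ⟨(i, j), rfl⟩)

theorem exists_coeffs_of_mem {x : S.Cbar} (hx : x ∈ co.monoSpan) :
    ∃ q : Fin co.d → 𝕜[X], x = ∑ j, co.evalT (q j) * co.θb ^ (j : ℕ) := by
  classical
  induction hx using Submodule.span_induction with
  | mem y hy =>
    obtain ⟨⟨i, j⟩, rfl⟩ := hy
    refine ⟨Pi.single j (X ^ i), ?_⟩
    rw [Finset.sum_eq_single j (fun l _ hl => by rw [Pi.single_eq_of_ne hl, map_zero, zero_mul])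
      (fun h => absurd (Finset.mem_univ j) h), Pi.single_eq_same, map_pow]
    simp [mono, evalT]
  | zero => exact ⟨0, by simp⟩
  | add a b _ _ ha hb =>
    obtain ⟨p, rfl⟩ := ha
    obtain ⟨q, rfl⟩ := hb
    exact ⟨p + q, by simp [add_mul, Finset.sum_add_distrib]⟩
  | smul c a _ ha =>
    obtain ⟨p, rfl⟩ := ha
    refine ⟨c • p, ?_⟩
    rw [Finset.smul_sum]
    refine Finset.sum_congr rfl fun j _ => ?_
    simp [evalT]

include hgap in
/-- Some nonzero polynomial in `t̄` multiplies `Cbar` into the span of the monomials. -/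
theorem exists_conductor : ∃ e : 𝕜[X], e ≠ 0 ∧
    (∀ x : S.Cbar, co.evalT e * x ∈ co.monoSpan) ∧
    ∀ (a : 𝕜) (x : S.Cbar), e.eval a ≠ 0 → (co.tb - algebraMap 𝕜 S.Cbar a) * x ∈ co.monoSpan →
      x ∈ co.monoSpan := by
  have hd := co.two_le
  set c : ℤ := ((co.d * co.d + n₀ : ℕ) : ℤ) with hc
  -- a bounded complement
  have hdec : ∀ (j : ℕ) (x : S.Cbar), x ∈ S.polePart (c + j) →
      x ∈ co.monoSpan ⊔ S.polePart c := by
    intro j
    induction j with
    | zero => exact fun x hx => Submodule.mem_sup_right (by simpa using hx)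
    | succ j ih =>
      intro x hx
      set N : ℕ := co.d * co.d + n₀ + (j + 1) with hN
      have hj' : N % co.d < co.d := Nat.mod_lt _ (by omega)
      have hdiv : co.d ≤ N / co.d := (Nat.le_div_iff_mul_le (by omega)).mpr (by omega)
      set m := co.mono (N / co.d - N % co.d, ⟨N % co.d, hj'⟩)
      obtain ⟨hm0, hmo⟩ := co.mono_order (N / co.d - N % co.d, ⟨N % co.d, hj'⟩)
      have hNe : co.d * (N / co.d - N % co.d) + (co.d + 1) * (N % co.d) = N := by
        have h1 := Nat.div_add_mod N co.d
        rw [Nat.mul_sub, Nat.add_mul, one_mul]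
        have h2 : co.d * (N % co.d) ≤ co.d * (N / co.d) := Nat.mul_le_mul_left _ (by omega)
        omega
      have hmN : (m : LaurentSeries 𝕜).order = -(N : ℤ) := by
        rw [hmo]
        exact_mod_cast congrArg (fun z : ℕ => -(z : ℤ)) hNe
      have hmc : (m : LaurentSeries 𝕜).coeff (-(N : ℤ)) ≠ 0 := fun h =>
        hm0 (HahnSeries.coeff_order_eq_zero.mp (by rw [hmN]; exact h))
      set a : 𝕜 := (x : LaurentSeries 𝕜).coeff (-(N : ℤ)) / (m : LaurentSeries 𝕜).coeff (-(N : ℤ))
      have hx' : x - algebraMap 𝕜 S.Cbar a * m ∈ S.polePart (c + j) := by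
        intro i hi
        rw [AddSubgroupClass.coe_sub, Subalgebra.coe_mul, Subalgebra.coe_algebraMap,
          HahnSeries.coeff_sub, coeff_algebraMap_mul]
        rcases lt_or_ge i (-(N : ℤ)) with h | h
        · have hx2 := hx i (by push_cast; omega)
          rw [hx2, HahnSeries.coeff_eq_zero_of_lt_order (x := (m : LaurentSeries 𝕜))
            (by rw [hmN]; exact h), mul_zero, sub_zero]
        · obtain rfl : i = -(N : ℤ) := by omega
          rw [div_mul_cancel₀ _ hmc, sub_self]
      have := Submodule.add_mem _ (ih _ hx')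
        (Submodule.mem_sup_left (S := co.monoSpan) (T := S.polePart c)
          (Submodule.smul_mem co.monoSpan a (Submodule.subset_span ⟨_, rfl⟩) :
            a • m ∈ co.monoSpan))
      rwa [Algebra.smul_def, sub_add_cancel] at this
  have hall : ∀ x : S.Cbar, x ∈ co.monoSpan ⊔ S.polePart c := by
    intro x
    obtain ⟨N, hN, hx⟩ := S.exists_mem_polePart x c
    obtain ⟨j, hj⟩ := Int.eq_ofNat_of_zero_le (a := N - c) (by omega)
    exact hdec j x (by rwa [show c + (j : ℤ) = N by omega])
  have := hgap.finite_polePart c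
  have hfin : FiniteDimensional 𝕜 (S.Cbar ⧸ co.monoSpan) := by
    refine Module.Finite.of_surjective (co.monoSpan.mkQ.comp (S.polePart c).subtype) fun y => ?_
    obtain ⟨x, rfl⟩ := Submodule.Quotient.mk_surjective _ y
    obtain ⟨u, hu, p, hp, rfl⟩ := Submodule.mem_sup.mp (hall x)
    refine ⟨⟨p, hp⟩, (Submodule.Quotient.eq _).mpr ?_⟩
    simpa using hu
  exact exists_conductor_of_finite co.monoSpan co.tb hfin (by
    intro x hx
    rw [monoSpan] at hx ⊢
    induction hx using Submodule.span_induction with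
    | mem y hy =>
      obtain ⟨⟨i, j⟩, rfl⟩ := hy
      refine Submodule.subset_span ⟨(i + 1, j), ?_⟩
      show co.tb ^ (i + 1) * _ = co.tb * (co.tb ^ i * _)
      rw [pow_succ', mul_assoc]
    | zero => rw [mul_zero]; exact Submodule.zero_mem _
    | add a b _ _ ha hb => rw [mul_add]; exact Submodule.add_mem _ ha hb
    | smul c a _ ha => rw [mul_smul_comm]; exact Submodule.smul_mem _ c ha)

include hgap in
/-- A good residue: the powers of `θ̄` are independent modulo `t̄ - a` and its relation is
separable. -/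
theorem exists_bad :
    ∃ (bad : Finset 𝕜) (P : 𝕜 → 𝕜[X]), ∀ a : 𝕜, a ∉ bad →
      (P a).natDegree = co.d ∧ (P a).Separable ∧
      Polynomial.aeval co.θb (P a) ∈ Ideal.span {co.tb - algebraMap 𝕜 S.Cbar a} ∧
      ∀ f : 𝕜[X], f.degree < (co.d : WithBot ℕ) →
        Polynomial.aeval co.θb f ∈ Ideal.span {co.tb - algebraMap 𝕜 S.Cbar a} → f = 0 := by
  classical
  have hd := co.two_le
  obtain ⟨e, he0, hemem, hecancel⟩ := co.exists_conductor hgap
  obtain ⟨q, hq⟩ := co.exists_coeffs_of_mem (hemem (co.θb ^ co.d))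
  set R0 : 𝕜[X][X] := ∑ j : Fin co.d, Polynomial.C (q j) * X ^ (j : ℕ) with hR0
  set P : 𝕜[X][X] := Polynomial.C e * X ^ co.d - R0 with hP
  have hR0deg : R0.degree < (co.d : WithBot ℕ) := by
    refine lt_of_le_of_lt (Polynomial.degree_sum_le _ _) ((Finset.sup_lt_iff
      (WithBot.bot_lt_coe _)).mpr fun j _ => ?_)
    exact lt_of_le_of_lt (Polynomial.degree_C_mul_X_pow_le _ _) (by exact_mod_cast j.2)
  have hPdeg : P.natDegree = co.d := by
    refine Polynomial.natDegree_eq_of_degree_eq_some ?_
    rw [hP, Polynomial.degree_sub_eq_left_of_degree_lt] <;>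
      rw [Polynomial.degree_C_mul_X_pow _ he0]
    exact hR0deg
  have hPlead : P.coeff co.d = e := by
    rw [hP, Polynomial.coeff_sub, Polynomial.coeff_eq_zero_of_degree_lt hR0deg, sub_zero]
    simp
  have hPθ : P.eval₂ co.evalT co.θb = 0 := by
    rw [hP, hR0, Polynomial.eval₂_sub, Polynomial.eval₂_mul, Polynomial.eval₂_C,
      Polynomial.eval₂_X_pow, Polynomial.eval₂_finsetSum, sub_eq_zero, hq]
    exact Finset.sum_congr rfl fun j _ => by simp
  -- no relation of smaller degree
  have hmin : ∀ f : 𝕜[X][X], f ≠ 0 → f.natDegree < co.d → f.eval₂ co.evalT co.θb ≠ 0 := by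
    intro f hf hfd h
    refine hf ?_
    have hs := co.monoSpan_eq_bot_of_sum (q := fun j => f.coeff (j : ℕ)) (by
      rw [Fin.sum_univ_eq_sum_range (fun i => co.evalT (f.coeff i) * co.θb ^ i),
        ← Polynomial.eval₂_eq_sum_range' co.evalT hfd, h])
    ext i : 1
    rcases lt_or_ge i co.d with hi | hi
    · simpa using hs ⟨i, hi⟩
    · rw [Polynomial.coeff_zero, Polynomial.coeff_eq_zero_of_natDegree_lt (by omega)]
  -- over the rational functions
  set L := FractionRing 𝕜[X]
  have hTinj : Function.Injective co.evalT := by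
    rw [injective_iff_map_eq_zero]
    intro p hp
    by_contra hp0
    refine hmin (Polynomial.C p) (by simpa using hp0) (by rw [natDegree_C]; omega) ?_
    rw [Polynomial.eval₂_C, hp]
  let emb : 𝕜[X] →+* LaurentSeries 𝕜 := S.Cbar.val.toRingHom.comp co.evalT
  have hemb : Function.Injective emb := Subtype.val_injective.comp hTinj
  let ψ : L →+* LaurentSeries 𝕜 := IsFractionRing.lift hemb
  have hψ : ∀ p : 𝕜[X], ψ (algebraMap 𝕜[X] L p) = emb p := fun p =>
    IsFractionRing.lift_algebraMap hemb p
  set PL : L[X] := P.map (algebraMap 𝕜[X] L)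
  have hev : ∀ f : 𝕜[X][X], (f.map (algebraMap 𝕜[X] L)).eval₂ ψ (co.θb : LaurentSeries 𝕜) =
      ((f.eval₂ co.evalT co.θb : S.Cbar) : LaurentSeries 𝕜) := by
    intro f
    rw [Polynomial.eval₂_map, show ψ.comp (algebraMap 𝕜[X] L) = emb from RingHom.ext hψ,
      show (co.θb : LaurentSeries 𝕜) = S.Cbar.val.toRingHom co.θb from rfl,
      ← Polynomial.hom_eval₂]
    rfl
  have hminL : ∀ f : L[X], f ≠ 0 → f.eval₂ ψ (co.θb : LaurentSeries 𝕜) = 0 →
      co.d ≤ f.natDegree := by
    intro f hf h
    by_contra hlt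
    push Not at hlt
    obtain ⟨b, hb, hmap⟩ := IsLocalization.integerNormalization_spec
      (nonZeroDivisors 𝕜[X]) f
    set g := IsLocalization.integerNormalization (nonZeroDivisors 𝕜[X]) f
    have hbL : algebraMap 𝕜[X] L b ≠ 0 :=
      (map_ne_zero_iff _ (IsFractionRing.injective _ _)).mpr (nonZeroDivisors.ne_zero hb)
    have hmap' : g.map (algebraMap 𝕜[X] L) = Polynomial.C (algebraMap 𝕜[X] L b) * f := by
      rw [hmap, Algebra.smul_def]
      rfl
    have hg0 : g ≠ 0 := fun h0 => by
      rw [h0, Polynomial.map_zero, eq_comm, mul_eq_zero, Polynomial.C_eq_zero] at hmap'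
      exact hmap'.elim hbL hf
    refine hmin g hg0 ?_ (Subtype.ext ?_)
    · rw [← Polynomial.natDegree_map_eq_of_injective (IsFractionRing.injective 𝕜[X] L) g, hmap',
        Polynomial.natDegree_C_mul hbL]
      exact hlt
    · rw [← hev, hmap', Polynomial.eval₂_mul, h, mul_zero]
      rfl
  have hPL0 : PL ≠ 0 := by
    intro h
    have h1 := congrArg Polynomial.natDegree h
    rw [Polynomial.natDegree_map_eq_of_injective (IsFractionRing.injective 𝕜[X] L), hPdeg,
      natDegree_zero] at h1
    omega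
  have hPLdeg : PL.natDegree = co.d := by
    rw [Polynomial.natDegree_map_eq_of_injective (IsFractionRing.injective 𝕜[X] L), hPdeg]
  have hirr : Irreducible PL := by
    refine ⟨fun h => ?_, fun f g hfg => ?_⟩
    · have := Polynomial.natDegree_eq_zero_of_isUnit h
      omega
    · have hf : f ≠ 0 := fun h => hPL0 (by rw [hfg, h, zero_mul])
      have hg : g ≠ 0 := fun h => hPL0 (by rw [hfg, h, mul_zero])
      have h0 := hev P
      rw [hPθ, ← show PL = P.map (algebraMap 𝕜[X] L) from rfl, hfg, Polynomial.eval₂_mul] at h0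
      have hdeg := congrArg Polynomial.natDegree hfg
      rw [Polynomial.natDegree_mul hf hg, hPLdeg] at hdeg
      rcases mul_eq_zero.mp h0 with h | h
      · have := hminL f hf h
        exact Or.inr (Polynomial.isUnit_iff_degree_eq_zero.mpr (by
          rw [Polynomial.degree_eq_natDegree hg, show g.natDegree = 0 by omega]; rfl))
      · have := hminL g hg h
        exact Or.inl (Polynomial.isUnit_iff_degree_eq_zero.mpr (by
          rw [Polynomial.degree_eq_natDegree hf, show f.natDegree = 0 by omega]; rfl))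
  have hder : PL.derivative ≠ 0 := by
    intro h
    have h1 := congrArg (fun p : L[X] => p.coeff (co.d - 1)) h
    simp only [Polynomial.coeff_derivative, Polynomial.coeff_zero] at h1
    rw [show co.d - 1 + 1 = co.d by omega] at h1
    rcases mul_eq_zero.mp h1 with h2 | h2
    · rw [Polynomial.coeff_map, hPlead] at h2
      exact he0 ((map_eq_zero_iff _ (IsFractionRing.injective _ _)).mp h2)
    · apply co.dk
      have h3 : algebraMap 𝕜[X] L (Polynomial.C ((co.d : ℕ) : 𝕜)) = 0 := by
        rw [Polynomial.C_eq_natCast, map_natCast]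
        rw [← Nat.cast_succ, show (co.d - 1).succ = co.d by omega] at h2
        exact h2
      exact Polynomial.C_eq_zero.mp ((map_eq_zero_iff _ (IsFractionRing.injective _ _)).mp h3)
  have hsep : PL.Separable := (Polynomial.separable_iff_derivative_ne_zero hirr).mpr hder
  obtain ⟨α, β, hαβ⟩ := hsep
  obtain ⟨bα, hbα, hmα⟩ := IsLocalization.integerNormalization_spec
    (nonZeroDivisors 𝕜[X]) α
  obtain ⟨bβ, hbβ, hmβ⟩ := IsLocalization.integerNormalization_spec
    (nonZeroDivisors 𝕜[X]) β
  set a₁ := Polynomial.C bβ * IsLocalization.integerNormalization (nonZeroDivisors 𝕜[X]) α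
  set b₁ := Polynomial.C bα * IsLocalization.integerNormalization (nonZeroDivisors 𝕜[X]) β
  have hbez : a₁ * P + b₁ * P.derivative = Polynomial.C (bα * bβ) := by
    apply Polynomial.map_injective _ (IsFractionRing.injective 𝕜[X] L)
    simp only [a₁, b₁, Polynomial.map_add, Polynomial.map_mul, Polynomial.map_C, hmα, hmβ,
      ← Polynomial.derivative_map, map_mul]
    rw [show bα • α = Polynomial.C (algebraMap 𝕜[X] L bα) * α by rw [Algebra.smul_def]; rfl,
      show bβ • β = Polynomial.C (algebraMap 𝕜[X] L bβ) * β by rw [Algebra.smul_def]; rfl]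
    calc _ = Polynomial.C (algebraMap 𝕜[X] L bα) * Polynomial.C (algebraMap 𝕜[X] L bβ) *
          (α * PL + β * PL.derivative) := by ring
      _ = _ := by rw [hαβ, mul_one]
  have hD0 : bα * bβ ≠ 0 := mul_ne_zero (nonZeroDivisors.ne_zero hbα) (nonZeroDivisors.ne_zero hbβ)
  refine ⟨(e * (bα * bβ)).roots.toFinset, fun a => P.map (Polynomial.evalRingHom a),
    fun a ha => ?_⟩
  have hne : (e * (bα * bβ)).eval a ≠ 0 := fun h => ha (Multiset.mem_toFinset.mpr
    ((Polynomial.mem_roots (mul_ne_zero he0 hD0)).mpr h))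
  rw [Polynomial.eval_mul, mul_ne_zero_iff] at hne
  refine ⟨?_, ?_, ?_, fun f hf hfm => ?_⟩
  · refine le_antisymm (Polynomial.natDegree_map_le.trans hPdeg.le)
      (Polynomial.le_natDegree_of_ne_zero ?_)
    rw [Polynomial.coeff_map, hPlead]
    exact hne.1
  · have h := congrArg (Polynomial.map (Polynomial.evalRingHom a)) hbez
    simp only [Polynomial.map_add, Polynomial.map_mul, ← Polynomial.derivative_map,
      Polynomial.map_C, Polynomial.coe_evalRingHom] at h
    refine ⟨Polynomial.C ((bα * bβ).eval a)⁻¹ * a₁.map (Polynomial.evalRingHom a),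
      Polynomial.C ((bα * bβ).eval a)⁻¹ * b₁.map (Polynomial.evalRingHom a), ?_⟩
    rw [mul_assoc, mul_assoc, ← mul_add, h, ← Polynomial.C_mul, inv_mul_cancel₀ hne.2,
      Polynomial.C_1]
  · exact aeval_map_eval_mem co.tb co.θb a P hPθ
  · obtain ⟨x, hx⟩ := Ideal.mem_span_singleton.mp hfm
    have hfsum : Polynomial.aeval co.θb f =
        ∑ j : Fin co.d, algebraMap 𝕜 S.Cbar (f.coeff j) * co.θb ^ (j : ℕ) := by
      rcases eq_or_ne f 0 with rfl | hf0
      · simp
      rw [Fin.sum_univ_eq_sum_range (fun i => algebraMap 𝕜 S.Cbar (f.coeff i) * co.θb ^ i),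
        Polynomial.aeval_eq_sum_range' ((Polynomial.natDegree_lt_iff_degree_lt hf0).mpr hf)]
      simp [Algebra.smul_def]
    have hxmem : x ∈ co.monoSpan := by
      refine hecancel a x hne.1 ?_
      rw [← hx, hfsum]
      refine Submodule.sum_mem _ fun j _ => ?_
      have := co.evalT_mul_mem (Polynomial.C (f.coeff j)) j
      rwa [evalT, AlgHom.toRingHom_eq_coe, RingHom.coe_coe, Polynomial.aeval_C] at this
    obtain ⟨p, rfl⟩ := co.exists_coeffs_of_mem hxmem
    have hzero := co.monoSpan_eq_bot_of_sum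
      (q := fun j => Polynomial.C (f.coeff j) - (X - Polynomial.C a) * p j) (by
        simp only [map_sub, sub_mul, Finset.sum_sub_distrib]
        rw [sub_eq_zero]
        have hl : ∑ j : Fin co.d, co.evalT (Polynomial.C (f.coeff j)) * co.θb ^ (j : ℕ) =
            Polynomial.aeval co.θb f := by
          rw [hfsum]
          simp [evalT]
        rw [hl, hx, Finset.mul_sum, ← Finset.sum_sub_distrib]
        refine Finset.sum_congr rfl fun j _ => ?_
        simp [evalT]
        ring)
    ext i
    rcases lt_or_ge i co.d with hi | hi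
    · have h := congrArg (Polynomial.eval a) (hzero ⟨i, hi⟩)
      simpa using h
    · rw [Polynomial.coeff_zero]
      exact Polynomial.coeff_eq_zero_of_degree_lt (lt_of_lt_of_le hf (by exact_mod_cast hi))

end Coord

end Fermat.Agent.FlatModel
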