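import Fermat.Agent.FlatModel.Trace

/-!
# A model from an algebra of functions over a valuation ring

Let `A` be a place of `ℚ̄` over `ℓ` and `𝓗` an `A`-algebra of `A`-valued functions on a finite
Galois module, separating, closed under the addition of the group, stable under the stabiliser of
`A` and generated by functions equivariant under an unramified open subgroup. Its equivariant
functions form a flat model.

Main construction: `DescentData.model`.
-/

set_option autoImplicit false

open GaloisRep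

open scoped Pointwise

namespace Fermat.Agent.FlatModel

variable {ℓ : ℕ} [hℓ : Fact ℓ.Prime]

local notation "R" => ratLocalizedAt ℓ

/-- The inclusion of `ℤ_(ℓ)` in a place over `ℓ`. -/
theorem algebraMap_mem_place {A : ValuationSubring Qbar} (hA : A.LiesOverPrime ℓ) (r : R) :
    algebraMap R Qbar r ∈ A := by
  rw [algebraMap_ratLoc_apply]
  have hd := (mem_ratLocalizedAt hℓ.out).mp r.2
  rw [show (algebraMap ℚ Qbar) (r : ℚ) = ((r : ℚ).num : Qbar) * ((r : ℚ).den : Qbar)⁻¹ by
    conv_lhs => rw [← Rat.num_div_den (r : ℚ)]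
    rw [map_div₀, map_intCast, map_natCast, div_eq_mul_inv]]
  exact mul_mem (intCast_mem A _) (Gal.inv_mem_of_mem_of_notMem_nonunits A
    fun h => hd ((Gal.natCast_mem_nonunits_iff A hℓ.out hA _).mp h))

theorem mem_ratLocalizedAt_of_mem_place {A : ValuationSubring Qbar} (hA : A.LiesOverPrime ℓ)
    {q : ℚ} (hq : algebraMap ℚ Qbar q ∈ A) : q ∈ ratLocalizedAt ℓ := by
  rw [mem_ratLocalizedAt hℓ.out]
  intro h
  have hden : ((q.den : ℕ) : Qbar) ∈ A.nonunits :=
    (Gal.natCast_mem_nonunits_iff A hℓ.out hA _).mpr h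
  have hnum : (q.num : Qbar) ∈ A.nonunits := by
    have h1 : algebraMap ℚ Qbar q * (q.den : Qbar) = (q.num : Qbar) := by
      rw [← map_natCast (algebraMap ℚ Qbar), ← map_mul, Rat.mul_den_eq_num, map_intCast]
    rw [← h1]
    exact Gal.mul_mem_nonunits_right A hq hden
  rw [Gal.intCast_mem_nonunits_iff A hℓ.out hA] at hnum
  have h2 : ℓ ∣ Nat.gcd q.num.natAbs q.den := Nat.dvd_gcd (Int.natCast_dvd.mp hnum) h
  rw [q.reduced] at h2
  exact hℓ.out.one_lt.ne' (Nat.dvd_one.mp h2)

/-- A power of `ℓ` clears any denominator at `A`. -/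
theorem exists_pow_mul_mem {A : ValuationSubring Qbar} (hA : A.LiesOverPrime ℓ) {x : Qbar}
    (hx : x ∈ A.nonunits) (z : Qbar) : ∃ n : ℕ, x ^ n * z ∈ A := by
  rcases eq_or_ne z 0 with rfl | hz
  · exact ⟨0, by simp⟩
  obtain ⟨n, hn⟩ := Gal.exists_pow_div_mem_nonunits hℓ.out hA hx (inv_ne_zero hz)
  refine ⟨n, A.nonunits_subset ?_⟩
  rwa [div_inv_eq_mul] at hn

section Conj

variable {G : Type*} [AddCommGroup G] (act : GalQ →* AddMonoid.End G)

/-- Conjugation of functions by a Galois element. -/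
noncomputable def conjFun (σ : GalQ) : (G → Qbar) →+* (G → Qbar) where
  toFun φ x := σ (φ (act σ⁻¹ x))
  map_one' := funext fun _ => map_one σ
  map_mul' _ _ := funext fun _ => map_mul σ _ _
  map_zero' := funext fun _ => map_zero σ
  map_add' _ _ := funext fun _ => map_add σ _ _

theorem conjFun_apply (σ : GalQ) (φ : G → Qbar) (x : G) :
    conjFun act σ φ x = σ (φ (act σ⁻¹ x)) := rfl

theorem conjFun_mul (σ τ : GalQ) (φ : G → Qbar) :
    conjFun act (σ * τ) φ = conjFun act σ (conjFun act τ φ) := by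
  funext x
  simp only [conjFun_apply, mul_inv_rev, map_mul, AlgEquiv.mul_apply, AddMonoid.End.coe_mul,
    Function.comp_apply]

theorem conjFun_smul (σ : GalQ) (c : Qbar) (φ : G → Qbar) :
    conjFun act σ (c • φ) = σ c • conjFun act σ φ := funext fun _ => map_mul σ _ _

theorem equivariant_iff_conjFun (φ : G → Qbar) :
    Equivariant act φ ↔ ∀ σ, conjFun act σ φ = φ := by
  have h1 : ∀ (σ : GalQ) (x : G), act σ (act σ⁻¹ x) = x := fun σ x => by
    show (act σ * act σ⁻¹) x = x
    rw [← map_mul, mul_inv_cancel, map_one]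
    rfl
  constructor
  · intro h σ
    funext x
    rw [conjFun_apply, ← h σ, h1]
  · intro h σ x
    conv_lhs => rw [← h σ, conjFun_apply]
    congr 2
    show (act σ⁻¹ * act σ) x = x
    rw [← map_mul, inv_mul_cancel, map_one]
    rfl

end Conj

/-- The hypotheses on an algebra of functions over a place. -/
structure DescentData {G : Type*} [AddCommGroup G] (act : GalQ →* AddMonoid.End G) (ℓ : ℕ)
    (A : ValuationSubring Qbar) (𝓗 : Subalgebra A (G → Qbar)) (U : Subgroup GalQ) : Prop where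
  liesOver : A.LiesOverPrime ℓ
  values : ∀ φ ∈ 𝓗, ∀ x, φ x ∈ A
  separates : ∀ x y, (∀ φ ∈ 𝓗, φ x = φ y) → x = y
  coadd_mem : ∀ φ ∈ 𝓗, (fun p : G × G => φ (p.1 + p.2)) ∈
    Submodule.span A {F : G × G → Qbar | ∃ a ∈ 𝓗, ∃ b ∈ 𝓗, F = fun p => a p.1 * b p.2}
  stable : ∀ σ : GalQ, σ • A = A → ∀ φ ∈ 𝓗, conjFun act σ φ ∈ 𝓗
  generated : ∃ S : Set (G → Qbar),
    (∀ u ∈ S, ∀ σ ∈ U, conjFun act σ u = u) ∧ Algebra.adjoin A S = 𝓗
  isClosed : IsClosed (U : Set GalQ)
  normal : U.Normal
  finiteIndex : U.FiniteIndex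
  trace : TraceData ℓ U

namespace DescentData

variable {G : Type*} [AddCommGroup G] {act : GalQ →* AddMonoid.End G}
  {A : ValuationSubring Qbar} {𝓗 : Subalgebra A (G → Qbar)} {U : Subgroup GalQ}
  (D : DescentData act ℓ A 𝓗 U)

/-- The equivariant functions of `𝓗`. -/
def subalgebra : Subalgebra R (G → Qbar) where
  carrier := {φ | φ ∈ 𝓗 ∧ Equivariant act φ}
  mul_mem' {a b} ha hb := ⟨mul_mem ha.1 hb.1, fun σ x => by
    simp only [Pi.mul_apply, map_mul, ha.2 σ x, hb.2 σ x]⟩
  one_mem' := ⟨one_mem 𝓗, fun σ _ => (map_one σ).symm⟩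
  add_mem' {a b} ha hb := ⟨add_mem ha.1 hb.1, fun σ x => by
    simp only [Pi.add_apply, map_add, ha.2 σ x, hb.2 σ x]⟩
  zero_mem' := ⟨zero_mem 𝓗, fun σ _ => (map_zero σ).symm⟩
  algebraMap_mem' r := ⟨by
    rw [show algebraMap R (G → Qbar) r =
      algebraMap A (G → Qbar) ⟨_, algebraMap_mem_place D.liesOver r⟩ from rfl]
    exact 𝓗.algebraMap_mem _, fun σ _ => (σ.commutes _).symm⟩

theorem mem_subalgebra {φ : G → Qbar} :
    φ ∈ D.subalgebra ↔ φ ∈ 𝓗 ∧ Equivariant act φ := Iff.rfl

omit [AddCommGroup G] in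
theorem smul_fun_eq (a : A) (φ : G → Qbar) : a • φ = (a : Qbar) • φ := rfl

include D in
/-- A large power of `ℓ` times any integral function is in `𝓗`. -/
theorem exists_pow_mem [Finite G] :
    ∃ N : ℕ, ∀ φ : G → Qbar, (∀ x, φ x ∈ A) → ((ℓ : Qbar) ^ N) • φ ∈ 𝓗 := by
  classical
  cases nonempty_fintype G
  have hd : ∀ x : G, ∃ N : ℕ, ((ℓ : Qbar) ^ N) • (Pi.single x 1 : G → Qbar) ∈ 𝓗 := by
    intro x
    have hy : ∀ y ∈ Finset.univ.erase x, ∃ f ∈ 𝓗, f y = 0 ∧ f x ≠ 0 := by
      intro y hy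
      obtain ⟨φ, hφ, hne⟩ : ∃ φ ∈ 𝓗, φ x ≠ φ y := by
        by_contra h
        push Not at h
        exact (Finset.mem_erase.mp hy).1 (D.separates x y h).symm
      refine ⟨φ - algebraMap A (G → Qbar) ⟨φ y, D.values φ hφ y⟩,
        sub_mem hφ (𝓗.algebraMap_mem _), sub_self _, sub_ne_zero.mpr hne⟩
    choose f hfH hfy hfx using hy
    set F : G → Qbar := ∏ y ∈ (Finset.univ.erase x).attach, f y.1 y.2 with hF
    have hFH : F ∈ 𝓗 := prod_mem fun y _ => hfH y.1 y.2
    have hc : F x ≠ 0 := by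
      rw [hF, Finset.prod_apply]
      exact Finset.prod_ne_zero_iff.mpr fun y _ => hfx y.1 y.2
    obtain ⟨N, hN⟩ := exists_pow_mul_mem D.liesOver (x := (ℓ : Qbar))
      D.liesOver (F x)⁻¹
    refine ⟨N, ?_⟩
    have heq : ((ℓ : Qbar) ^ N) • (Pi.single x 1 : G → Qbar) =
        (⟨_, hN⟩ : A) • F := by
      funext z
      rw [smul_fun_eq]
      rcases eq_or_ne z x with rfl | hz
      · simp [hc]
      · have hFz : F z = 0 := by
          rw [hF, Finset.prod_apply]
          exact Finset.prod_eq_zero (Finset.mem_attach _ ⟨z, Finset.mem_erase.mpr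
            ⟨hz, Finset.mem_univ z⟩⟩) (hfy _ _)
        rw [Pi.smul_apply, Pi.smul_apply, Pi.single_eq_of_ne hz, hFz, smul_zero, smul_zero]
    rw [heq]
    exact 𝓗.smul_mem hFH _
  choose N hN using hd
  refine ⟨Finset.univ.sup N, fun φ hφ => ?_⟩
  have hdec : ((ℓ : Qbar) ^ Finset.univ.sup N) • φ = ∑ x, (⟨φ x * (ℓ : Qbar) ^
      (Finset.univ.sup N - N x), mul_mem (hφ x) (pow_mem (natCast_mem A _) _)⟩ : A) •
      (((ℓ : Qbar) ^ N x) • (Pi.single x 1 : G → Qbar)) := by
    funext z
    simp only [Finset.sum_apply, smul_fun_eq, Pi.smul_apply, smul_eq_mul, Pi.single_apply,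
      mul_ite, mul_one, mul_zero, Finset.sum_ite_eq, Finset.mem_univ, if_true]
    rw [mul_assoc, ← pow_add, Nat.sub_add_cancel (Finset.le_sup (Finset.mem_univ z)), mul_comm]
  rw [hdec]
  exact sum_mem fun x _ => 𝓗.smul_mem (hN x) _

include D in
/-- Functions of `𝓗` equivariant under `U` are combinations of equivariant ones. -/
theorem mem_span_of_fixed [Finite G] {φ : G → Qbar} (hφ : φ ∈ 𝓗)
    (hfix : ∀ σ ∈ U, conjFun act σ φ = φ) :
    φ ∈ Submodule.span A (D.subalgebra : Set (G → Qbar)) := by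
  classical
  have := D.normal
  have := D.finiteIndex
  cases nonempty_fintype G
  let : Fintype (GalQ ⧸ U) := Fintype.ofFinite _
  obtain ⟨N₀, hN₀⟩ := D.exists_pow_mem
  obtain ⟨ι, _, e, f, hint, hffix, hid⟩ := D.trace
  obtain ⟨c, hc, hcA, hcfix, hctau⟩ := exists_separator D.liesOver U D.isClosed
  -- a power of `c` which absorbs the denominators of the conjugates
  have hbd : ∀ (q : GalQ ⧸ U) (y : G), ∃ n : ℕ, q.out c ∈ A.nonunits →
      q.out c ^ n * (((ℓ : Qbar) ^ N₀)⁻¹ * q.out (φ y)) ∈ A := by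
    intro q y
    by_cases h : q.out c ∈ A.nonunits
    · obtain ⟨n, hn⟩ := exists_pow_mul_mem D.liesOver h (((ℓ : Qbar) ^ N₀)⁻¹ * q.out (φ y))
      exact ⟨n, fun _ => hn⟩
    · exact ⟨0, fun h' => absurd h' h⟩
  choose nb hnb using hbd
  set N : ℕ := Finset.univ.sup fun p : (GalQ ⧸ U) × G => nb p.1 p.2
  set ψ : G → Qbar := c ^ N • φ with hψ
  have hψfix : ∀ σ ∈ U, conjFun act σ ψ = ψ := fun σ hσ => by
    rw [hψ, conjFun_smul, map_pow, hcfix σ hσ, hfix σ hσ]
  have hψH : ψ ∈ 𝓗 := by
    rw [hψ, ← smul_fun_eq ⟨c ^ N, pow_mem (hc A D.liesOver) _⟩]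
    exact 𝓗.smul_mem hφ _
  have hall : ∀ q : GalQ ⧸ U, conjFun act q.out ψ ∈ 𝓗 := by
    intro q
    rcases hctau q.out with hn | ⟨d, hd, hdu⟩
    · have heq : conjFun act q.out ψ =
          ((ℓ : Qbar) ^ N₀) • fun x => ((ℓ : Qbar) ^ N₀)⁻¹ * conjFun act q.out ψ x := by
        funext x
        have h0 : (ℓ : Qbar) ^ N₀ ≠ 0 :=
          pow_ne_zero _ (Nat.cast_ne_zero.mpr hℓ.out.ne_zero)
        rw [Pi.smul_apply, smul_eq_mul, ← mul_assoc, mul_inv_cancel₀ h0, one_mul]
      rw [heq]
      refine hN₀ _ fun x => ?_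
      set y := act (q.out)⁻¹ x
      have hle : nb q y ≤ N :=
        Finset.le_sup (f := fun p : (GalQ ⧸ U) × G => nb p.1 p.2) (Finset.mem_univ (q, y))
      rw [conjFun_apply, hψ, Pi.smul_apply, smul_eq_mul, map_mul, map_pow,
        ← Nat.sub_add_cancel hle, pow_add, mul_left_comm, mul_assoc]
      refine mul_mem (pow_mem (A.nonunits_subset hn) _) ?_
      have h := hnb q y hn
      rwa [mul_left_comm] at h ⊢
    · have h := conjFun_mul act d (d⁻¹ * q.out) ψ
      rw [mul_inv_cancel_left, hψfix _ hdu] at h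
      rw [h]
      exact D.stable d hd ψ hψH
  set T : ι → (G → Qbar) := fun i => ∑ q : GalQ ⧸ U, conjFun act q.out (f i • ψ) with hT
  have hinv : ∀ (i : ι) (τ : GalQ),
      conjFun act τ (f i • ψ) = conjFun act (τ : GalQ ⧸ U).out (f i • ψ) := by
    intro i τ
    have hu : (τ : GalQ ⧸ U).out⁻¹ * τ ∈ U := QuotientGroup.eq.mp (τ : GalQ ⧸ U).out_eq
    conv_lhs => rw [← mul_inv_cancel_left (τ : GalQ ⧸ U).out τ, conjFun_mul, conjFun_smul,
      hffix i _ hu, hψfix _ hu]
  have hTmem : ∀ i, T i ∈ D.subalgebra := by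
    intro i
    refine ⟨sum_mem fun q _ => ?_, (equivariant_iff_conjFun act _).mpr fun σ => ?_⟩
    · rw [conjFun_smul, ← smul_fun_eq ⟨q.out (f i), ?_⟩]
      · exact 𝓗.smul_mem (hall q) _
      · have h := (hint i).2 (q.out⁻¹ • A) (Gal.liesOverPrime_smul _ D.liesOver)
        rw [Gal.mem_smul_valuationSubring_iff] at h
        rwa [← AlgEquiv.aut_inv, inv_inv] at h
    · simp only [hT, map_sum]
      refine Fintype.sum_equiv (MulAction.toPerm σ) _ _ fun q => ?_
      rw [← conjFun_mul, hinv]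
      have h : (((σ * q.out : GalQ) : GalQ ⧸ U)).out = (MulAction.toPerm σ q).out := by
        rw [MulAction.toPerm_apply]
        conv_rhs => rw [← q.out_eq]
        rfl
      rw [h]
  have hψeq : ψ = ∑ i, e i • T i := by
    have h1 : ∀ q : GalQ ⧸ U, ∑ i, e i • conjFun act q.out (f i • ψ) =
        (if q.out ∈ U then (1 : Qbar) else 0) • conjFun act q.out ψ := fun q => by
      simp only [conjFun_smul, smul_smul, ← Finset.sum_smul]
      rw [hid]
    simp only [hT, Finset.smul_sum]
    rw [Finset.sum_comm, Finset.sum_congr rfl fun q _ => h1 q,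
      Finset.sum_eq_single ((1 : GalQ) : GalQ ⧸ U)]
    · have h1U : ((1 : GalQ) : GalQ ⧸ U).out ∈ U := by
        have := QuotientGroup.eq.mp ((1 : GalQ) : GalQ ⧸ U).out_eq
        rwa [mul_one, Subgroup.inv_mem_iff] at this
      rw [if_pos h1U, one_smul, hψfix _ h1U]
    · intro q _ hq
      rw [if_neg fun h => hq ?_, zero_smul]
      rw [← q.out_eq]
      exact QuotientGroup.eq.mpr (by rwa [mul_one, Subgroup.inv_mem_iff])
    · exact fun h => absurd (Finset.mem_univ _) h
  have hcinv : c⁻¹ ∈ A := Gal.inv_mem_of_mem_of_notMem_nonunits A hcA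
  have hc0 : c ≠ 0 := fun h => hcA (by rw [h]; exact zero_mem _)
  have hφeq : φ = ∑ i, (⟨(c⁻¹) ^ N * e i, mul_mem (pow_mem hcinv _)
      ((hint i).1 A D.liesOver)⟩ : A) • T i := by
    simp only [smul_fun_eq, mul_smul]
    rw [← Finset.smul_sum, ← hψeq, hψ, smul_smul, ← mul_pow, inv_mul_cancel₀ hc0, one_pow,
      one_smul]
  rw [hφeq]
  exact sum_mem fun i _ => Submodule.smul_mem _ _ (Submodule.subset_span (hTmem i))

include D in
theorem span_subalgebra [Finite G] {φ : G → Qbar} (hφ : φ ∈ 𝓗) :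
    φ ∈ Submodule.span A (D.subalgebra : Set (G → Qbar)) := by
  obtain ⟨S, hS, hgen⟩ := D.generated
  rw [← hgen] at hφ
  induction hφ using Algebra.adjoin_induction with
  | mem u hu => exact D.mem_span_of_fixed (hgen ▸ Algebra.subset_adjoin hu) (hS u hu)
  | algebraMap a =>
    rw [Algebra.algebraMap_eq_smul_one]
    exact Submodule.smul_mem _ _ (Submodule.subset_span (one_mem D.subalgebra))
  | add a b _ _ ha hb => exact add_mem ha hb
  | mul a b ha' hb' ha hb =>
    clear ha' hb'
    induction ha, hb using Submodule.span_induction₂ with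
    | mem_mem f g hf hg => exact Submodule.subset_span (mul_mem hf hg)
    | zero_left g _ => simp
    | zero_right f _ => simp
    | add_left f g h _ _ _ h₁ h₂ => rw [add_mul]; exact add_mem h₁ h₂
    | add_right f g h _ _ _ h₁ h₂ => rw [mul_add]; exact add_mem h₁ h₂
    | smul_left c f g _ _ h => rw [smul_mul_assoc]; exact Submodule.smul_mem _ c h
    | smul_right c f g _ _ h => rw [mul_smul_comm]; exact Submodule.smul_mem _ c h

include D in
theorem subalgebra_separates [Finite G] (x y : G) (h : ∀ φ ∈ D.subalgebra, φ x = φ y) :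
    x = y := by
  refine D.separates x y fun φ hφ => ?_
  have hs := D.span_subalgebra hφ
  clear hφ
  induction hs using Submodule.span_induction with
  | mem g hg => exact h g hg
  | zero => rfl
  | add a b _ _ ha hb => simp only [Pi.add_apply, ha, hb]
  | smul c a _ ha => simp only [Pi.smul_apply, ha]

include D in
/-- The equivariant functions of `𝓗` form a finite module. -/
theorem finite_subalgebra [Finite G] : Module.Finite R D.subalgebra := by
  classical
  cases nonempty_fintype G
  have hspan := span_eq_top_of_separates ℓ D.subalgebra D.subalgebra_separates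
  obtain ⟨B, hBsub, hBspan, hBli⟩ := exists_linearIndependent Qbar
    (D.subalgebra : Set (G → Qbar))
  have : Finite B := hBli.finite
  let := Fintype.ofFinite B
  let bs : Module.Basis B Qbar (G → Qbar) :=
    Module.Basis.mk hBli (by
      show ⊤ ≤ Submodule.span Qbar (Set.range ((↑) : B → (G → Qbar)))
      rw [Subtype.range_coe, hBspan, hspan])
  have hbs : ∀ i, bs i = (i : G → Qbar) := fun i => Module.Basis.mk_apply _ _ i
  -- coordinates have bounded denominators
  have hL : ∀ (i : B) (x : G), ∃ N : ℕ, (ℓ : Qbar) ^ N * bs.repr (Pi.single x 1) i ∈ A :=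
    fun i x => exists_pow_mul_mem D.liesOver D.liesOver _
  choose nn hnn using hL
  set N : ℕ := Finset.univ.sup fun p : B × G => nn p.1 p.2
  have hcoord : ∀ φ ∈ D.subalgebra, ∀ i, (ℓ : Qbar) ^ N * bs.repr φ i ∈ A := by
    intro φ hφ i
    have hdec : φ = ∑ x, φ x • (Pi.single x (1 : Qbar) : G → Qbar) := by
      funext z
      simp [Finset.sum_apply, Pi.single_apply]
    rw [hdec, map_sum, Finsupp.finsetSum_apply, Finset.mul_sum]
    refine sum_mem fun x _ => ?_
    have hle : nn i x ≤ N :=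
      Finset.le_sup (f := fun p : B × G => nn p.1 p.2) (Finset.mem_univ (i, x))
    rw [map_smul, Finsupp.smul_apply, smul_eq_mul, ← Nat.sub_add_cancel hle, pow_add,
      mul_left_comm, mul_assoc ((ℓ : Qbar) ^ (N - nn i x))]
    exact mul_mem (D.values φ (D.mem_subalgebra.mp hφ).1 x)
      (mul_mem (pow_mem (natCast_mem A _) _) (hnn i x))
  have hrat : ∀ φ : D.subalgebra, ∀ i, ∃ r : R,
      algebraMap R Qbar r = (ℓ : Qbar) ^ N * bs.repr (φ : G → Qbar) i := by
    intro φ i
    have hφ := (equivariant_iff_conjFun act _).mp (D.mem_subalgebra.mp φ.2).2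
    have hfix : ∀ (σ : GalQ) (j : B), σ (bs.repr (φ : G → Qbar) j) = bs.repr (φ : G → Qbar) j := by
      intro σ j
      have h1 : ∑ j, σ (bs.repr (φ : G → Qbar) j) • bs j = (φ : G → Qbar) := by
        conv_rhs => rw [← hφ σ, ← bs.sum_repr (φ : G → Qbar), map_sum]
        refine Finset.sum_congr rfl fun j _ => ?_
        rw [conjFun_smul, hbs,
          (equivariant_iff_conjFun act _).mp (D.mem_subalgebra.mp (hBsub j.2)).2 σ]
      have h2 := bs.repr_sum_self fun j => σ (bs.repr (φ : G → Qbar) j)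
      rw [h1] at h2
      exact (congrFun h2 j).symm
    obtain ⟨q, hq⟩ := (InfiniteGalois.mem_range_algebraMap_iff_fixed
      ((ℓ : Qbar) ^ N * bs.repr (φ : G → Qbar) i)).mpr fun σ => by
        rw [map_mul, map_pow, map_natCast, hfix σ i]
    have hmem : q ∈ ratLocalizedAt ℓ :=
      mem_ratLocalizedAt_of_mem_place D.liesOver (hq ▸ hcoord _ φ.2 i)
    exact ⟨⟨q, hmem⟩, hq⟩
  choose r hr using hrat
  let L : D.subalgebra →ₗ[R] (B → R) :=
    { toFun := fun φ i => r φ i
      map_add' := fun a b => funext fun i => algebraMap_ratLoc_injective ℓ (by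
        simp only [Pi.add_apply, map_add, hr, AddMemClass.coe_add, Finsupp.add_apply, mul_add])
      map_smul' := fun s a => funext fun i => algebraMap_ratLoc_injective ℓ (by
        simp only [RingHom.id_apply, Pi.smul_apply, smul_eq_mul, map_mul, hr, SetLike.val_smul]
        rw [← algebraMap_smul Qbar s ((a : G → Qbar)), map_smul, Finsupp.smul_apply, smul_eq_mul]
        ring) }
  refine Module.Finite.of_injective L fun a b hab => Subtype.ext (bs.repr.injective ?_)
  ext i
  have h1 : algebraMap R Qbar (r a i) = algebraMap R Qbar (r b i) :=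
    congrArg _ (congrFun hab i)
  rw [hr, hr] at h1
  exact mul_left_cancel₀ (pow_ne_zero N (Nat.cast_ne_zero.mpr hℓ.out.ne_zero)) h1

include D in
theorem add_mem_subalgebra [Finite G] {φ : G → Qbar} (hφ : φ ∈ D.subalgebra) :
    (fun p : G × G => φ (p.1 + p.2)) ∈ Submodule.span R
      {F : G × G → Qbar | ∃ a ∈ D.subalgebra, ∃ b ∈ D.subalgebra, F = fun p => a p.1 * b p.2} := by
  classical
  have := D.finite_subalgebra
  have := isTorsionFree_functions ℓ G
  have : Module.IsTorsionFree R D.subalgebra :=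
    Function.Injective.moduleIsTorsionFree _ Subtype.val_injective fun _ _ => rfl
  have : Module.Free R D.subalgebra := Module.free_of_finite_type_torsion_free'
  let b := Module.Free.chooseBasis R D.subalgebra
  set v := fun i => ((b i : D.subalgebra) : G → Qbar) with hv
  have hveq : ∀ i, Equivariant act (v i) := fun i => (D.mem_subalgebra.mp (b i).2).2
  have hli : LinearIndependent Qbar v :=
    linearIndependent_qbar ℓ (fun σ x => act σ x) (act_surjective act) hveq
      (b.linearIndependent.map' D.subalgebra.val.toLinearMap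
        (LinearMap.ker_eq_bot.mpr Subtype.val_injective))
  set w := fun q : _ × _ => fun p : G × G => v q.1 p.1 * v q.2 p.2 with hw
  have hwli : LinearIndependent Qbar w := linearIndependent_mul hli hli
  have hexp : ∀ a ∈ 𝓗, a ∈ Submodule.span A (Set.range v) := by
    intro a ha
    refine Submodule.span_le.mpr (fun h hh => ?_) (D.span_subalgebra ha)
    have h1 := congrArg D.subalgebra.val.toLinearMap (b.linearCombination_repr ⟨h, hh⟩)
    rw [Finsupp.apply_linearCombination, Finsupp.linearCombination_apply] at h1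
    rw [SetLike.mem_coe, ← show _ = h from h1]
    refine sum_mem fun i _ => ?_
    show b.repr _ i • v i ∈ _
    rw [show b.repr ⟨h, hh⟩ i • v i =
      (⟨_, algebraMap_mem_place D.liesOver (b.repr ⟨h, hh⟩ i)⟩ : A) • v i from
        funext fun x => by simp [Algebra.smul_def]]
    exact Submodule.smul_mem _ _ (Submodule.subset_span ⟨i, rfl⟩)
  have hF : (fun p : G × G => φ (p.1 + p.2)) ∈ Submodule.span A (Set.range w) := by
    refine Submodule.span_le.mpr ?_ (D.coadd_mem φ (D.mem_subalgebra.mp hφ).1)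
    rintro _ ⟨a, ha, c, hc, rfl⟩
    obtain ⟨ca, rfl⟩ := (Submodule.mem_span_range_iff_exists_fun A).mp (hexp a ha)
    obtain ⟨cc, rfl⟩ := (Submodule.mem_span_range_iff_exists_fun A).mp (hexp c hc)
    rw [SetLike.mem_coe]
    rw [show (fun p : G × G => (∑ i, ca i • v i) p.1 * (∑ j, cc j • v j) p.2) =
        ∑ i, ∑ j, (ca i * cc j) • w (i, j) from funext fun p => by
      simp only [Finset.sum_apply, Finset.sum_mul_sum, Pi.smul_apply, hw]
      refine Finset.sum_congr rfl fun i _ => Finset.sum_congr rfl fun j _ => ?_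
      show (ca i : Qbar) * _ * ((cc j : Qbar) * _) = (ca i * cc j : Qbar) * _
      ring]
    exact sum_mem fun i _ => sum_mem fun j _ =>
      Submodule.smul_mem _ _ (Submodule.subset_span ⟨(i, j), rfl⟩)
  obtain ⟨cf, hcf⟩ := (Submodule.mem_span_range_iff_exists_fun A).mp hF
  have hφe := (D.mem_subalgebra.mp hφ).2
  have hfix : ∀ (σ : GalQ) q, σ (cf q : Qbar) = cf q := by
    intro σ q
    have h0 : ∑ q, (σ (cf q : Qbar) - cf q) • w q = 0 := by
      funext p
      obtain ⟨x, hx⟩ := act_surjective act σ p.1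
      obtain ⟨y, hy⟩ := act_surjective act σ p.2
      have hpt : ∀ z : G × G, ∑ q, (cf q : Qbar) * w q z = φ (z.1 + z.2) := fun z => by
        simpa [Finset.sum_apply, smul_fun_eq] using congrFun hcf z
      simp only [Finset.sum_apply, Pi.smul_apply, smul_eq_mul, sub_mul, Finset.sum_sub_distrib,
        Pi.zero_apply]
      rw [hpt, sub_eq_zero, ← hx, ← hy, ← map_add, hφe σ, ← hpt (x, y), map_sum]
      refine Finset.sum_congr rfl fun r _ => ?_
      rw [map_mul, hw, map_mul, ← hveq _ σ, ← hveq _ σ]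
      simp only
      rw [hx, hy]
    exact sub_eq_zero.mp (Fintype.linearIndependent_iff.mp hwli _ h0 q)
  rw [← hcf]
  refine sum_mem fun q _ => ?_
  obtain ⟨c, hc⟩ := (InfiniteGalois.mem_range_algebraMap_iff_fixed (cf q : Qbar)).mpr
    fun σ => hfix σ q
  have hmem := mem_ratLocalizedAt_of_mem_place D.liesOver (hc ▸ (cf q).2)
  rw [show cf q • w q = (⟨c, hmem⟩ : R) • w q from funext fun p => by
    rw [Pi.smul_apply, Pi.smul_apply, smul_ratLoc_apply, hc]; rfl]
  exact Submodule.smul_mem _ _ (Submodule.subset_span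
    ⟨v q.1, (b q.1).2, v q.2, (b q.2).2, rfl⟩)

/-- **Descent**: the equivariant functions of `𝓗` form a flat model. -/
noncomputable def model [Finite G] : Model ℓ act where
  H := D.subalgebra
  finite := D.finite_subalgebra
  equivariant _ hφ := (D.mem_subalgebra.mp hφ).2
  separates := D.subalgebra_separates
  add_mem _ hφ := D.add_mem_subalgebra hφ

end DescentData

end Fermat.Agent.FlatModel
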