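import Fermat.Agent.FlatModel.Galois

/-!
# Linear equivalence and rigid classes

A class of degree `g` is rigid if the reduced space of sections of any representative
`n·pt - E` is at most one dimensional; then it contains exactly one effective divisor.

Main results: `Rigid.unique` and `exists_conductor_point` (adding a general point lowers the
dimension of the reduced sections).
-/

set_option autoImplicit false

noncomputable section

open AlgebraicCurve HahnSeries ModularCurve

open scoped Pointwise

namespace Fermat.Agent.Reduction.CurveRed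

variable {K k : Type*} [Field K] [Field k] {A : ValuationSubring K} {π : A →+* k}
variable {S : CurveRed A π} {n₀ : ℕ}

/-- A shortcut for a slow instance search in this file. -/
local instance rigidAlgebraF : Algebra K S.F := inferInstance

variable (S) in
/-- Linear equivalence. -/
def LinEq (D D' : Divisor K S.F) : Prop := D - D' ∈ Divisor.principal (K := K) (F := S.F)

namespace LinEq

variable {D D' D'' E E' : Divisor K S.F}

theorem refl (D : Divisor K S.F) : S.LinEq D D := by rw [LinEq, sub_self]; exact zero_mem _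

theorem of_eq (h : D = D') : S.LinEq D D' := h ▸ refl D

theorem symm (h : S.LinEq D D') : S.LinEq D' D := by
  rw [LinEq, ← neg_sub]
  exact neg_mem h

theorem trans (h : S.LinEq D D') (h' : S.LinEq D' D'') : S.LinEq D D'' := by
  rw [LinEq, ← sub_add_sub_cancel D D' D'']
  exact add_mem h h'

theorem add (h : S.LinEq D D') (h' : S.LinEq E E') : S.LinEq (D + E) (D' + E') := by
  rw [LinEq, add_sub_add_comm]
  exact add_mem h h'

theorem neg (h : S.LinEq D D') : S.LinEq (-D) (-D') := by
  rw [LinEq, neg_sub_neg]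
  exact h.symm

theorem sub (h : S.LinEq D D') (h' : S.LinEq E E') : S.LinEq (D - E) (D' - E') := by
  simpa [sub_eq_add_neg] using h.add h'.neg

theorem degree_eq (h : S.LinEq D D') : Divisor.degree D = Divisor.degree D' := by
  obtain ⟨f, hf, hv⟩ := h
  obtain ⟨E, hE, hE0⟩ := S.exists_div hf
  have : D - D' = E := Finsupp.ext fun v => by rw [hv v, hE v]
  have h' := congrArg Divisor.degree this
  rw [map_sub, hE0] at h'
  omega

theorem exists_fun (h : S.LinEq D D') : ∃ f : S.F, f ≠ 0 ∧ ∀ v, v.ord f = D v - D' v := by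
  obtain ⟨f, hf, hv⟩ := h
  exact ⟨f, hf, fun v => by rw [← hv v, Finsupp.sub_apply]⟩

theorem finrank_jPart (hgap : S.GapBound n₀) (hE : S.IsEff E) (hE' : S.IsEff E') {n n' : ℤ}
    (h : S.LinEq (S.atPt n - E) (S.atPt n' - E')) :
    Module.finrank k (S.jPart E n) = Module.finrank k (S.jPart E' n') := by
  obtain ⟨f, hf, hv⟩ := h.exists_fun
  exact finrank_jPart_congr hgap hE hE' hf hv

end LinEq

/-- Every divisor is equivalent to `n·pt - E` with `E` effective. -/
theorem exists_rep (D : Divisor K S.F) :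
    ∃ (E : Divisor K S.F) (n : ℤ), S.IsEff E ∧ S.LinEq (S.atPt n - E) D := by
  obtain ⟨b, P, Q, M, hb, hP, -, hD, hdiv⟩ := exists_eff_equiv (S := S) (-D)
  refine ⟨P, M, hP, ?_⟩
  refine ⟨b⁻¹, inv_ne_zero hb, fun v => ?_⟩
  have h := congrArg (fun E : Divisor K S.F => E v) hD
  simp only [Finsupp.neg_apply, Finsupp.sub_apply] at h
  rw [Finsupp.sub_apply, Finsupp.sub_apply, v.ord_inv, hdiv v]
  omega

/-- A divisor of degree at least `g` is equivalent to an effective one. -/
theorem exists_isEff_linEq {D : Divisor K S.F} (hD : (S.g : ℤ) ≤ Divisor.degree D) :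
    ∃ E, S.IsEff E ∧ S.LinEq E D := by
  have := S.finiteDimensional_space D
  have h := S.finrank_space_ge D
  obtain ⟨y, hy, hy0⟩ := Submodule.exists_mem_ne_zero_of_ne_bot (p := S.space D) fun hbot => by
    rw [hbot, finrank_bot] at h
    omega
  obtain ⟨u, rfl, hu⟩ := S.exists_of_mem_space hy
  have hu0 : u ≠ 0 := fun h0 => hy0 (by rw [h0]; rfl)
  obtain ⟨Eu, hEu, -⟩ := S.exists_div hu0
  refine ⟨Eu + D, fun v => ?_, u, hu0, fun v => by rw [add_sub_cancel_right, hEu v]⟩
  have := (hu v).resolve_left hu0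
  rw [Finsupp.add_apply, hEu v]
  omega

variable (S) in
/-- A rigid class. -/
def Rigid (D : Divisor K S.F) : Prop :=
  ∀ (E : Divisor K S.F) (n : ℤ), S.IsEff E → S.LinEq (S.atPt n - E) D →
    Module.finrank k (S.jPart E n) ≤ 1

theorem rigid_of_rep (hgap : S.GapBound n₀) {D E : Divisor K S.F} {n : ℤ} (hE : S.IsEff E)
    (h : S.LinEq (S.atPt n - E) D) (h1 : Module.finrank k (S.jPart E n) ≤ 1) : S.Rigid D :=
  fun _ _ hE' h' => (LinEq.finrank_jPart hgap hE' hE (h'.trans h.symm)).trans_le h1

theorem Rigid.congr {D D' : Divisor K S.F} (h : S.Rigid D) (he : S.LinEq D D') : S.Rigid D' :=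
  fun E n hE h' => h E n hE (h'.trans he.symm)

/-- A rigid class has at most one effective divisor. -/
theorem Rigid.unique {D E E' : Divisor K S.F} (h : S.Rigid D) (hgap : S.GapBound n₀)
    (hE : S.IsEff E) (hE' : S.IsEff E') (he : S.LinEq E D) (he' : S.LinEq E' D) : E = E' := by
  obtain ⟨F, n, hF, hFD⟩ := exists_rep (S := S) D
  obtain ⟨u, hu, huv⟩ := (he.trans hFD.symm).exists_fun
  obtain ⟨u', hu', hu'v⟩ := (he'.trans hFD.symm).exists_fun
  have hmem : (u : LaurentSeries K) ∈ S.space (S.atPt n - F) := S.coe_mem_space.mpr fun v => by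
    right
    rw [huv v, Finsupp.sub_apply]
    have := hE v
    omega
  have hmem' : (u' : LaurentSeries K) ∈ S.space (S.atPt n - F) := S.coe_mem_space.mpr fun v => by
    right
    rw [hu'v v, Finsupp.sub_apply]
    have := hE' v
    omega
  have := S.finiteDimensional_space (S.atPt n - F)
  have := finite_jPart hgap hF n
  have hdim : Module.finrank K (S.space (S.atPt n - F)) ≤ 1 := by
    rw [← finrank_redSub S.surj _ (S.normalizable_space (hF.offNonpos n))]
    exact (Submodule.finrank_mono (red_le_jPart hgap hF n)).trans (h F n hF hFD)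
  obtain ⟨w, hw⟩ := finrank_le_one_iff.mp hdim
  obtain ⟨a, ha⟩ := hw ⟨_, hmem⟩
  obtain ⟨b, hb⟩ := hw ⟨_, hmem'⟩
  have hus : (u : LaurentSeries K) ≠ 0 := fun h0 => hu (Subtype.ext h0)
  have ha0 : a ≠ 0 := by
    rintro rfl
    rw [zero_smul] at ha
    exact hus (congrArg Subtype.val ha).symm
  have heq : (u' : LaurentSeries K) = ((algebraMap K S.F (b / a) * u : S.F) : LaurentSeries K) := by
    have h1 := congrArg Subtype.val ha
    have h2 := congrArg Subtype.val hb
    rw [SetLike.val_smul] at h1 h2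
    rw [← h2, MulMemClass.coe_mul, ← h1, smul_eq_algebraMap_mul, smul_eq_algebraMap_mul,
      show ((algebraMap K S.F (b / a) : S.F) : LaurentSeries K) =
        algebraMap K (LaurentSeries K) (b / a) from rfl, ← mul_assoc, ← map_mul,
      div_mul_cancel₀ _ ha0]
  have hb0 : b / a ≠ 0 := by
    intro h0
    refine hu' (Subtype.ext ?_)
    rw [heq, h0, map_zero, zero_mul]
  ext v
  have h1 := huv v
  have h2 := hu'v v
  rw [Subtype.ext heq, v.ord_mul ((map_ne_zero _).mpr hb0) hu, FF.ord_algebraMap, zero_add, h1]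
    at h2
  omega

/-- A divisor killing one reduced section lowers the dimension, outside finitely many residues. -/
theorem exists_conductor_point (hgap : S.GapBound n₀) (E : Divisor K S.F) (hE : S.IsEff E)
    (n : ℤ) (hpos : 0 < Module.finrank k (S.jPart E n)) (x : S.Cbar) :
    ∃ bad : Finset k, ∀ (v : Place K S.F) (a : k), a ∉ bad → S.loss (Finsupp.single v 1) = 0 →
      S.colen (Finsupp.single v 1) = 1 →
      x - algebraMap k S.Cbar a ∈ S.effIdeal' (Finsupp.single v 1) →
      Module.finrank k (S.jPart (E + Finsupp.single v 1) n) <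
        Module.finrank k (S.jPart E n) := by
  classical
  have := finite_jPart hgap hE n
  obtain ⟨u, hu, hu0⟩ := Submodule.exists_mem_ne_zero_of_ne_bot (p := S.jPart E n) fun h => by
    rw [h, finrank_bot] at hpos
    exact lt_irrefl _ hpos
  obtain ⟨R, M, h, t, hR, hh, ht, hht, -, hdiv⟩ := exists_cofactor hE
  obtain ⟨r, hr, hr0⟩ := Submodule.exists_mem_ne_zero_of_ne_bot (hgap.effIdeal'_ne_bot hR)
  have hspan := effIdeal_eq_span (hE.add hR) hh hdiv ht hht
  obtain ⟨w, hw⟩ := Submodule.mem_span_singleton.mp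
    (hspan ▸ effIdeal_mul_mem hgap hE hR hu.2 hr :
      u * (r : LaurentSeries k) ∈ Submodule.span S.Cbar {t})
  have hw0 : w ≠ 0 := by
    rintro rfl
    rw [zero_smul, eq_comm, mul_eq_zero] at hw
    exact hw.elim hu0 fun h0 => hr0 (Subtype.ext h0)
  have := hgap.finite_quotient (a := Ideal.span {w}) (by simpa using hw0)
  set mp := minpoly k (Ideal.Quotient.mk (Ideal.span {w}) x) with hmp
  have hmp0 : mp ≠ 0 := minpoly.ne_zero (IsIntegral.of_finite k _)
  refine ⟨mp.roots.toFinset, fun v a ha hl hc hxv => ?_⟩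
  have he := CurveRed.isEff_single (S := S) v zero_le_one
  have hsub : S.jPart (E + Finsupp.single v 1) n ≤ S.jPart E n := by
    intro y hy
    refine ⟨?_, ?_⟩
    · have h1 := hy.1
      rwa [loss_add hgap hE he, hl, add_zero] at h1
    · have h1 : y ∈ S.effIdeal (E + Finsupp.single v 1) := hy.2
      obtain ⟨m, z, hz, hzy⟩ := mem_effIdeal.mp h1
      refine ⟨m, z, S.space_mono (fun w => ?_) hz, hzy⟩
      simp only [Finsupp.sub_apply, Finsupp.add_apply]
      have := he w
      omega
  refine Submodule.finrank_lt_finrank_of_lt (lt_of_le_of_ne hsub fun heq => ?_)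
  have hu' : u ∈ S.effIdeal (E + Finsupp.single v 1) := (heq.symm ▸ hu).2
  -- the witness lies in the ideal of `v`
  have hwv : w ∈ S.effIdeal' (Finsupp.single v 1) := by
    have h1 : u * (r : LaurentSeries k) ∈ S.effIdeal (E + Finsupp.single v 1 + R) :=
      effIdeal_mul_mem hgap (hE.add he) hR hu' hr
    rw [show E + Finsupp.single v 1 + R = Finsupp.single v 1 + (E + R) by abel,
      hgap.effIdeal_add he (hE.add hR), hspan, ← hw, Submodule.mem_mul_span_singleton] at h1
    obtain ⟨z, hz, hzt⟩ := h1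
    rw [mem_effIdeal']
    rw [Algebra.smul_def] at hzt
    exact (mul_right_cancel₀ ht hzt : z = (w : LaurentSeries k)) ▸ hz
  apply ha
  rw [Multiset.mem_toFinset, Polynomial.mem_roots hmp0,
    Polynomial.IsRoot.def]
  by_contra hne
  have htop : S.effIdeal' (Finsupp.single v 1) = ⊤ := by
    rw [Ideal.eq_top_iff_one]
    have h2 : Polynomial.aeval x mp ∈ Ideal.span {w} := by
      rw [← Ideal.Quotient.eq_zero_iff_mem, ← Ideal.Quotient.mkₐ_eq_mk k,
        ← Polynomial.aeval_algHom_apply, Ideal.Quotient.mkₐ_eq_mk, hmp]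
      exact minpoly.aeval k _
    have h3 : Polynomial.aeval x mp - algebraMap k S.Cbar (mp.eval a) ∈
        S.effIdeal' (Finsupp.single v 1) := by
      obtain ⟨q, hq⟩ := Polynomial.X_sub_C_dvd_sub_C_eval (a := a) (p := mp)
      have h4 := congrArg (Polynomial.aeval x) hq
      simp only [map_sub, map_mul, Polynomial.aeval_C, Polynomial.aeval_X] at h4
      rw [h4]
      exact Ideal.mul_mem_right _ _ hxv
    have h5 : algebraMap k S.Cbar (mp.eval a) ∈ S.effIdeal' (Finsupp.single v 1) := by
      have h6 := Ideal.sub_mem _ ((Ideal.span_singleton_le_iff_mem _).mpr hwv h2) h3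
      rwa [sub_sub_cancel] at h6
    have h7 := Ideal.mul_mem_left _ (algebraMap k S.Cbar (mp.eval a)⁻¹) h5
    rwa [← map_mul, inv_mul_cancel₀ hne, map_one] at h7
  rw [colen, htop] at hc
  simp [Module.finrank_zero_of_subsingleton] at hc

end Fermat.Agent.Reduction.CurveRed

namespace Fermat.Agent.FlatModel.GalAct

open Fermat.Agent.Reduction

variable {A : ValuationSubring Qbar} {S : CurveRed A (IsLocalRing.residue A)} (Γ : GalAct S)

theorem sm_add (σ : GalQ) (D D' : Divisor Qbar S.F) :
    Γ.sm σ (D + D') = Γ.sm σ D + Γ.sm σ D' := smul_add _ _ _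

theorem sm_sub (σ : GalQ) (D D' : Divisor Qbar S.F) :
    Γ.sm σ (D - D') = Γ.sm σ D - Γ.sm σ D' := smul_sub _ _ _

theorem degree_sm (σ : GalQ) (D : Divisor Qbar S.F) :
    Divisor.degree (Γ.sm σ D) = Divisor.degree D := SemilinearAut.degree_smul _ _

theorem linEq_sm (σ : GalQ) {D D' : Divisor Qbar S.F} (h : S.LinEq D D') :
    S.LinEq (Γ.sm σ D) (Γ.sm σ D') := by
  rw [CurveRed.LinEq, ← sm_sub]
  exact SemilinearAut.smul_mem_principal _ h

end Fermat.Agent.FlatModel.GalAct
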