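import Fermat.Agent.FlatModel.Trace

/-!
# Roots of unity of order prime to `ℓ`

They stay distinct modulo `ℓ`, give trace data, and lift any residues at a place over `ℓ`
(`TraceData.muSet`, `exists_root_lift`).
-/

set_option autoImplicit false

noncomputable section

open IsLocalRing

open scoped Pointwise

namespace Fermat.Agent.FlatModel

variable {ℓ : ℕ} [Fact ℓ.Prime]

/-- The roots of `X ^ N - 1`. -/
def muSet (N : ℕ) : Finset Qbar := (Polynomial.nthRoots N (1 : Qbar)).toFinset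

theorem mem_muSet {N : ℕ} (hN : 0 < N) {x : Qbar} : x ∈ muSet N ↔ x ^ N = 1 := by
  rw [muSet, Multiset.mem_toFinset, Polynomial.mem_nthRoots hN]

theorem apply_mem_muSet {N : ℕ} (hN : 0 < N) (σ : GalQ) {x : Qbar} (hx : x ∈ muSet N) :
    σ x ∈ muSet N := by
  rw [mem_muSet hN] at hx ⊢
  rw [← map_pow, hx, map_one]

theorem isIntegral_of_pow_eq_one {N : ℕ} (hN : 0 < N) {x : Qbar} (hx : x ^ N = 1) :
    IsIntegral ℤ x :=
  IsIntegral.of_pow hN (hx ▸ isIntegral_one)

/-- Such roots are separated at every place over `ℓ`. -/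
theorem root_sub_notMem_nonunits {A : ValuationSubring Qbar} (hA : A.LiesOverPrime ℓ) {N : ℕ}
    (hN : ¬ ℓ ∣ N) {r r' : Qbar} (hr : r ^ N = 1) (hr' : r' ^ N = 1) (hne : r ≠ r') :
    r - r' ∉ A.nonunits := by
  intro h
  have hN0 : 0 < N := Nat.pos_of_ne_zero fun h0 => hN (h0 ▸ dvd_zero ℓ)
  have hr'0 : r' ≠ 0 := by
    rintro rfl
    rw [zero_pow hN0.ne'] at hr'
    exact zero_ne_one hr'
  set x : Qbar := r / r' with hx
  have hxN : x ^ N = 1 := by rw [hx, div_pow, hr, hr', div_one]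
  have hx1 : x ≠ 1 := fun h1 => hne ((div_eq_one_iff_eq hr'0).mp h1)
  have hinv : r'⁻¹ ∈ A := Gal.mem_of_isIntegral A (isIntegral_of_pow_eq_one hN0 (by
    rw [inv_pow, hr', inv_one]))
  have hxA : x ∈ A := Gal.mem_of_isIntegral A (isIntegral_of_pow_eq_one hN0 hxN)
  have hres : residue A ⟨x, hxA⟩ = residue A 1 := by
    rw [Gal.residue_eq_residue_iff]
    show x - 1 ∈ A.nonunits
    rw [hx, div_sub_one hr'0, div_eq_mul_inv, mul_comm]
    exact Gal.mul_mem_nonunits_right A hinv h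
  have hsum : (∑ i ∈ Finset.range N, (⟨x, hxA⟩ : A) ^ i) = 0 := by
    refine Subtype.ext ?_
    rw [AddSubmonoidClass.coe_finsetSum]
    simp only [SubmonoidClass.coe_pow, ZeroMemClass.coe_zero]
    rw [geom_sum_eq hx1, hxN, sub_self, zero_div]
  have h2 := congrArg (residue A) hsum
  rw [map_sum, map_zero] at h2
  simp only [map_pow, hres, map_one, one_pow, Finset.sum_const, Finset.card_range,
    nsmul_eq_mul, mul_one] at h2
  have := Gal.charP_residueField A Fact.out hA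
  exact hN ((CharP.cast_eq_zero_iff (ResidueField A) ℓ N).mp h2)

omit [Fact ℓ.Prime] in
theorem intAt_muSet {N : ℕ} (hN : 0 < N) {x : Qbar} (hx : x ∈ muSet N) : IntAt ℓ x :=
  fun A _ => Gal.mem_of_isIntegral A (isIntegral_of_pow_eq_one hN ((mem_muSet hN).mp hx))

/-- Adjoining the roots. -/
theorem TraceData.muSet {U : Subgroup GalQ} (hU : TraceData ℓ U) {N : ℕ} (hN : ¬ ℓ ∣ N) :
    TraceData ℓ (U ⊓ fixer (FlatModel.muSet N : Set Qbar)) := by
  have hN0 : 0 < N := Nat.pos_of_ne_zero fun h0 => hN (h0 ▸ dvd_zero ℓ)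
  refine hU.finset (fun σ _ r hr => apply_mem_muSet hN0 σ hr) (fun r hr => intAt_muSet hN0 hr)
    fun r hr σ _ hne => ⟨sub_ne_zero.mpr (Ne.symm hne), fun A hA => sub_mem
      (intAt_muSet (ℓ := ℓ) hN0 hr A hA) (intAt_muSet hN0 (apply_mem_muSet hN0 σ hr) A hA),
      fun A hA => Gal.inv_mem_of_mem_of_notMem_nonunits A ?_⟩
  exact root_sub_notMem_nonunits hA hN ((mem_muSet hN0).mp hr)
    ((mem_muSet hN0).mp (apply_mem_muSet hN0 σ hr)) (Ne.symm hne)

theorem finiteIndex_fixer_muSet {N : ℕ} (hN : 0 < N) :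
    (fixer (muSet N : Set Qbar)).FiniteIndex :=
  finiteIndex_fixer _ fun σ _ hr => apply_mem_muSet hN σ hr

theorem normal_fixer_muSet {N : ℕ} (hN : 0 < N) : (fixer (muSet N : Set Qbar)).Normal :=
  normal_fixer _ fun σ _ hr => apply_mem_muSet hN σ hr

/-- Every residue lifts to `0` or to a root of unity of order prime to `ℓ`. -/
theorem exists_root_lift {A : ValuationSubring Qbar} (hA : A.LiesOverPrime ℓ) {ι : Type*}
    [Finite ι] (b : ι → ResidueField A) :
    ∃ (N : ℕ) (y : ι → A), ¬ ℓ ∣ N ∧ (∀ i, residue A (y i) = b i) ∧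
      ∀ i, ∀ σ ∈ fixer (muSet N : Set Qbar), σ (y i : Qbar) = y i := by
  classical
  cases nonempty_fintype ι
  have := Gal.charP_residueField A Fact.out hA
  have := Gal.isAlgClosed_residueField A
  have h : ∀ i, ∃ (m : ℕ) (y : A), ¬ ℓ ∣ m ∧ residue A y = b i ∧
      ((y : Qbar) = 0 ∨ (y : Qbar) ^ m = 1) := by
    intro i
    rcases eq_or_ne (b i) 0 with hb | hb
    · exact ⟨1, 0, (Fact.out : ℓ.Prime).not_dvd_one, by rw [map_zero, hb], Or.inl rfl⟩
    obtain ⟨x, hx⟩ := residue_surjective (b i)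
    have hxu : (x : Qbar) ∉ A.nonunits := fun h => hb (by
      rw [← hx, IsLocalRing.residue_eq_zero_iff, ← A.coe_mem_nonunits_iff]
      exact h)
    obtain ⟨m, hm, hm1⟩ := exists_pow_sub_one_mem_nonunits hA x.2 hxu
    have hbm : b i ^ m = 1 := by
      rw [← hx, ← map_pow, ← map_one (residue A)]
      exact (Gal.residue_eq_residue_iff A (x ^ m) 1).mpr (by simpa using hm1)
    obtain ⟨m', hm', hbm', hm'ℓ⟩ : ∃ m', 0 < m' ∧ b i ^ m' = 1 ∧ ¬ ℓ ∣ m' := by
      obtain ⟨e, m', hm'ℓ, rfl⟩ := Nat.exists_eq_pow_mul_and_not_dvd hm.ne' ℓ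
        (Fact.out : ℓ.Prime).one_lt.ne'
      refine ⟨m', Nat.pos_of_ne_zero fun h0 => hm'ℓ (h0 ▸ dvd_zero ℓ), ?_, hm'ℓ⟩
      rw [mul_comm, pow_mul] at hbm
      clear hm hm1
      induction e with
      | zero => simpa using hbm
      | succ e ih =>
        rw [pow_succ, pow_mul] at hbm
        have h1 : ((b i ^ m') ^ ℓ ^ e - 1) ^ ℓ = 0 := by
          rw [sub_pow_char, one_pow, hbm, sub_self]
        exact ih (sub_eq_zero.mp (eq_zero_of_pow_eq_zero h1))
    obtain ⟨y, hy, hyr⟩ := Gal.exists_root_residue_eq A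
      (p := Polynomial.X ^ m' - 1) (Polynomial.monic_X_pow_sub_C 1 hm'.ne') (c := b i) (by
        simp [hbm'])
    exact ⟨m', y, hm'ℓ, hyr, Or.inr (by
      have := congrArg Subtype.val hy
      simpa [sub_eq_zero] using this)⟩
  choose m y hm hy hy1 using h
  have hN : ¬ ℓ ∣ ∏ i, m i := fun h => by
    obtain ⟨i, -, hi⟩ := (Prime.dvd_finsetProd_iff (Nat.prime_iff.mp Fact.out) _).mp h
    exact hm i hi
  refine ⟨∏ i, m i, y, hN, hy, fun i σ hσ => ?_⟩
  rcases hy1 i with h0 | h1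
  · rw [h0, map_zero]
  · refine hσ _ (Finset.mem_coe.mpr ((mem_muSet (Nat.pos_of_ne_zero fun h0 =>
      hN (by rw [h0]; exact dvd_zero ℓ))).mpr ?_))
    obtain ⟨q, hq⟩ := Finset.dvd_prod_of_mem m (Finset.mem_univ i)
    rw [hq, pow_mul, h1, one_pow]

end Fermat.Agent.FlatModel
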