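import Fermat.Agent.FlatModel.Fibre
import Fermat.Agent.FlatModel.Rigid
import Fermat.Agent.FlatModel.Roots

/-!
# A base divisor in general position, unramified over `ℓ`

Zeros of `t - ζ` for roots of unity `ζ` of large prime order are fixed by a subgroup with trace
data and avoid any finite set of conditions, also after conjugation by any Galois element.

Main result: `exists_baseDivisor`.
-/

set_option autoImplicit false

noncomputable section

open AlgebraicCurve HahnSeries ModularCurve IsLocalRing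

open scoped Pointwise

namespace Fermat.Agent.FlatModel

open Fermat.Agent.Reduction

/-- A closed normal subgroup of finite index with the trace identity. -/
structure UnrData (ℓ : ℕ) (U : Subgroup GalQ) : Prop where
  closed : IsClosed (U : Set GalQ)
  normal : U.Normal
  finiteIndex : U.FiniteIndex
  trace : TraceData ℓ U

theorem UnrData.top (ℓ : ℕ) : UnrData ℓ ⊤ :=
  ⟨isClosed_univ, inferInstance, inferInstance, traceData_top ℓ⟩

variable {ℓ : ℕ} [Fact ℓ.Prime]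

theorem UnrData.inf_muSet {U : Subgroup GalQ} (h : UnrData ℓ U) {N : ℕ} (hN : ¬ ℓ ∣ N) :
    UnrData ℓ (U ⊓ fixer (muSet N : Set Qbar)) := by
  have hN0 : 0 < N := Nat.pos_of_ne_zero fun h0 => hN (h0 ▸ dvd_zero ℓ)
  have := h.normal
  have := h.finiteIndex
  have := finiteIndex_fixer_muSet hN0
  have := normal_fixer_muSet hN0
  exact ⟨h.closed.inter (isClosed_fixer _), inferInstance, inferInstance, h.trace.muSet hN⟩

variable {A : ValuationSubring Qbar} {S : CurveRed A (IsLocalRing.residue A)} {n₀ : ℕ}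
  {Γ : GalAct S} (co : Coord S Γ) (hgap : S.GapBound n₀)

/-- A shortcut for a slow instance search in this file. -/
local instance pointsAlgebraF : Algebra Qbar S.F := inferInstance

local notation "𝕜" => ResidueField A

include hgap in
theorem finrank_jPart_add_le {E : Divisor Qbar S.F} (hE : S.IsEff E) (n : ℤ)
    {v : Place Qbar S.F} (hl : S.loss (Finsupp.single v 1) = 0) :
    Module.finrank 𝕜 (S.jPart (E + Finsupp.single v 1) n) ≤
      Module.finrank 𝕜 (S.jPart E n) := by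
  have := CurveRed.finite_jPart hgap hE n
  have he := CurveRed.isEff_single (S := S) v zero_le_one
  refine Submodule.finrank_mono fun y hy => ⟨?_, ?_⟩
  · have h1 := hy.1
    rwa [CurveRed.loss_add hgap hE he, hl, add_zero] at h1
  · obtain ⟨m, z, hz, hzy⟩ := CurveRed.mem_effIdeal.mp
      (show y ∈ S.effIdeal (E + Finsupp.single v 1) from hy.2)
    refine ⟨m, z, S.space_mono (fun w => ?_) hz, hzy⟩
    simp only [Finsupp.sub_apply, Finsupp.add_apply]
    have := he w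
    omega

include co hgap in
/-- **One more point.** -/
theorem exists_step (hA : A.LiesOverPrime ℓ) {U : Subgroup GalQ} (hU : UnrData ℓ U)
    {J : Type*} [Finite J] (E : J → Divisor Qbar S.F) (n : J → ℤ) (hE : ∀ j, S.IsEff (E j)) :
    ∃ (v : Place Qbar S.F) (U' : Subgroup GalQ), UnrData ℓ U' ∧ U' ≤ U ∧
      (∀ σ ∈ U', Γ.gal σ • v = v) ∧
      ∀ (σ : GalQ) (j : J),
        Module.finrank 𝕜 (S.jPart (E j + Finsupp.single (Γ.gal σ • v) 1) (n j)) ≤
          Module.finrank 𝕜 (S.jPart (E j) (n j)) - 1 := by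
  classical
  cases nonempty_fintype J
  obtain ⟨bad₀, hfib⟩ := exists_fibre co hgap
  have hjump : ∀ j, ∃ bad : Finset 𝕜, ∀ (v : Place Qbar S.F) (a : 𝕜), a ∉ bad →
      S.loss (Finsupp.single v 1) = 0 → S.colen (Finsupp.single v 1) = 1 →
      co.tb - algebraMap 𝕜 S.Cbar a ∈ S.effIdeal' (Finsupp.single v 1) →
      Module.finrank 𝕜 (S.jPart (E j + Finsupp.single v 1) (n j)) ≤
        Module.finrank 𝕜 (S.jPart (E j) (n j)) - 1 := by
    intro j
    rcases Nat.eq_zero_or_pos (Module.finrank 𝕜 (S.jPart (E j) (n j))) with h0 | hpos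
    · exact ⟨∅, fun v a _ hl _ _ => (finrank_jPart_add_le hgap (hE j) _ hl).trans (by omega)⟩
    · obtain ⟨bad, hbad⟩ := CurveRed.exists_conductor_point hgap (E j) (hE j) (n j) hpos co.tb
      exact ⟨bad, fun v a ha hl hc hx => by
        have := hbad v a ha hl hc hx
        omega⟩
  choose bad₁ hbad₁ using hjump
  let bad : Finset 𝕜 := bad₀ ∪ Finset.univ.biUnion bad₁
  -- a prime whose roots avoid the bad residues
  obtain ⟨q, hq, hqℓ, hqbad⟩ : ∃ q : ℕ, q.Prime ∧ q ≠ ℓ ∧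
      ∀ b ∈ bad, b ^ q = 1 → b = 1 := by
    have hfin : ({q : ℕ | q.Prime ∧ q = ℓ} ∪
        ⋃ b ∈ bad, {q : ℕ | q.Prime ∧ b ^ q = 1 ∧ b ≠ 1}).Finite := by
      refine ((Set.finite_singleton ℓ).subset fun q hq => hq.2).union
        (bad.finite_toSet.biUnion fun b _ => Set.Subsingleton.finite ?_)
      rintro p ⟨hp, hbp, hb1⟩ r ⟨hr, hbr, -⟩
      by_contra hne
      refine hb1 ?_
      have : b ^ p.gcd r = 1 := pow_gcd_eq_one.mpr ⟨hbp, hbr⟩
      rwa [(Nat.coprime_primes hp hr).mpr hne, pow_one] at this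
    obtain ⟨q, hq⟩ := (Nat.infinite_setOfPred_prime.sdiff hfin).nonempty
    refine ⟨q, hq.1, fun h => hq.2 (Or.inl ⟨hq.1, h⟩), fun b hb hbq => ?_⟩
    by_contra hb1
    exact hq.2 (Or.inr (Set.mem_biUnion hb ⟨hq.1, hbq, hb1⟩))
  have hqN : ¬ ℓ ∣ q := fun h => hqℓ ((Nat.prime_dvd_prime_iff_eq Fact.out hq).mp h).symm
  set P : Finset Qbar := (muSet q).erase 1 with hP
  have hPA : ∀ ζ ∈ P, ζ ∈ A := fun ζ hζ => Gal.mem_of_isIntegral A
    (isIntegral_of_pow_eq_one hq.pos ((mem_muSet hq.pos).mp (Finset.mem_of_mem_erase hζ)))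
  have hPgood : ∀ ζ (hζ : ζ ∈ P), residue A ⟨ζ, hPA ζ hζ⟩ ∉ bad := by
    intro ζ hζ hmem
    obtain ⟨hne, hmu⟩ := Finset.mem_erase.mp hζ
    have hpow := (mem_muSet hq.pos).mp hmu
    have h1 := hqbad _ hmem (by
      rw [← map_pow, show (⟨ζ, hPA ζ hζ⟩ : A) ^ q = 1 from Subtype.ext hpow, map_one])
    rw [← map_one (residue A), Gal.residue_eq_residue_iff] at h1
    exact root_sub_notMem_nonunits hA hqN hpow (one_pow q) hne h1
  have hPσ : ∀ (σ : GalQ), ∀ ζ ∈ P, σ ζ ∈ P := fun σ ζ hζ => by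
    obtain ⟨hne, hmu⟩ := Finset.mem_erase.mp hζ
    exact Finset.mem_erase.mpr ⟨fun h => hne (σ.injective (by rw [h, map_one])),
      apply_mem_muSet hq.pos σ hmu⟩
  have hfib' : ∀ ζ : P, Nonempty (Fibre co ⟨ζ, hPA ζ ζ.2⟩) := fun ζ =>
    hfib _ fun h => hPgood ζ ζ.2 (Finset.mem_union_left _ h)
  have fib : ∀ ζ : P, Fibre co ⟨ζ, hPA ζ ζ.2⟩ := fun ζ => (hfib' ζ).some
  let val : (ζ : P) → Place Qbar S.F → Qbar := fun ζ v => ((fib ζ).c v : Qbar)
  have hmain : ∀ (ζ : P) (w : Place Qbar S.F), w ∈ (fib ζ).Z → ∀ j,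
      Module.finrank 𝕜 (S.jPart (E j + Finsupp.single w 1) (n j)) ≤
        Module.finrank 𝕜 (S.jPart (E j) (n j)) - 1 := by
    intro ζ w hw j
    have h3 : residue A ⟨ζ, hPA ζ ζ.2⟩ ∉ bad₁ j := fun h => hPgood ζ ζ.2
      (Finset.mem_union_right _ (Finset.mem_biUnion.mpr ⟨j, Finset.mem_univ j, h⟩))
    have h4 := hbad₁ j w (residue A ⟨ζ, hPA ζ ζ.2⟩) h3
    exact h4 ((fib ζ).loss w hw) ((fib ζ).colen w hw) ((fib ζ).tsub w hw)
  -- Galois permutes the fibres and the values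
  have hgal : ∀ (σ : GalQ) (ζ : P), ∀ v ∈ (fib ζ).Z,
      Γ.gal σ • v ∈ (fib ⟨σ ζ, hPσ σ ζ ζ.2⟩).Z ∧
        val ⟨σ ζ, hPσ σ ζ ζ.2⟩ (Γ.gal σ • v) = σ (val ζ v) := by
    intro σ ζ v hv
    obtain ⟨hvpt, hvt⟩ := ((fib ζ).mem_iff v).mp hv
    have h1 : Γ.gal σ • v ∈ (fib ⟨σ ζ, hPσ σ ζ ζ.2⟩).Z := by
      refine ((fib _).mem_iff _).mpr ⟨fun h => hvpt ?_, hvt.gal co.t_fix σ⟩
      rwa [← Γ.gal_pt σ, smul_left_cancel_iff] at h
    exact ⟨h1, ((fib _).val _ h1).unique (((fib ζ).val v hv).gal co.θ_fix σ)⟩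
  set T : Finset Qbar := Finset.univ.biUnion fun ζ : P => (fib ζ).Z.image (val ζ) with hT
  have hTmem : ∀ r, r ∈ T ↔ ∃ ζ : P, ∃ v ∈ (fib ζ).Z, val ζ v = r := fun r => by
    simp [hT]
  have hTσ : ∀ σ : GalQ, ∀ r ∈ T, σ r ∈ T := fun σ r hr => by
    obtain ⟨ζ, v, hv, rfl⟩ := (hTmem r).mp hr
    exact (hTmem _).mpr ⟨_, _, (hgal σ ζ v hv).1, (hgal σ ζ v hv).2⟩
  have hTA : ∀ r ∈ T, r ∈ A := fun r hr => by
    obtain ⟨ζ, v, -, rfl⟩ := (hTmem r).mp hr
    exact ((fib ζ).c v).2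
  have hTint : ∀ r ∈ T, IntAt ℓ r := fun r hr A' hA' => by
    obtain ⟨τ, rfl⟩ := Gal.exists_smul_eq_of_liesOverPrime Fact.out hA hA'
    rw [Gal.mem_smul_valuationSubring_iff]
    exact hTA _ (hTσ _ r hr)
  set U₁ : Subgroup GalQ := U ⊓ fixer (muSet q : Set Qbar) with hU₁
  have hU₁d : UnrData ℓ U₁ := hU.inf_muSet hqN
  have hfix : ∀ σ ∈ U₁, ∀ ζ : P, (⟨σ ζ, hPσ σ ζ ζ.2⟩ : P) = ζ := fun σ hσ ζ =>
    Subtype.ext ((Subgroup.mem_inf.mp hσ).2 _ (Finset.mem_of_mem_erase ζ.2))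
  have hU₁v : ∀ σ ∈ U₁, ∀ (ζ : P), ∀ v ∈ (fib ζ).Z,
      Γ.gal σ • v ∈ (fib ζ).Z ∧ val ζ (Γ.gal σ • v) = σ (val ζ v) := by
    intro σ hσ ζ v hv
    have h := hgal σ ζ v hv
    rwa [hfix σ hσ ζ] at h
  have htrace : TraceData ℓ (U₁ ⊓ fixer (T : Set Qbar)) := by
    refine hU₁d.trace.finset (fun σ _ => hTσ σ) hTint fun r hr σ hσ hne =>
      ⟨sub_ne_zero.mpr (Ne.symm hne), fun A' hA' => sub_mem (hTint r hr A' hA')
        (hTint _ (hTσ σ r hr) A' hA'), fun A' hA' => ?_⟩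
    obtain ⟨τ, rfl⟩ := Gal.exists_smul_eq_of_liesOverPrime Fact.out hA hA'
    refine Gal.inv_mem_of_mem_of_notMem_nonunits _ ?_
    intro h
    rw [Gal.mem_nonunits_smul_iff, map_sub] at h
    obtain ⟨ζ, v, hv, rfl⟩ := (hTmem r).mp hr
    obtain ⟨hv', hv'e⟩ := hU₁v σ hσ ζ v hv
    rw [← hv'e] at h hne
    obtain ⟨h1, h1e⟩ := hgal τ.symm ζ v hv
    obtain ⟨h2, h2e⟩ := hgal τ.symm ζ _ hv'
    rw [← h1e, ← h2e] at h
    have h3 := (fib _).inj _ h1 _ h2 ((Gal.residue_eq_residue_iff A _ _).mpr h)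
    rw [smul_left_cancel_iff] at h3
    exact hne (by rw [← h3])
  have : NeZero ((q : ℕ) : Qbar) := ⟨Nat.cast_ne_zero.mpr hq.ne_zero⟩
  obtain ⟨r₀, hr₀⟩ := HasEnoughRootsOfUnity.exists_primitiveRoot Qbar q
  have hr₀P : r₀ ∈ P := Finset.mem_erase.mpr ⟨hr₀.ne_one hq.one_lt,
    (mem_muSet hq.pos).mpr hr₀.pow_eq_one⟩
  set ζ₀ : P := ⟨r₀, hr₀P⟩
  obtain ⟨v, hv⟩ : (fib ζ₀).Z.Nonempty := Finset.card_pos.mp (by
    have := co.two_le
    rw [(fib ζ₀).card]
    omega)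
  have := hU₁d.normal
  have := hU₁d.finiteIndex
  have := finiteIndex_fixer T hTσ
  have := normal_fixer T hTσ
  refine ⟨v, U₁ ⊓ fixer (T : Set Qbar),
    ⟨hU₁d.closed.inter (isClosed_fixer _), inferInstance, inferInstance, htrace⟩,
    inf_le_left.trans inf_le_left, fun σ hσ => ?_, fun σ j => ?_⟩
  · obtain ⟨hσ1, hσT⟩ := Subgroup.mem_inf.mp hσ
    obtain ⟨h1, h2⟩ := hU₁v σ hσ1 ζ₀ v hv
    rw [hσT _ (Finset.mem_coe.mpr ((hTmem _).mpr ⟨ζ₀, v, hv, rfl⟩))] at h2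
    exact (fib ζ₀).inj _ h1 _ hv (congrArg (residue A) (Subtype.ext h2))
  · exact hmain _ _ (hgal σ ζ₀ v hv).1 j

include co hgap in
/-- `s` points lowering all the given dimensions by `s`, after any conjugation. -/
theorem exists_points (hA : A.LiesOverPrime ℓ) {J : Type*} [Finite J] (E : J → Divisor Qbar S.F)
    (n : J → ℤ) (hE : ∀ j, S.IsEff (E j)) (s : ℕ) :
    ∃ (Q : Divisor Qbar S.F) (U : Subgroup GalQ), UnrData ℓ U ∧ S.IsEff Q ∧
      Divisor.degree Q = s ∧ (∀ σ ∈ U, Γ.sm σ Q = Q) ∧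
      ∀ (σ : GalQ) (j : J), Module.finrank 𝕜 (S.jPart (E j + Γ.sm σ Q) (n j)) ≤
        Module.finrank 𝕜 (S.jPart (E j) (n j)) - s := by
  induction s with
  | zero =>
    exact ⟨0, ⊤, UnrData.top ℓ, CurveRed.isEff_zero, by simp, fun σ _ => smul_zero _,
      fun σ j => by rw [GalAct.sm, smul_zero, add_zero]; simp⟩
  | succ s ih =>
    obtain ⟨Q, U, hU, hQ, hdeg, hfix, hle⟩ := ih
    have := hU.finiteIndex
    have hQU : ∀ σ : GalQ, Γ.sm σ Q = Γ.sm (QuotientGroup.mk (s := U) σ).out Q := fun σ => by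
      have h : (QuotientGroup.mk (s := U) σ).out⁻¹ * σ ∈ U :=
        QuotientGroup.eq.mp (QuotientGroup.out_eq' _)
      conv_rhs => rw [← hfix _ h, ← Γ.sm_mul, mul_inv_cancel_left]
    obtain ⟨v, U', hU', hle', hv, hstep⟩ := exists_step co hgap hA hU
      (J := J × (GalQ ⧸ U)) (fun p => E p.1 + Γ.sm p.2.out Q) (fun p => n p.1)
      fun p => (hE p.1).add (Γ.isEff_sm _ hQ)
    refine ⟨Q + Finsupp.single v 1, U', hU', hQ.add (CurveRed.isEff_single v zero_le_one), ?_,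
      fun σ hσ => ?_, fun σ j => ?_⟩
    · rw [map_add, hdeg, Divisor.degree_single, S.deg_one]
      push_cast
      ring
    · rw [Γ.sm_add, hfix σ (hle' hσ), GalAct.sm, SemilinearAut.smul_single, hv σ hσ]
    · have h1 := hstep σ (j, QuotientGroup.mk σ)
      have h2 := hle σ j
      simp only at h1
      rw [← hQU σ] at h1
      rw [Γ.sm_add, ← add_assoc,
        show Γ.sm σ (Finsupp.single v 1) = Finsupp.single (Γ.gal σ • v) 1 from
          SemilinearAut.smul_single _ _ _]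
      exact h1.trans (by omega)

include hgap in
/-- **The base divisor.** -/
theorem exists_baseDivisor (hA : A.LiesOverPrime ℓ) (Γ : GalAct S) {J : Type*} [Finite J]
    (D : J → Divisor Qbar S.F) (hD : ∀ j, Divisor.degree (D j) = 0) :
    ∃ (D₀ : Divisor Qbar S.F) (U : Subgroup GalQ), UnrData ℓ U ∧
      Divisor.degree D₀ = (S.g : ℤ) ∧ (∀ σ ∈ U, Γ.sm σ D₀ = D₀) ∧
      ∀ (σ : GalQ) (j : J), S.Rigid (D j + Γ.sm σ D₀) := by
  classical
  cases nonempty_fintype J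
  obtain ⟨co⟩ := exists_coord hgap hA Γ
  choose E n hE hEn using fun j => CurveRed.exists_rep (S := S) (D j)
  have hn : ∀ j, n j = Divisor.degree (E j) := fun j => by
    have h := (hEn j).degree_eq
    rw [map_sub, S.degree_atPt, hD j] at h
    omega
  set M₀ : ℕ := n₀ + S.g + ∑ j, (Divisor.degree (E j)).toNat with hM₀
  set s : ℕ := M₀ - S.g with hs
  obtain ⟨Q, U, hU, hQ, hdeg, hfix, hle⟩ :=
    exists_points co hgap hA E (fun j => n j + M₀) hE s
  refine ⟨S.atPt M₀ - Q, U, hU, ?_, fun σ hσ => ?_, fun σ j => ?_⟩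
  · rw [map_sub, S.degree_atPt, hdeg]
    omega
  · rw [Γ.sm_sub, Γ.sm_atPt, hfix σ hσ]
  · have hbig : S.BigFor n₀ (E j) (n j + M₀) := by
      have h2 := Finset.single_le_sum (f := fun i => (Divisor.degree (E i)).toNat)
        (fun i _ => Nat.zero_le _) (Finset.mem_univ j)
      rw [CurveRed.BigFor, hn j]
      omega
    have hdim := (CurveRed.finrank_jPart hgap (hE j) hbig).2.1
    rw [hn j] at hdim
    refine CurveRed.rigid_of_rep hgap (E := E j + Γ.sm σ Q) (n := n j + M₀)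
      ((hE j).add (Γ.isEff_sm σ hQ)) ?_ ((hle σ j).trans ?_)
    · rw [Γ.sm_sub, Γ.sm_atPt, S.atPt_add,
        show S.atPt (n j) + S.atPt M₀ - (E j + Γ.sm σ Q) =
          (S.atPt (n j) - E j) + (S.atPt M₀ - Γ.sm σ Q) by abel]
      exact (hEn j).add (CurveRed.LinEq.refl _)
    · rw [← hn j] at hdim
      omega

end Fermat.Agent.FlatModel
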