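import Fermat.Agent.FlatModel.Addition
import Fermat.Agent.FlatModel.Points

/-!
# A family of subspaces parametrised by a finite group of classes

For a finite Galois stable group of divisor classes the spaces `L(M·pt - E x)` of a rigid family
of effective divisors give, through normalised bases, descent data and hence a flat model.

Main result: `exists_divisors`, the rigid family used for the model.
-/

set_option autoImplicit false

noncomputable section

open AlgebraicCurve HahnSeries ModularCurve IsLocalRing Matrix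

open scoped Pointwise

namespace Fermat.Agent.FlatModel

open Fermat.Agent.Reduction

variable {A : ValuationSubring Qbar}

local notation "𝕜" => ResidueField A

/-- Normalised sections with coordinates in `B` form a frame. -/
theorem exists_frame_of_norm {Z : Type*} [Finite Z] {B : Subalgebra A (Z → A)}
    {V : Submodule Qbar (LaurentSeries Qbar)} {R : ℕ}
    (b : LatBasis (A := A) (π := residue A) IsLocalRing.residue_surjective V R)
    {W : Z → Submodule Qbar (LaurentSeries Qbar)} {r : ℕ} (hWV : ∀ z, W z ≤ V)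
    (hfin : ∀ z, FiniteDimensional Qbar (W z)) (hr : ∀ z, Module.finrank Qbar (W z) = r)
    {T : Matrix (Fin r) (Fin R) A} (nv : Fin r → Z → LaurentSeries Qbar)
    (c : Matrix (Fin R) (Fin r) B) (hc : ∀ l j z, valB B z (c l j) = (nv j z).coeff (b.idx l))
    (hmem : ∀ j z, nv j z ∈ W z) (hnorm : ∀ j z, IsNorm b T j (nv j z)) :
    Nonempty (Frame B W r) := by
  have h1 : T.map (algebraMap A B) * c = 1 := by
    refine Matrix.ext fun i j => Subtype.ext (funext fun z => Subtype.ext ?_)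
    show valB B z ((T.map (algebraMap A B) * c) i j) = valB B z ((1 : Matrix _ _ B) i j)
    have h := congrFun (hnorm j z) i
    simp only [Matrix.mulVec, dotProduct, Matrix.map_apply, coeffsAt_apply] at h
    rw [Matrix.mul_apply, map_sum]
    simp only [map_mul, Matrix.map_apply, valB_algebraMap, hc]
    refine h.trans ?_
    rw [Matrix.one_apply, Pi.single_apply]
    split_ifs <;> simp
  refine exists_frame_of_isChart b hWV hfin hr (T := T) (C := c) ⟨h1, fun z => ?_⟩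
  refine Submodule.eq_of_le_of_finrank_eq ?_ ?_
  · rw [colSpace_eq_span, Submodule.span_le]
    rintro _ ⟨j, rfl⟩
    exact ⟨nv j z, hmem j z, funext fun l => (hc l j z).symm⟩
  · rw [finrank_colSpace_of_mul_eq_one h1, finrank_map_coeffs b (hWV z), hr z, Fintype.card_fin]

/-- The image of `T` under an element fixing `A`. -/
def galMat {r R : ℕ} (σ : GalQ) (hσ : σ • A = A) (T : Matrix (Fin r) (Fin R) A) :
    Matrix (Fin r) (Fin R) A :=
  T.map fun a => ⟨σ a, (Gal.apply_mem_iff hσ _).mpr a.2⟩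

variable {S : CurveRed A (IsLocalRing.residue A)} (Γ : GalAct S)

theorem isNorm_cmap {V : Submodule Qbar (LaurentSeries Qbar)} {R r : ℕ}
    (b : LatBasis (A := A) (π := residue A) IsLocalRing.residue_surjective V R) (σ : GalQ)
    {T T' : Matrix (Fin r) (Fin R) A} (hT : ∀ i l, (T' i l : Qbar) = σ (T i l : Qbar))
    {j : Fin r} {y : LaurentSeries Qbar} (h : IsNorm b T j y) : IsNorm b T' j (cmap σ y) := by
  funext i
  have h1 := congrArg σ (congrFun h i)
  simp only [Matrix.mulVec, dotProduct, Matrix.map_apply, coeffsAt_apply, map_sum, map_mul] at h1 ⊢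
  refine Eq.trans (Finset.sum_congr rfl fun l _ => ?_) (h1.trans ?_)
  · rw [cmap, coeffMap_coeff]
    exact congrArg (· * _) (hT i l)
  · rw [Pi.single_apply]
    split_ifs <;> simp

theorem reg_galMat {m : ℤ} {R r : ℕ}
    (b : LatBasis (A := A) (π := residue A) IsLocalRing.residue_surjective (S.space (S.atPt m)) R)
    {D : Divisor Qbar S.F} (σ : GalQ) (hσ : σ • A = A) {T : Matrix (Fin r) (Fin R) A}
    (h : Reg b T (S.space D)) : Reg b (galMat σ hσ T) (S.space (Γ.sm σ D)) := by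
  rintro x ⟨y, hy, hyx⟩ hx
  have hy' : cmap σ⁻¹ y ∈ S.space D :=
    (Γ.cmap_mem_space_iff σ).mp (by rwa [cmap_inv_cancel])
  have hinv : σ⁻¹ • A = A := by rw [inv_smul_eq_iff, hσ]
  obtain ⟨x', hx'⟩ := exists_red_of_coeff_mem (residue A) (y := cmap σ⁻¹ y) fun i => by
    rw [cmap, coeffMap_coeff]
    exact (Gal.apply_mem_iff hinv _).mpr (hyx.coeff_mem i)
  have hnon : ∀ (z : LaurentSeries Qbar) (w : LaurentSeries 𝕜), Red A (residue A) z w →
      ∀ i, (w.coeff i = 0 ↔ z.coeff i ∈ A.nonunits) := by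
    intro z w hzw i
    obtain ⟨h1, h2⟩ := hzw i
    rw [← h2, IsLocalRing.residue_eq_zero_iff, ← A.coe_mem_nonunits_iff]
  have h0 : x' = 0 := by
    refine h x' ⟨_, hy', hx'⟩ (funext fun i => ?_)
    have h1 := congrFun hx i
    set a : A := ∑ l, galMat σ hσ T i l * ⟨_, hyx.coeff_mem (b.idx l)⟩ with ha
    have h2 : residue A a = 0 := by
      rw [← Pi.zero_apply (M := fun _ : Fin r => 𝕜) i, ← h1, ha, map_sum]
      simp only [Matrix.mulVec, dotProduct, Matrix.map_apply]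
      refine Finset.sum_congr rfl fun l _ => ?_
      rw [map_mul, coeffsAt_apply]
      obtain ⟨h4, h5⟩ := hyx (b.idx l)
      rw [← h5]
    rw [IsLocalRing.residue_eq_zero_iff, ← A.coe_mem_nonunits_iff] at h2
    set a' : A := ∑ l, T i l * ⟨_, hx'.coeff_mem (b.idx l)⟩ with ha'
    have h3 : (a : Qbar) = σ (a' : Qbar) := by
      rw [ha, ha', AddSubmonoidClass.coe_finsetSum, AddSubmonoidClass.coe_finsetSum, map_sum]
      refine Finset.sum_congr rfl fun l _ => ?_
      rw [MulMemClass.coe_mul, MulMemClass.coe_mul, map_mul]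
      show σ _ * y.coeff _ = σ _ * σ ((cmap σ⁻¹ y).coeff _)
      rw [cmap, coeffMap_coeff]
      exact congrArg (_ * ·) (σ.apply_symm_apply _).symm
    rw [h3, Gal.apply_mem_nonunits_iff hσ, A.coe_mem_nonunits_iff,
      ← IsLocalRing.residue_eq_zero_iff, ha', map_sum] at h2
    rw [Pi.zero_apply, ← h2]
    simp only [Matrix.mulVec, dotProduct, Matrix.map_apply]
    refine Finset.sum_congr rfl fun l _ => ?_
    rw [map_mul, coeffsAt_apply]
    obtain ⟨h4, h5⟩ := hx' (b.idx l)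
    rw [← h5]
  ext i
  rw [HahnSeries.coeff_zero, hnon y x hyx i]
  have h4 := (hnon _ _ hx' i).mp (by rw [h0, HahnSeries.coeff_zero])
  rwa [cmap, coeffMap_coeff, RingHom.coe_coe, Gal.apply_mem_nonunits_iff hinv] at h4

theorem linEq_of_mk_eq {x y : Divisor.degZero (K := Qbar) (F := S.F)}
    (h : Pic0.mk x = Pic0.mk y) : S.LinEq (x : Divisor Qbar S.F) y := by
  have h1 := AddSubgroup.mem_addSubgroupOf.mp (QuotientAddGroup.eq_iff_sub_mem.mp h)
  exact h1

/-- The effective divisors of a rigid family, with a large pole order. -/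
theorem exists_divisors {n₀ : ℕ} (hgap : S.GapBound n₀) {ℓ : ℕ} [Fact ℓ.Prime]
    (hA : A.LiesOverPrime ℓ) {G : Type} [AddCommGroup G] [Finite G]
    (act : GalQ →* AddMonoid.End G) (ι : G →+ Pic0 Qbar S.F) (hι : Function.Injective ι)
    (hact : ∀ σ x, ι (act σ x) = Γ.gal σ • ι x) :
    ∃ (U : Subgroup GalQ) (E : GalQ → G → Divisor Qbar S.F) (M : ℤ),
      UnrData ℓ U ∧ (∀ σ x, S.IsEff (E σ x)) ∧ (∀ σ x, Divisor.degree (E σ x) = S.g) ∧
      (∀ σ x, S.Rigid (E σ x)) ∧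
      (∀ τ σ x, Γ.sm τ (E σ x) = E (τ * σ) (act τ x)) ∧
      (∀ σ ∈ U, ∀ x, E σ x = E 1 x) ∧
      (Function.Injective fun x => E 1 x) ∧
      (n₀ : ℤ) + 5 * S.g + 1 ≤ M ∧
      (∃ G₁, S.IsEff G₁ ∧ Divisor.degree G₁ = S.g ∧ ∀ x y,
        S.LinEq (E 1 x + E 1 y) (E 1 (x + y) + G₁) ∧ LargeAdd S n₀ (E 1 x) (E 1 y) G₁ M) ∧
      ∀ σ, ∃ G₂, S.IsEff G₂ ∧ Divisor.degree G₂ = S.g ∧ ∀ x,
        S.LinEq (E 1 x + E 1 0) (E σ x + G₂) ∧ LargeAdd S n₀ (E 1 x) (E 1 0) G₂ M := by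
  classical
  cases nonempty_fintype G
  choose D₁ hD₁ using fun x : G => Pic0.mk_surjective (ι x)
  set D : G → Divisor Qbar S.F := fun x => (D₁ x : Divisor Qbar S.F) with hD
  have hDdeg : ∀ x, Divisor.degree (D x) = 0 := fun x => Divisor.mem_degZero.mp (D₁ x).2
  have hDadd : ∀ x y, S.LinEq (D (x + y)) (D x + D y) := fun x y => by
    have h := linEq_of_mk_eq (x := D₁ (x + y)) (y := D₁ x + D₁ y)
      (by rw [Pic0.mk_add, hD₁, hD₁, hD₁, map_add])
    exact h
  have hD0 : S.LinEq (D 0) 0 := linEq_of_mk_eq (x := D₁ 0) (y := 0) (by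
    rw [Pic0.mk_zero, hD₁, map_zero])
  have hDgal : ∀ σ x, S.LinEq (D (act σ x)) (Γ.sm σ (D x)) := fun σ x =>
    linEq_of_mk_eq (x := D₁ (act σ x)) (y := SemilinearAut.degZeroSMulHom (Γ.gal σ) (D₁ x)) (by
      rw [hD₁, hact, ← hD₁ x]
      rfl)
  obtain ⟨D₀, U, hU, hdeg₀, hfix, hrig⟩ := exists_baseDivisor hgap hA Γ D hDdeg
  have hdeg : ∀ σ x, Divisor.degree (D x + Γ.sm σ D₀) = S.g := fun σ x => by
    rw [map_add, hDdeg, Γ.degree_sm, hdeg₀, zero_add]
  choose E hE hEl using fun (σ : GalQ) (x : G) =>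
    CurveRed.exists_isEff_linEq (D := D x + Γ.sm σ D₀) (hdeg σ x).ge
  have hEdeg : ∀ σ x, Divisor.degree (E σ x) = S.g := fun σ x =>
    ((hEl σ x).degree_eq).trans (hdeg σ x)
  have hErig : ∀ σ x, S.Rigid (E σ x) := fun σ x => (hrig σ x).congr (hEl σ x).symm
  have huniq : ∀ σ x (F : Divisor Qbar S.F), S.IsEff F → S.LinEq F (D x + Γ.sm σ D₀) →
      F = E σ x :=
    fun σ x F hF hFl => (hrig σ x).unique hgap hF (hE σ x) hFl (hEl σ x)
  have hgal : ∀ τ σ x, Γ.sm τ (E σ x) = E (τ * σ) (act τ x) := fun τ σ x => by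
    refine huniq _ _ _ (Γ.isEff_sm τ (hE σ x)) ((Γ.linEq_sm τ (hEl σ x)).trans ?_)
    rw [Γ.sm_add, Γ.sm_mul]
    exact (hDgal τ x).symm.add (CurveRed.LinEq.refl _)
  have hU1 : ∀ σ ∈ U, ∀ x, E σ x = E 1 x := fun σ hσ x =>
    huniq _ _ _ (hE σ x) (by
      rw [show Γ.sm 1 D₀ = D₀ by rw [GalAct.sm, map_one, one_smul], ← hfix σ hσ]
      exact hEl σ x)
  have hcoset : ∀ σ, Γ.sm σ D₀ = Γ.sm (QuotientGroup.mk (s := U) σ).out D₀ := fun σ => by
    have h : (QuotientGroup.mk (s := U) σ).out⁻¹ * σ ∈ U :=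
      QuotientGroup.eq.mp (QuotientGroup.out_eq' _)
    conv_rhs => rw [← hfix _ h, ← Γ.sm_mul, mul_inv_cancel_left]
  have hinj : Function.Injective fun x => E 1 x := fun x y hxy => by
    apply hι
    rw [← hD₁ x, ← hD₁ y]
    refine QuotientAddGroup.eq_iff_sub_mem.mpr (AddSubgroup.mem_addSubgroupOf.mpr ?_)
    have h : S.LinEq (D x + Γ.sm 1 D₀) (D y + Γ.sm 1 D₀) :=
      (hEl 1 x).symm.trans ((CurveRed.LinEq.of_eq hxy).trans (hEl 1 y))
    have h' := h.sub (CurveRed.LinEq.refl (Γ.sm 1 D₀))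
    rwa [add_sub_cancel_right, add_sub_cancel_right] at h'
  -- the corrections
  obtain ⟨G₁, hG₁, hG₁l⟩ := CurveRed.exists_isEff_linEq (D := Γ.sm 1 D₀)
    (by rw [Γ.degree_sm, hdeg₀])
  have hG₂ : ∀ σ : GalQ, ∃ G₂, S.IsEff G₂ ∧
      S.LinEq G₂ (Γ.sm 1 D₀ + Γ.sm 1 D₀ - Γ.sm σ D₀) := fun σ =>
    CurveRed.exists_isEff_linEq (by simp only [map_sub, map_add, Γ.degree_sm, hdeg₀]; omega)
  have := hU.finiteIndex
  let : Fintype (GalQ ⧸ U) := Fintype.ofFinite _
  choose G₂ hG₂e hG₂l using hG₂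
  have hN₁ := fun p : G × G =>
    exists_largeAdd (n₀ := n₀) hgap (hE 1 p.1) (hE 1 p.2) hG₁
  choose N₁ hN₁ using hN₁
  have hN₂ := fun p : (GalQ ⧸ U) × G =>
    exists_largeAdd (n₀ := n₀) hgap (hE 1 p.2) (hE 1 0) (hG₂e p.1.out)
  choose N₂ hN₂ using hN₂
  set M : ℤ := (n₀ : ℤ) + 5 * S.g + 1 + ∑ p, |N₁ p| + ∑ p, |N₂ p| with hM
  have hM₁ : ∀ p, N₁ p ≤ M := fun p => by
    have h1 := Finset.single_le_sum (f := fun p => |N₁ p|) (fun i _ => abs_nonneg _)
      (Finset.mem_univ p)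
    have h2 := Finset.sum_nonneg (s := Finset.univ) (f := fun p => |N₂ p|)
      fun i _ => abs_nonneg _
    have h3 := le_abs_self (N₁ p)
    omega
  have hM₂ : ∀ p, N₂ p ≤ M := fun p => by
    have h1 := Finset.single_le_sum (f := fun p => |N₂ p|) (fun i _ => abs_nonneg _)
      (Finset.mem_univ p)
    have h2 := Finset.sum_nonneg (s := Finset.univ) (f := fun p => |N₁ p|)
      fun i _ => abs_nonneg _
    have h3 := le_abs_self (N₂ p)
    omega
  refine ⟨U, E, M, hU, hE, hEdeg, hErig, hgal, hU1, hinj, ?_, ⟨G₁, hG₁, ?_, fun x y => ⟨?_, ?_⟩⟩,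
    fun σ => ?_⟩
  · have h1 := Finset.sum_nonneg (s := Finset.univ) (f := fun p => |N₁ p|)
      fun i _ => abs_nonneg _
    have h2 := Finset.sum_nonneg (s := Finset.univ) (f := fun p => |N₂ p|)
      fun i _ => abs_nonneg _
    omega
  · rw [hG₁l.degree_eq, Γ.degree_sm, hdeg₀]
  · refine ((hEl 1 x).add (hEl 1 y)).trans (CurveRed.LinEq.trans ?_
      ((hEl 1 (x + y)).add hG₁l).symm)
    rw [show D x + Γ.sm 1 D₀ + (D y + Γ.sm 1 D₀) = D x + D y + Γ.sm 1 D₀ + Γ.sm 1 D₀ by abel]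
    exact ((hDadd x y).symm.add (CurveRed.LinEq.refl _)).add (CurveRed.LinEq.refl _)
  · exact hN₁ (x, y) M (hM₁ _)
  · set q := (QuotientGroup.mk (s := U) σ).out
    refine ⟨G₂ q, hG₂e q, ?_, fun x => ⟨?_, hN₂ (QuotientGroup.mk σ, x) M (hM₂ _)⟩⟩
    · rw [(hG₂l q).degree_eq]
      simp only [map_sub, map_add, Γ.degree_sm, hdeg₀]
      ring
    · refine ((hEl 1 x).add (hEl 1 0)).trans (CurveRed.LinEq.trans ?_
        ((hEl σ x).add (hG₂l q)).symm)
      rw [← hcoset σ, show D x + Γ.sm 1 D₀ + (D 0 + Γ.sm 1 D₀) =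
          D x + D 0 + (Γ.sm 1 D₀ + Γ.sm 1 D₀) by abel,
        show D x + Γ.sm σ D₀ + (Γ.sm 1 D₀ + Γ.sm 1 D₀ - Γ.sm σ D₀) =
          D x + 0 + (Γ.sm 1 D₀ + Γ.sm 1 D₀) by abel]
      exact ((CurveRed.LinEq.refl _).add hD0).add (CurveRed.LinEq.refl _)

end Fermat.Agent.FlatModel
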