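import Fermat.Agent.FlatModel.Coord
import Fermat.Agent.FF.Local

/-!
# Fibres of the first coordinate

Outside finitely many residues, `t = a` has `d` simple zeros, none of which reduces to `q = 0`,
and the values of `θ` at them are integral with distinct residues.

Main result: `exists_fibre`.
-/

set_option autoImplicit false

noncomputable section

open AlgebraicCurve HahnSeries ModularCurve IsLocalRing

namespace Fermat.Agent.FlatModel

open Fermat.Agent.Reduction

variable {A : ValuationSubring Qbar} {S : CurveRed A (IsLocalRing.residue A)} {n₀ : ℕ}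
  {Γ : GalAct S} (co : Coord S Γ) (hgap : S.GapBound n₀)

local notation "𝕜" => ResidueField A

/-- A shortcut for a slow instance search in this file. -/
local instance fibreAlgebraF : Algebra Qbar S.F := inferInstance

/-- `f` takes the value `c` at `v`. -/
def TakesVal (v : Place Qbar S.F) (f : S.F) (c : Qbar) : Prop :=
  f - algebraMap Qbar S.F c ∈ FF.ordGE v 1

theorem exists_takesVal (v : Place Qbar S.F) {f : S.F} (hf : f = 0 ∨ 0 ≤ v.ord f) :
    ∃ c, TakesVal v f c := by
  have hf0 : f ∈ FF.ordGE v 0 := (FF.mem_ordGE v).mpr hf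
  set one : FF.ordGE v 0 := ⟨1, FF.one_mem_ordGE_zero v⟩
  have h1 : FF.residueMap v one ≠ 0 := fun h => by
    have h' := (FF.residueMap_eq_zero_iff v one).mp h
    have := (FF.mem_ordGE_of_ne_zero v (one_ne_zero : (1 : S.F) ≠ 0)).mp h'
    rw [v.ord_one] at this
    omega
  obtain ⟨c, hc⟩ := (finrank_eq_one_iff_of_nonzero' (FF.residueMap v one) h1).mp (S.deg_one v)
    (FF.residueMap v ⟨f, hf0⟩)
  refine ⟨c, ?_⟩
  rw [← map_smul] at hc
  have h2 : FF.residueMap v (⟨f, hf0⟩ - c • one) = 0 := by rw [map_sub, hc, sub_self]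
  have h3 := (FF.residueMap_eq_zero_iff v _).mp h2
  rw [TakesVal, Algebra.algebraMap_eq_smul_one]
  exact h3

theorem TakesVal.unique {v : Place Qbar S.F} {f : S.F} {c c' : Qbar} (h : TakesVal v f c)
    (h' : TakesVal v f c') : c = c' := by
  by_contra hne
  have h2 := sub_mem h' h
  rw [sub_sub_sub_cancel_left, ← map_sub, FF.mem_ordGE_of_ne_zero v
    ((map_ne_zero _).mpr (sub_ne_zero.mpr hne)), FF.ord_algebraMap] at h2
  omega

theorem gal_smul_algebraMap (σ : GalQ) (c : Qbar) :
    Γ.gal σ • algebraMap Qbar S.F c = algebraMap Qbar S.F (σ c) := by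
  refine Subtype.ext ?_
  rw [Γ.coe_gal]
  show cmap σ (algebraMap Qbar (LaurentSeries Qbar) c) = algebraMap Qbar (LaurentSeries Qbar) (σ c)
  exact coeffMap_algebraMap _ c

theorem gal_mem_ordGE (σ : GalQ) (v : Place Qbar S.F) {f : S.F} {n : ℤ}
    (h : f ∈ FF.ordGE v n) : Γ.gal σ • f ∈ FF.ordGE (Γ.gal σ • v) n := by
  rw [FF.mem_ordGE] at h ⊢
  rcases h with h | h
  · exact Or.inl (by rw [h, smul_zero])
  · exact Or.inr (by rwa [SemilinearAut.ord_smul])

theorem TakesVal.gal {v : Place Qbar S.F} {f : S.F} {c : Qbar}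
    (hf : ∀ σ, cmap σ (f : LaurentSeries Qbar) = f) (h : TakesVal v f c) (σ : GalQ) :
    TakesVal (Γ.gal σ • v) f (σ c) := by
  have h2 := gal_mem_ordGE (Γ := Γ) σ v h
  have hfix : Γ.gal σ • f = f := Subtype.ext (by rw [Γ.coe_gal, hf σ])
  rw [smul_sub, gal_smul_algebraMap, hfix] at h2
  exact h2

/-- The divisor of a multiset of places. -/
def divOf (m : Multiset (Place Qbar S.F)) : Divisor Qbar S.F :=
  (m.map fun v => Finsupp.single v 1).sum

theorem isEff_divOf (m : Multiset (Place Qbar S.F)) : S.IsEff (divOf m) := by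
  induction m using Multiset.induction with
  | empty => exact CurveRed.isEff_zero
  | cons v m ih =>
    rw [divOf, Multiset.map_cons, Multiset.sum_cons]
    exact (CurveRed.isEff_single v zero_le_one).add ih

theorem divOf_apply (m : Multiset (Place Qbar S.F)) [DecidableEq (Place Qbar S.F)]
    (v : Place Qbar S.F) : divOf m v = (m.count v : ℤ) := by
  induction m using Multiset.induction with
  | empty => simp [divOf]
  | cons w m ih =>
    rw [divOf, Multiset.map_cons, Multiset.sum_cons, Finsupp.add_apply, ← divOf, ih,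
      Multiset.count_cons, Finsupp.single_apply]
    rcases eq_or_ne w v with rfl | h
    · simp [add_comm]
    · simp [h, h.symm]

theorem degree_divOf (m : Multiset (Place Qbar S.F)) :
    Divisor.degree (divOf m) = Multiset.card m := by
  induction m using Multiset.induction with
  | empty => simp [divOf]
  | cons v m ih =>
    rw [divOf, Multiset.map_cons, Multiset.sum_cons, map_add, ← divOf, ih, Multiset.card_cons,
      Divisor.degree_single, S.deg_one]
    push_cast
    ring

include hgap in
theorem prod_sub_mem (c : Place Qbar S.F → 𝕜) (x : S.Cbar) (m : Multiset (Place Qbar S.F))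
    (h : ∀ v ∈ m, x - algebraMap 𝕜 S.Cbar (c v) ∈ S.effIdeal' (Finsupp.single v 1)) :
    Polynomial.aeval x (m.map fun v => Polynomial.X - Polynomial.C (c v)).prod ∈
      S.effIdeal' (divOf m) := by
  induction m using Multiset.induction with
  | empty =>
    rw [Multiset.map_zero, Multiset.prod_zero, map_one, CurveRed.mem_effIdeal',
      show divOf (0 : Multiset (Place Qbar S.F)) = 0 from rfl, CurveRed.effIdeal_zero,
      Submodule.mem_one]
    exact ⟨1, by simp⟩
  | cons v m ih =>
    rw [Multiset.map_cons, Multiset.prod_cons, map_mul,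
      show divOf (v ::ₘ m) = Finsupp.single v 1 + divOf m by
        rw [divOf, Multiset.map_cons, Multiset.sum_cons]; rfl,
      hgap.effIdeal'_add (CurveRed.isEff_single v zero_le_one) (isEff_divOf m)]
    refine Ideal.mul_mem_mul ?_ (ih fun w hw => h w (Multiset.mem_cons_of_mem hw))
    simpa using h v (Multiset.mem_cons_self v m)

/-- The fibre of `t` at `a`. -/
structure Fibre (a : A) where
  /-- the zeros of `t - a` -/
  Z : Finset (Place Qbar S.F)
  /-- the values of `θ` -/
  c : Place Qbar S.F → A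
  mem_iff : ∀ v, v ∈ Z ↔ v ≠ S.pt ∧ TakesVal v co.t (a : Qbar)
  card : Z.card = co.d
  val : ∀ v ∈ Z, TakesVal v co.θ (c v : Qbar)
  colen : ∀ v ∈ Z, S.colen (Finsupp.single v 1) = 1
  loss : ∀ v ∈ Z, S.loss (Finsupp.single v 1) = 0
  tsub : ∀ v ∈ Z,
    co.tb - algebraMap 𝕜 S.Cbar (residue A a) ∈ S.effIdeal' (Finsupp.single v 1)
  inj : ∀ v ∈ Z, ∀ w ∈ Z, residue A (c v) = residue A (c w) → v = w

include hgap in
/-- **Fibres at good residues.** -/
theorem exists_fibre :
    ∃ bad : Finset 𝕜, ∀ a : A, residue A a ∉ bad → Nonempty (Fibre co a) := by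
  classical
  obtain ⟨bad, P, hP⟩ := co.exists_bad hgap
  refine ⟨bad, fun a ha => ?_⟩
  obtain ⟨hdeg, hsep, hrel, hindep⟩ := hP _ ha
  set h : S.F := co.t - algebraMap Qbar S.F (a : Qbar) with hh
  have hhs : (h : LaurentSeries Qbar) = (co.t : LaurentSeries Qbar) -
      algebraMap Qbar (LaurentSeries Qbar) (a : Qbar) := rfl
  set T' : S.Cbar := co.tb - algebraMap 𝕜 S.Cbar (residue A a) with hT'
  have hd2 := co.two_le
  have hred : Red A (residue A) (h : LaurentSeries Qbar) (T' : LaurentSeries 𝕜) := by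
    rw [hhs, hT', AddSubgroupClass.coe_sub, Subalgebra.coe_algebraMap]
    exact co.t_red.sub (red_algebraMap a)
  have hTc : (T' : LaurentSeries 𝕜).coeff (-(co.d : ℤ)) ≠ 0 := by
    rw [hT', AddSubgroupClass.coe_sub, Subalgebra.coe_algebraMap, HahnSeries.coeff_sub,
      algebraMap_laurentSeries_eq_single, HahnSeries.coeff_single_of_ne (by omega), sub_zero]
    exact fun h0 => co.tb_ne (HahnSeries.coeff_order_eq_zero.mp (by rw [co.tb_order]; exact h0))
  have hT0 : (T' : LaurentSeries 𝕜) ≠ 0 := fun h0 => hTc (by rw [h0]; rfl)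
  have hh0 : h ≠ 0 := by
    intro h0
    rw [h0] at hred
    exact hT0 (hred.unique red_zero)
  have hmem : (h : LaurentSeries Qbar) ∈ S.space (S.atPt co.d) := by
    rw [hhs]
    exact Submodule.sub_mem _ co.t_mem (S.algebraMap_mem_space (S.atPt_nonneg (by omega)) _)
  have hordh : ∀ v, -(S.atPt co.d v) ≤ v.ord h := fun v =>
    (S.coe_mem_space.mp hmem v).resolve_left hh0
  have hpt : S.pt.ord h = -(co.d : ℤ) := by
    refine le_antisymm ?_ (by simpa [CurveRed.atPt_self] using hordh S.pt)
    rw [S.ord_pt]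
    refine HahnSeries.order_le_of_coeff_ne_zero fun h0 => hTc ?_
    obtain ⟨h1, h2⟩ := hred (-(co.d : ℤ))
    rw [← h2, show (⟨_, h1⟩ : A) = 0 from Subtype.ext h0, map_zero]
  obtain ⟨Eh, hEh, hEhdeg⟩ := S.exists_div hh0
  set Z0 : Divisor Qbar S.F := Eh + S.atPt co.d with hZ0
  have hZ0eff : S.IsEff Z0 := fun v => by
    rw [hZ0, Finsupp.add_apply, hEh]
    have := hordh v
    omega
  set m : Multiset (Place Qbar S.F) :=
    Z0.support.val.bind fun v => Multiset.replicate (Z0 v).toNat v with hm
  have hcount : ∀ v, (m.count v : ℤ) = Z0 v := by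
    intro v
    have h0 := hZ0eff v
    rw [hm, Multiset.count_bind, ← Finset.sum_eq_multiset_sum, Finset.sum_eq_single v]
    · rw [Multiset.count_replicate_self]
      omega
    · intro w _ hw
      rw [Multiset.count_replicate, if_neg hw]
    · intro hv
      rw [Finsupp.notMem_support_iff.mp hv]
      simp
  have hdiv : divOf m = Z0 := Finsupp.ext fun v => by rw [divOf_apply, hcount]
  have hmpt : ∀ v ∈ m, v ≠ S.pt := by
    rintro v hv rfl
    have h1 : (0 : ℤ) < (m.count S.pt : ℤ) := by exact_mod_cast Multiset.count_pos.mpr hv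
    rw [hcount, hZ0, Finsupp.add_apply, hEh, hpt, CurveRed.atPt_self] at h1
    omega
  have hcard : Multiset.card m = co.d := by
    have h1 := degree_divOf m
    rw [hdiv, hZ0, map_add, hEhdeg, S.degree_atPt, zero_add] at h1
    omega
  have hdivh : ∀ v, v.ord h = Z0 v - S.atPt co.d v := fun v => by
    rw [hZ0, Finsupp.add_apply, hEh]
    ring
  obtain ⟨-, hTo⟩ := CurveRed.degree_and_order_of_div hgap hZ0eff hh0 hdivh hT0 hred
  have hTord : (T' : LaurentSeries 𝕜).order = -(co.d : ℤ) := by
    refine le_antisymm (HahnSeries.order_le_of_coeff_ne_zero hTc) ?_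
    have := (poleLE_iff_order hT0).mp (hred.poleLE (by
      have := S.poleLE_space hmem
      rwa [CurveRed.atPt_self] at this))
    exact this
  have hloss : S.loss Z0 = 0 := by omega
  have hT'mem : T' ∈ S.effIdeal' Z0 := by
    show (T' : LaurentSeries 𝕜) ∈ S.effIdeal Z0
    rw [CurveRed.effIdeal_eq_span hZ0eff hh0 hdivh hT0 hred]
    exact Submodule.mem_span_singleton_self _
  have hspanT : ∀ x ∈ S.effIdeal' Z0, x ∈ Ideal.span {T'} := by
    intro x hx
    have hx' : (x : LaurentSeries 𝕜) ∈ S.effIdeal Z0 := hx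
    rw [CurveRed.effIdeal_eq_span hZ0eff hh0 hdivh hT0 hred, Submodule.mem_span_singleton] at hx'
    obtain ⟨r, hr⟩ := hx'
    refine Ideal.mem_span_singleton.mpr ⟨r, Subtype.ext ?_⟩
    rw [Subalgebra.coe_mul, ← hr, Algebra.smul_def, mul_comm]
    rfl
  have hsingle : ∀ v ∈ m, S.loss (Finsupp.single v 1) = 0 ∧
      T' ∈ S.effIdeal' (Finsupp.single v 1) := by
    intro v hv
    have hsplit : Z0 = Finsupp.single v 1 + divOf (m.erase v) := by
      rw [← hdiv]
      conv_lhs => rw [← Multiset.cons_erase hv]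
      rw [divOf, Multiset.map_cons, Multiset.sum_cons]
      rfl
    have he := CurveRed.isEff_single (S := S) v zero_le_one
    have h1 := CurveRed.loss_add hgap he (isEff_divOf (m.erase v))
    rw [← hsplit, hloss] at h1
    have h2 := CurveRed.loss_nonneg hgap he
    have h3 := CurveRed.loss_nonneg hgap (isEff_divOf (m.erase v))
    refine ⟨by omega, ?_⟩
    have h4 := hT'mem
    rw [hsplit, hgap.effIdeal'_add he (isEff_divOf _)] at h4
    exact Ideal.mul_le_left h4
  have hcolen : ∀ v ∈ m, S.colen (Finsupp.single v 1) = 1 := by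
    intro v hv
    have h1 := (hsingle v hv).1
    rw [CurveRed.loss, Divisor.degree_single, S.deg_one] at h1
    push_cast at h1
    omega
  -- values of `θ`
  have hval : ∀ v : Place Qbar S.F, ∃ c : A, v ∈ m → TakesVal v co.θ (c : Qbar) ∧
      co.θb - algebraMap 𝕜 S.Cbar (residue A c) ∈ S.effIdeal' (Finsupp.single v 1) := by
    intro v
    by_cases hv : v ∈ m
    swap
    · exact ⟨0, fun h => absurd h hv⟩
    have hvpt := hmpt v hv
    have hθord : co.θ = 0 ∨ 0 ≤ v.ord co.θ := by
      refine ((S.coe_mem_space.mp co.θ_mem) v).imp_right fun h' => ?_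
      rw [S.atPt_of_ne _ hvpt, neg_zero] at h'
      exact h'
    obtain ⟨c, hc⟩ := exists_takesVal v hθord
    set n : ℕ := co.d + 1
    have hy : ((co.θ - algebraMap Qbar S.F c : S.F) : LaurentSeries Qbar) ∈
        S.space (S.atPt (n : ℤ) - Finsupp.single v 1) := by
      refine S.coe_mem_space.mpr fun w => ?_
      rcases eq_or_ne (co.θ - algebraMap Qbar S.F c) 0 with h0 | h0
      · exact Or.inl h0
      right
      rw [Finsupp.sub_apply]
      rcases eq_or_ne v w with rfl | hw
      · rw [S.atPt_of_ne _ hvpt, Finsupp.single_eq_same]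
        have := (FF.mem_ordGE_of_ne_zero v h0).mp hc
        omega
      · rw [Finsupp.single_eq_of_ne (Ne.symm hw), sub_zero]
        exact ((S.coe_mem_space.mp (Submodule.sub_mem _ co.θ_mem (S.algebraMap_mem_space
          (S.atPt_nonneg (Int.natCast_nonneg n)) c))) w).resolve_left h0
    have hys : ((co.θ - algebraMap Qbar S.F c : S.F) : LaurentSeries Qbar) =
        (co.θ : LaurentSeries Qbar) - algebraMap Qbar (LaurentSeries Qbar) c := rfl
    have hcA : c ∈ A := by
      by_contra hcA
      have hinv : c⁻¹ ∈ A.nonunits :=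
        A.mem_nonunits_iff_or.mpr (Or.inr (by rwa [inv_inv]))
      have hc0 : c ≠ 0 := fun h0 => hcA (h0 ▸ zero_mem A)
      have hr0 : residue A ⟨c⁻¹, A.nonunits_subset hinv⟩ = 0 := by
        rw [IsLocalRing.residue_eq_zero_iff, ← A.coe_mem_nonunits_iff]
        exact hinv
      have h1 : Red A (residue A) (c⁻¹ • ((co.θ - algebraMap Qbar S.F c : S.F) :
          LaurentSeries Qbar)) (-1) := by
        rw [hys, smul_sub, smul_eq_algebraMap_mul c⁻¹ (algebraMap _ _ c), ← map_mul,
          inv_mul_cancel₀ hc0, map_one]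
        have h2 := (co.θ_red.smul ⟨c⁻¹, A.nonunits_subset hinv⟩).sub (red_one (A := A)
          (π := residue A))
        rw [hr0] at h2
        simpa using h2
      have hone : (1 : S.Cbar) ∈ S.effIdeal' (Finsupp.single v 1) := by
        have h3 : (-1 : LaurentSeries 𝕜) ∈ S.effIdeal (Finsupp.single v 1) :=
          ⟨n, _, Submodule.smul_mem _ _ hy, h1⟩
        show ((1 : S.Cbar) : LaurentSeries 𝕜) ∈ S.effIdeal (Finsupp.single v 1)
        rw [OneMemClass.coe_one, ← neg_neg (1 : LaurentSeries 𝕜)]
        exact Submodule.neg_mem _ h3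
      have htop := (Ideal.eq_top_iff_one _).mpr hone
      have h4 := hcolen v hv
      rw [CurveRed.colen, htop] at h4
      simp [Module.finrank_zero_of_subsingleton] at h4
    refine ⟨⟨c, hcA⟩, fun _ => ⟨hc, ?_⟩⟩
    refine ⟨n, _, hy, ?_⟩
    show Red A (residue A) _
      ((co.θb - algebraMap 𝕜 S.Cbar (residue A ⟨c, hcA⟩) : S.Cbar) : LaurentSeries 𝕜)
    rw [hys, AddSubgroupClass.coe_sub, Subalgebra.coe_algebraMap]
    exact co.θ_red.sub (red_algebraMap ⟨c, hcA⟩)
  choose c hc using hval
  set Q : Polynomial 𝕜 :=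
    (m.map fun v => Polynomial.X - Polynomial.C (residue A (c v))).prod with hQdef
  have hQ : Polynomial.aeval co.θb Q ∈ Ideal.span {T'} :=
    hspanT _ (hdiv ▸ prod_sub_mem hgap _ co.θb m fun v hv => (hc v hv).2)
  have hQmon : Q.Monic := Polynomial.monic_multiset_prod_of_monic _ _ fun v _ =>
    Polynomial.monic_X_sub_C _
  have hQeq : Q = ((m.map fun v => residue A (c v)).map
      (fun r => Polynomial.X - Polynomial.C r)).prod := by
    rw [hQdef, Multiset.map_map]
    rfl
  have hQdeg : Q.natDegree = co.d := by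
    rw [hQeq, Polynomial.natDegree_multiset_prod_X_sub_C_eq_card, Multiset.card_map, hcard]
  set R := P (residue A a) with hR
  have hR0 : R ≠ 0 := fun h0 => by rw [h0, Polynomial.natDegree_zero] at hdeg; omega
  have hdiff : R - Polynomial.C R.leadingCoeff * Q = 0 := by
    refine hindep _ ?_ ?_
    · have hl : R.leadingCoeff ≠ 0 := Polynomial.leadingCoeff_ne_zero.mpr hR0
      have hdR : R.degree = (co.d : WithBot ℕ) := by
        rw [Polynomial.degree_eq_natDegree hR0, hdeg]
      have hdQ : (Polynomial.C R.leadingCoeff * Q).degree = (co.d : WithBot ℕ) := by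
        rw [Polynomial.degree_C_mul hl, Polynomial.degree_eq_natDegree hQmon.ne_zero, hQdeg]
      have h5 := Polynomial.degree_sub_lt_left (hdR.trans hdQ.symm) hR0
        (by rw [Polynomial.leadingCoeff_mul, Polynomial.leadingCoeff_C, hQmon.leadingCoeff,
          mul_one])
      rwa [hdR] at h5
    · rw [map_sub, map_mul]
      exact Ideal.sub_mem _ hrel (Ideal.mul_mem_left _ _ hQ)
  have hQsep : Q.Separable := by
    exact Polynomial.Separable.of_dvd hsep
      ⟨Polynomial.C R.leadingCoeff, (sub_eq_zero.mp hdiff).trans (mul_comm _ _)⟩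
  have hnodup : (m.map fun v => residue A (c v)).Nodup := by
    have h5 := Polynomial.nodup_roots hQsep
    rwa [hQeq, Polynomial.roots_multiset_prod_X_sub_C] at h5
  have hmnodup : m.Nodup := Multiset.Nodup.of_map _ hnodup
  refine ⟨⟨m.toFinset, c, fun v => ?_, ?_, fun v hv => (hc v (Multiset.mem_toFinset.mp hv)).1,
    fun v hv => hcolen v (Multiset.mem_toFinset.mp hv),
    fun v hv => (hsingle v (Multiset.mem_toFinset.mp hv)).1,
    fun v hv => (hsingle v (Multiset.mem_toFinset.mp hv)).2, fun v hv w hw he => ?_⟩⟩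
  · rw [Multiset.mem_toFinset, ← Multiset.count_pos, ← Int.natCast_pos, hcount]
    constructor
    · intro hpos
      have hv : v ≠ S.pt := hmpt v (Multiset.count_pos.mp (by
        rw [← Int.natCast_pos, hcount]; exact hpos))
      refine ⟨hv, (FF.mem_ordGE_of_ne_zero v hh0).mpr ?_⟩
      rw [hdivh, S.atPt_of_ne _ hv]
      omega
    · rintro ⟨hv, hval⟩
      have h5 := (FF.mem_ordGE_of_ne_zero v hh0).mp hval
      rw [hdivh, S.atPt_of_ne _ hv] at h5
      omega
  · rw [Multiset.card_toFinset, Multiset.dedup_eq_self.mpr hmnodup, hcard]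
  · exact Multiset.inj_on_of_nodup_map hnodup v (Multiset.mem_toFinset.mp hv) w
      (Multiset.mem_toFinset.mp hw) he

end Fermat.Agent.FlatModel
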