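import Fermat.Agent.FlatModel.Assemble
import Fermat.Agent.Reduction.Level.Normal
import Fermat.Agent.Kummer.Card
import Fermat.Prelude.Def_ModularCurve_ArithmeticGalois

/-!
# Flat models of finite subgroups of `J₀(N)`

Finite Galois stable subgroups of `J₀(N)`, in particular `J₀(N)[ℓ ^ k]`, have flat models at
primes `ℓ ∤ N` (`nonempty_model_jZero`, `nonempty_model_torsion`).
-/

set_option autoImplicit false

noncomputable section

open AlgebraicCurve ModularCurve IntermediateField

namespace Fermat.Agent.FlatModel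

open Fermat.Agent.Reduction Fermat.Agent.Reduction.Level

/-- Galois actions transport along an equality of function fields. -/
theorem exists_transport_gal {F F' : IntermediateField Qbar (LaurentSeries Qbar)} (h : F = F')
    (γ : GalQ →* SemilinearAut Qbar F')
    (hγ : ∀ σ (y : F'), ((γ σ • y : F') : LaurentSeries Qbar) = cmap σ (y : LaurentSeries Qbar)) :
    ∃ γ' : GalQ →* SemilinearAut Qbar F,
      (∀ σ (y : F), ((γ' σ • y : F) : LaurentSeries Qbar) = cmap σ (y : LaurentSeries Qbar)) ∧
      ∃ e : Pic0 Qbar F' →+ Pic0 Qbar F, Function.Injective e ∧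
        ∀ σ x, e (γ σ • x) = γ' σ • e x := by
  subst h
  exact ⟨γ, hγ, AddMonoidHom.id _, Function.injective_id, fun _ _ => rfl⟩

/-- The torsion of `J₀(N)` is finite. -/
theorem finite_torsion (N : ℕ) [NeZero N] (n : ℕ) [NeZero n] :
    Finite (Pic0.torsion Qbar (modularFunctionFieldBar N) n) :=
  Nat.finite_of_card_ne_zero (by
    rw [Kummer.natCard_torsion]
    exact pow_ne_zero _ (NeZero.ne n))

/-- **Good reduction**: finite Galois stable subgroups of `J₀(N)` have flat models at `ℓ ∤ N`. -/
theorem nonempty_model_jZero {N : ℕ} [NeZero N] {ℓ : ℕ} [Fact ℓ.Prime] (hℓN : ¬ ℓ ∣ N) {G : Type}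
    [AddCommGroup G] [Finite G] (act : GalQ →* AddMonoid.End G) (ι : G →+ JZero N)
    (hι : Function.Injective ι) (hact : ∀ σ x, ι (act σ x) = σ • ι x) :
    Nonempty (Model ℓ act) := by
  obtain ⟨A, hA⟩ := Gal.exists_liesOverPrime (L := Qbar) (Fact.out : ℓ.Prime)
  have := Gal.isAlgClosed_residueField A
  obtain ⟨n₀, hgap⟩ := exists_gapBound_qbar A hA N hℓN
  have hF : (qbarCurve A hA N hℓN).F = modularFunctionFieldBar N :=
    (modularFunctionFieldBar_eq_fullC (N := N)).symm
  obtain ⟨γ', hγ', e, he, hee⟩ := exists_transport_gal hF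
    (arithmeticGalois (modularFunctionFieldFull N)) fun σ y => rfl
  exact nonempty_model_of_curveRed (ℓ := ℓ) hA hgap ⟨γ', hγ'⟩ act (e.comp ι) (he.comp hι)
    fun σ x => by
      rw [AddMonoidHom.comp_apply, hact, galois_smul_pic0_def, hee]
      rfl

/-- The Galois action on `n`-torsion. -/
def torsAct (N : ℕ) (n : ℤ) :
    GalQ →* AddMonoid.End (Submodule.torsionBy ℤ (JZero N) n) where
  toFun σ :=
    { toFun := fun x => ⟨σ • (x : JZero N), (Submodule.mem_torsionBy_iff _ _).mpr (by
        have h : n • (σ • (x : JZero N)) = σ • (n • (x : JZero N)) :=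
          (map_zsmul (DistribSMul.toAddMonoidHom (JZero N) σ) n _).symm
        rw [h, (Submodule.mem_torsionBy_iff _ _).mp x.2, smul_zero])⟩
      map_zero' := Subtype.ext (smul_zero σ)
      map_add' := fun x y => Subtype.ext (smul_add σ _ _) }
  map_one' := AddMonoidHom.ext fun x => Subtype.ext (one_smul GalQ (x : JZero N))
  map_mul' σ τ := AddMonoidHom.ext fun x => Subtype.ext (mul_smul σ τ (x : JZero N))

/-- The flat model of `J₀(N)[ℓ^k]`. -/
theorem nonempty_model_torsion {N : ℕ} [NeZero N] {ℓ : ℕ} [Fact ℓ.Prime] (hℓN : ¬ ℓ ∣ N) (k : ℕ) :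
    Nonempty (Model ℓ (torsAct N ((ℓ : ℤ) ^ k))) := by
  have : NeZero (ℓ ^ k) := ⟨pow_ne_zero k (Fact.out : ℓ.Prime).ne_zero⟩
  have hfin : Finite (Submodule.torsionBy ℤ (JZero N) ((ℓ : ℤ) ^ k)) := by
    have h := finite_torsion N (ℓ ^ k)
    exact Finite.of_injective (β := Pic0.torsion Qbar (modularFunctionFieldBar N) (ℓ ^ k))
      (fun x => ⟨(x : JZero N), Pic0.mem_torsion.mpr (by
        rw [Nat.cast_pow]
        exact (Submodule.mem_torsionBy_iff _ _).mp x.2)⟩)
      fun x y h => Subtype.ext (congrArg Subtype.val h)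
  exact nonempty_model_jZero hℓN _ (Submodule.torsionBy ℤ (JZero N) _).subtype.toAddMonoidHom
    Subtype.val_injective fun σ x => rfl

end Fermat.Agent.FlatModel
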