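import Fermat.Agent.FlatModel.Transfer
import Fermat.Agent.FlatModel.JZero
import Fermat.Agent.HeckeDatum.FromDatum
import Fermat.Agent.GalRep.DatumJZero
import Fermat.Prelude.Def_GaloisRep_Flat

/-!
# Flatness of the representation of a Hecke–Galois datum

The quotients `V ⧸ I V` of finite length are cut out of powers of `J₀(N)[p^m]` by the relations
between Galois elements with Hecke coefficients, so they have finite flat models at `p ∤ N`.

Main result: `isFlatAt_of_torsionReduction`.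
-/

set_option autoImplicit false

noncomputable section

namespace Fermat.Agent.FlatModel

open IsLocalRing CuspForm

/-- Linear endomorphisms as additive ones. -/
def endToAddEnd (M : Type) [AddCommGroup M] : Module.End ℤ M →+* AddMonoid.End M where
  toFun f := f.toAddMonoidHom
  map_one' := rfl
  map_mul' _ _ := rfl
  map_zero' := rfl
  map_add' _ _ := rfl

section Level

variable {A : Type} [CommRing A] [IsLocalRing A]

/-- The Galois action on `V ⧸ I V` as additive endomorphisms. -/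
def levelEnd (ρ : GaloisRepAdic A) (I : Ideal A) :
    GalQ →* AddMonoid.End (ρ.V ⧸ (I • (⊤ : Submodule A ρ.V))) where
  toFun σ := (ρ.levelAction I σ).toAddMonoidHom
  map_one' := AddMonoidHom.ext fun x => by
    obtain ⟨v, rfl⟩ := Submodule.Quotient.mk_surjective _ x
    show ρ.levelAction I 1 (Submodule.Quotient.mk v) = Submodule.Quotient.mk v
    rw [GaloisRepAdic.levelAction, Submodule.mapQ_apply, map_one, Module.End.one_apply]
  map_mul' σ τ := AddMonoidHom.ext fun x => by
    obtain ⟨v, rfl⟩ := Submodule.Quotient.mk_surjective _ x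
    show ρ.levelAction I (σ * τ) (Submodule.Quotient.mk v) =
      ρ.levelAction I σ (ρ.levelAction I τ (Submodule.Quotient.mk v))
    simp only [GaloisRepAdic.levelAction, Submodule.mapQ_apply, map_mul, Module.End.mul_apply]

/-- `V ⧸ I V` is finite when `A ⧸ I` is. -/
theorem finite_level (ρ : GaloisRepAdic A) (I : Ideal A) [Finite (A ⧸ I)] :
    Finite (ρ.V ⧸ (I • (⊤ : Submodule A ρ.V))) := by
  have : Module.Finite (A ⧸ I) (ρ.V ⧸ (I • (⊤ : Submodule A ρ.V))) :=
    Module.Finite.of_restrictScalars_finite A _ _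
  exact Module.finite_of_finite (A ⧸ I)

end Level

variable {p : ℕ} {N : ℕ} [NeZero N] {S : Finset ℕ}
  {𝒪 : Type} [CommRing 𝒪] [IsDomain 𝒪] [IsDiscreteValuationRing 𝒪]
  [IsAdicComplete (maximalIdeal 𝒪) 𝒪]
  {θ : heckeAlgebra N 2 (↑S : Set ℕ) →+* ResidueField 𝒪}
  {T : Type} [CommRing T] [IsLocalRing T] [IsNoetherianRing T]
  [IsAdicComplete (maximalIdeal T) T] [Algebra 𝒪 T] [IsLocalHom (algebraMap 𝒪 T)]
  [Module.Finite 𝒪 T] [Module.Free 𝒪 T]

/-- The coordinates of `J₀(N)[n]` as a map into `J₀(N)`. -/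
def coordEmb (N : ℕ) [NeZero N] (n : ℕ) [NeZero n] :
    (Fin (Cosets.homRank N) → ZMod n) →+ ModularCurve.JZero N :=
  (Kummer.Tors N n).subtype.comp (GalRep.torsCoord N n).symm.toLinearMap.toAddMonoidHom

theorem coordEmb_injective (N : ℕ) [NeZero N] (n : ℕ) [NeZero n] :
    Function.Injective (coordEmb N n) :=
  Subtype.val_injective.comp (GalRep.torsCoord N n).symm.injective

theorem coordEmb_torsRho (N : ℕ) [NeZero N] (n : ℕ) [NeZero n] (σ : GalQ)
    (x : Fin (Cosets.homRank N) → ZMod n) :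
    coordEmb N n (Matrix.mulVec (GalRep.torsRho N n σ) x) = σ • coordEmb N n x := by
  obtain ⟨y, rfl⟩ := (GalRep.torsCoord N n).surjective x
  show ((GalRep.torsCoord N n).symm _ : Kummer.Tors N n).1 = σ • ((GalRep.torsCoord N n).symm _).1
  rw [GalRep.torsRho_mulVec, LinearEquiv.symm_apply_apply, LinearEquiv.symm_apply_apply,
    ← ModularCurve.JZero.coe_torsionGaloisRep_apply]

/-- **Flatness at `p ∤ N`** of the representation of a Hecke–Galois datum. -/
theorem isFlatAt_of_torsionReduction [Finite (ResidueField 𝒪)] (hp : p.Prime)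
    (hp𝒪 : (p : 𝒪) ∈ maximalIdeal 𝒪) (hpN : ¬ p ∣ N) (hred : GalRep.TorsionReduction N p)
    (H : HeckeGaloisRepDatum N (↑S : Set ℕ) 𝒪 θ T) : H.ρ.IsFlatAt p := by
  have : NeZero p := ⟨hp.ne_zero⟩
  have : Fact p.Prime := ⟨hp⟩
  refine ⟨?_, fun I hI => ?_⟩
  · refine Finite.of_surjective (ResidueField.map (algebraMap 𝒪 T)) fun y => ?_
    obtain ⟨a, rfl⟩ := H.residue_surjective y
    exact ⟨residue 𝒪 a, rfl⟩
  obtain ⟨k, hk⟩ := exists_maximalIdeal_pow_le_of_isArtinianRing_quotient I
  have := finite_level H.ρ I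
  let D := GalRep.jZeroDatum N p hred
  obtain ⟨m, hm⟩ := HeckeDatum.ofDatum_ker hp D (↑S : Set ℕ) k
  let X := HeckeDatum.ofDatum hp D (↑S : Set ℕ) m
  have hker : ∀ t, X.hecke t = 0 → H.π t ∈ maximalIdeal T ^ k := fun t ht => by
    obtain ⟨u, rfl⟩ := hm t ht
    rw [nsmul_eq_mul, map_mul, map_natCast, Nat.cast_pow]
    exact Ideal.mul_mem_right _ _
      (Ideal.pow_mem_pow (HeckeDatum.natCast_mem_maximalIdeal hp𝒪) k)
  have : NeZero (p ^ m) := ⟨pow_ne_zero m hp.ne_zero⟩
  let act : GalQ →* AddMonoid.End (Fin (Cosets.homRank N) → ZMod (p ^ m)) :=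
    (endToAddEnd _).toMonoidHom.comp X.act
  let h : heckeAlgebra N 2 (↑S : Set ℕ) →+* AddMonoid.End (Fin (Cosets.homRank N) → ZMod (p ^ m)) :=
    (endToAddEnd _).comp X.hecke
  let g : heckeAlgebra N 2 (↑S : Set ℕ) →+*
      AddMonoid.End (H.ρ.V ⧸ (I • (⊤ : Submodule T H.ρ.V))) :=
    (Module.toAddMonoidEnd T _).comp H.π
  obtain ⟨MM⟩ := nonempty_model_jZero (ℓ := p) hpN act (coordEmb N (p ^ m))
    (coordEmb_injective N (p ^ m)) fun σ x => coordEmb_torsRho N (p ^ m) σ x
  have hrel : ∀ (s : Finset (heckeAlgebra N 2 (↑S : Set ℕ) × GalQ))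
      (c : heckeAlgebra N 2 (↑S : Set ℕ) × GalQ → heckeAlgebra N 2 (↑S : Set ℕ)),
      ∑ q ∈ s, h (c q) * act q.2 = 0 → ∑ q ∈ s, g (c q) * levelEnd H.ρ I q.2 = 0 := by
    intro s c hc
    have hx : ∑ q ∈ s, X.hecke (c q) * X.act q.2 = 0 := by
      have hinj : Function.Injective (endToAddEnd X.M) :=
        fun f f' hff => LinearMap.toAddMonoidHom_injective hff
      refine hinj ?_
      rw [map_sum, map_zero]
      exact hc
    refine AddMonoidHom.ext fun x => ?_
    obtain ⟨v, rfl⟩ := Submodule.Quotient.mk_surjective _ x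
    have hv := Submodule.smul_mono_left hk
      (HeckeDatum.sum_smul_apply_mem hp S.finite_toSet H X k hker s c (fun q => q.2) hx v)
    rw [← Submodule.Quotient.mk_eq_zero, LinearMap.sum_apply, ← Submodule.mkQ_apply, map_sum] at hv
    show (∑ q ∈ s, g (c q) * levelEnd H.ρ I q.2) (Submodule.Quotient.mk v) = 0
    refine Eq.trans ?_ hv
    exact AddMonoidHom.finsetSum_apply _ _ _
  obtain ⟨MQ⟩ := nonempty_model_of_relations act (levelEnd H.ρ I) h g MM
    (fun t σ => (X.comm t σ).map (endToAddEnd _))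
    (fun t σ => AddMonoidHom.ext fun x =>
      (LinearMap.map_smul (H.ρ.levelAction I σ) (H.π t) x).symm) hrel
  exact MQ.exists_hopfAlgebra

end Fermat.Agent.FlatModel
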