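import Fermat.Agent.FlatModel.LinAlg
import Fermat.Agent.FlatModel.Lattice
import Fermat.Agent.Reduction.Torsion
import Fermat.Agent.Gal.Residue

/-!
# Bases over an algebra of functions for families of spaces of series

`Frame B W r` is a basis of the family `W z` whose coefficients are functions in `B` and whose
reductions stay independent. Images and colon spaces of frames with constant residual rank have
frames.

Main results: `exists_frame_of_image`, `exists_frame_of_colon`, `exists_normalised` and
`exists_frame_top`.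
-/

set_option autoImplicit false

noncomputable section

open HahnSeries IsLocalRing Matrix

namespace Fermat.Agent.FlatModel

open Fermat.Agent.Reduction

variable {Z : Type*} {A : ValuationSubring Qbar} {B : Subalgebra A (Z → A)}

local notation "𝕜" => ResidueField A

/-- All coefficients of the family are functions in `B`. -/
def CoeffIn (B : Subalgebra A (Z → A)) (y : Z → LaurentSeries Qbar) : Prop :=
  ∀ i, ∃ b : B, ∀ z, valB B z b = (y z).coeff i

theorem valB_algebraMap (z : Z) (a : A) : valB B z (algebraMap A B a) = (a : Qbar) := rfl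

theorem coeff_red {y : LaurentSeries Qbar} {x : LaurentSeries 𝕜} (h : Red A (residue A) y x)
    {z : Z} {i : ℤ} {b : B} (hb : valB B z b = y.coeff i) : resB B z b = x.coeff i := by
  obtain ⟨h1, h2⟩ := h i
  rw [← h2]
  exact congrArg (residue A) (Subtype.ext hb)

theorem CoeffIn.const {y : LaurentSeries Qbar} {x : LaurentSeries 𝕜}
    (h : Red A (residue A) y x) : CoeffIn B fun _ => y := fun i =>
  ⟨algebraMap A B ⟨_, h.coeff_mem i⟩, fun _ => rfl⟩

theorem CoeffIn.zero : CoeffIn B fun _ => 0 := fun _ => ⟨0, fun z => by simp⟩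

theorem CoeffIn.sum {ι : Type*} (s : Finset ι) {y : ι → Z → LaurentSeries Qbar}
    (h : ∀ j ∈ s, CoeffIn B (y j)) : CoeffIn B fun z => ∑ j ∈ s, y j z := by
  classical
  induction s using Finset.induction with
  | empty => simpa using CoeffIn.zero
  | insert a s ha ih =>
    intro i
    obtain ⟨b, hb⟩ := h a (Finset.mem_insert_self a s) i
    obtain ⟨c, hc⟩ := ih (fun j hj => h j (Finset.mem_insert_of_mem hj)) i
    refine ⟨b + c, fun z => ?_⟩
    show valB B z (b + c) = (∑ j ∈ insert a s, y j z).coeff i
    rw [map_add, hb z, hc z, Finset.sum_insert ha, HahnSeries.coeff_add]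

theorem CoeffIn.smul (b : B) {y : Z → LaurentSeries Qbar} (h : CoeffIn B y) :
    CoeffIn B fun z => valB B z b • y z := fun i => by
  obtain ⟨c, hc⟩ := h i
  exact ⟨b * c, fun z => by rw [map_mul, hc z, coeff_smulC]⟩

variable {V V' : Submodule Qbar (LaurentSeries Qbar)} {R R' : ℕ}

theorem CoeffIn.mul (b : LatBasis (A := A) (π := residue A) IsLocalRing.residue_surjective V R)
    (b' : LatBasis (A := A) (π := residue A) IsLocalRing.residue_surjective V' R')
    {y y' : Z → LaurentSeries Qbar} (h : CoeffIn B y) (h' : CoeffIn B y') (hy : ∀ z, y z ∈ V)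
    (hy' : ∀ z, y' z ∈ V') : CoeffIn B fun z => y z * y' z := by
  choose c hc using fun j => h (b.idx j)
  choose c' hc' using fun j => h' (b'.idx j)
  have heq : (fun z => y z * y' z) = fun z =>
      ∑ p : Fin R × Fin R', valB B z (c p.1 * c' p.2) • (b.vec p.1 * b'.vec p.2) := by
    funext z
    conv_lhs => rw [← b.sum_vec (hy z), ← b'.sum_vec (hy' z)]
    rw [Finset.sum_mul_sum, ← Fintype.sum_prod_type']
    refine Finset.sum_congr rfl fun p _ => ?_
    rw [map_mul, hc, hc', smul_eq_algebraMap_mul, smul_eq_algebraMap_mul, smul_eq_algebraMap_mul,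
      map_mul]
    ring
  rw [heq]
  exact CoeffIn.sum _ fun p _ =>
    (CoeffIn.const ((b.red p.1).mul (b'.red p.2))).smul _

variable (B) in
/-- A basis over `B` with independent reductions. -/
structure Frame (W : Z → Submodule Qbar (LaurentSeries Qbar)) (r : ℕ) where
  /-- the vectors -/
  vec : Fin r → Z → LaurentSeries Qbar
  /-- their reductions -/
  rvec : Fin r → Z → LaurentSeries 𝕜
  coeff : ∀ j, CoeffIn B (vec j)
  mem : ∀ j z, vec j z ∈ W z
  red : ∀ j z, Red A (residue A) (vec j z) (rvec j z)
  li : ∀ z, LinearIndependent 𝕜 fun j => rvec j z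
  fin : ∀ z, FiniteDimensional Qbar (W z)
  finrank : ∀ z, Module.finrank Qbar (W z) = r

namespace Frame

variable {W : Z → Submodule Qbar (LaurentSeries Qbar)} {r : ℕ} (F : Frame B W r)

theorem span_rvec (hπ : Function.Surjective (residue A)) (z : Z) :
    redSub hπ (W z) = Submodule.span 𝕜 (Set.range fun j => F.rvec j z) := by
  have := F.fin z
  obtain ⟨hfd, hle⟩ := finiteDimensional_redSub hπ (W z)
  have := hfd
  symm
  refine Submodule.eq_of_le_of_finrank_le (Submodule.span_le.mpr ?_) ?_
  · rintro _ ⟨j, rfl⟩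
    exact ⟨_, F.mem j z, F.red j z⟩
  · rw [finrank_span_eq_card (F.li z), Fintype.card_fin, ← F.finrank z]
    exact hle

end Frame

variable (b : LatBasis (A := A) (π := residue A) IsLocalRing.residue_surjective V R)

include b in
theorem finite_of_latBasis : FiniteDimensional Qbar V :=
  FiniteDimensional.of_injective ((coeffsAt b.idx).comp V.subtype) fun x y h => by
    refine sub_eq_zero.mp (Subtype.ext (b.eq_zero _ (x - y).2 fun l => ?_))
    rw [AddSubgroupClass.coe_sub, HahnSeries.coeff_sub, sub_eq_zero]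
    exact congrFun h l

theorem finrank_map_coeffs {W : Submodule Qbar (LaurentSeries Qbar)} (hW : W ≤ V) :
    Module.finrank Qbar (W.map (coeffsAt b.idx)) = Module.finrank Qbar W := by
  refine (LinearEquiv.finrank_eq (LinearEquiv.ofBijective
    (((coeffsAt b.idx).domRestrict W).codRestrict (W.map (coeffsAt b.idx))
      fun x => Submodule.mem_map_of_mem x.2) ⟨fun x y hxy => ?_, ?_⟩)).symm
  · refine sub_eq_zero.mp (Subtype.ext (b.eq_zero _ (hW (x - y).2) fun l => ?_))
    have h1 : coeffsAt b.idx (x : LaurentSeries Qbar) l = coeffsAt b.idx y l :=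
      congrFun (congrArg Subtype.val hxy) l
    rw [AddSubgroupClass.coe_sub, HahnSeries.coeff_sub, sub_eq_zero]
    exact h1
  · rintro ⟨_, w, hw, rfl⟩
    exact ⟨⟨w, hw⟩, rfl⟩

/-- The coordinate matrix of a family. -/
theorem exists_coordMatrix {q : Type*} {y : q → Z → LaurentSeries Qbar}
    (hy : ∀ j, CoeffIn B (y j)) :
    ∃ P : Matrix (Fin R) q B, ∀ l j z, valB B z (P l j) = (y j z).coeff (b.idx l) := by
  choose c hc using fun l j => hy j (b.idx l)
  exact ⟨Matrix.of c, hc⟩

omit b in
theorem colSpace_eq_span {n q : Type*} [Fintype q] (P : Matrix n q B) (z : Z) :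
    colSpace P z = Submodule.span Qbar (Set.range fun j => (fun l => valB B z (P l j))) :=
  Matrix.range_mulVecLin _

omit b in
theorem resRange_eq_span {n q : Type*} [Fintype q] (P : Matrix n q B) (z : Z) :
    LinearMap.range (P.map (resB B z)).mulVecLin =
      Submodule.span 𝕜 (Set.range fun j => (fun l => resB B z (P l j))) :=
  Matrix.range_mulVecLin _

theorem map_span_coeffs {q : Type*} (x : q → LaurentSeries 𝕜) :
    (Submodule.span 𝕜 (Set.range x)).map (coeffsAt b.idx) =
      Submodule.span 𝕜 (Set.range fun j => coeffsAt b.idx (x j)) := by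
  rw [Submodule.map_span, ← Set.range_comp]
  rfl

theorem finrank_map_coeffs_red {X : Submodule 𝕜 (LaurentSeries 𝕜)}
    (hX : X ≤ redSub IsLocalRing.residue_surjective V) :
    Module.finrank 𝕜 (X.map (coeffsAt b.idx)) = Module.finrank 𝕜 X := by
  refine (LinearEquiv.finrank_eq (LinearEquiv.ofBijective
    (((coeffsAt b.idx).domRestrict X).codRestrict (X.map (coeffsAt b.idx))
      fun x => Submodule.mem_map_of_mem x.2) ⟨fun x y hxy => ?_, ?_⟩)).symm
  · refine sub_eq_zero.mp (Subtype.ext (b.red_eq_zero _ (hX (x - y).2) fun l => ?_))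
    have h1 : coeffsAt b.idx (x : LaurentSeries 𝕜) l = coeffsAt b.idx y l :=
      congrFun (congrArg Subtype.val hxy) l
    rw [AddSubgroupClass.coe_sub, HahnSeries.coeff_sub, sub_eq_zero]
    exact h1
  · rintro ⟨_, w, hw, rfl⟩
    exact ⟨⟨w, hw⟩, rfl⟩

/-- A chart of the coordinates gives a frame. -/
theorem exists_frame_of_isChart [Finite Z] {W : Z → Submodule Qbar (LaurentSeries Qbar)} {r : ℕ}
    (hWV : ∀ z, W z ≤ V) (hfin : ∀ z, FiniteDimensional Qbar (W z))
    (hr : ∀ z, Module.finrank Qbar (W z) = r) {T : Matrix (Fin r) (Fin R) A}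
    {C : Matrix (Fin R) (Fin r) B}
    (h : IsChart (fun z => (W z).map (coeffsAt b.idx)) T C) : Nonempty (Frame B W r) := by
  refine ⟨⟨fun j z => ∑ l, valB B z (C l j) • b.vec l,
    fun j z => ∑ l, resB B z (C l j) • b.rvec l,
    fun j => CoeffIn.sum _ fun l _ => (CoeffIn.const (b.red l)).smul _, fun j z => ?_,
    fun j z => b.red_sum fun l => evalB B z (C l j), fun z => ?_, hfin, hr⟩⟩
  · have hmem : (fun l => valB B z (C l j)) ∈ (W z).map (coeffsAt b.idx) := by
      rw [← h.space z, colSpace_eq_span]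
      exact Submodule.subset_span ⟨j, rfl⟩
    obtain ⟨w, hw, hwe⟩ := hmem
    have hwe' : ∀ l, valB B z (C l j) = w.coeff (b.idx l) := fun l => (congrFun hwe l).symm
    show ∑ l, valB B z (C l j) • b.vec l ∈ W z
    simp only [hwe']
    rw [b.sum_vec (hWV z hw)]
    exact hw
  · rw [Fintype.linearIndependent_iff]
    intro g hg
    have h1 : (T.map (residue A) * C.map (resB B z)) *ᵥ g = g := by
      rw [← map_algebraMap_res (B := B) T z, ← Matrix.map_mul, h.mul_eq,
        Matrix.map_one _ (map_zero _) (map_one _), Matrix.one_mulVec]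
    have h2 : (C.map (resB B z)) *ᵥ g = 0 := by
      funext l
      have h3 := congrArg (fun x : LaurentSeries 𝕜 => x.coeff (b.idx l)) hg
      simp only [HahnSeries.coeff_sum, coeff_smulC, HahnSeries.coeff_zero] at h3
      rw [Pi.zero_apply, ← h3]
      simp only [Matrix.mulVec, dotProduct, Matrix.map_apply]
      refine Finset.sum_congr rfl fun j _ => ?_
      rw [Finset.sum_eq_single l, b.rvec_coeff, if_pos rfl, mul_one, mul_comm]
      · intro l' _ hl'
        rw [b.rvec_coeff, if_neg (Ne.symm hl'), mul_zero]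
      · exact fun hl => absurd (Finset.mem_univ l) hl
    rw [← Matrix.mulVec_mulVec, h2, Matrix.mulVec_zero] at h1
    exact fun j => congrFun h1.symm j

variable [Finite Z] [Infinite (ResidueField A)] {r₁ : ℕ}

include b in
/-- **Image.** Sections with full residual rank give a frame. -/
theorem exists_frame_of_image {W : Z → Submodule Qbar (LaurentSeries Qbar)} {r : ℕ}
    (hWV : ∀ z, W z ≤ V) (hfin : ∀ z, FiniteDimensional Qbar (W z))
    (hr : ∀ z, Module.finrank Qbar (W z) = r) {q : Type*} [Fintype q]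
    (y : q → Z → LaurentSeries Qbar) (x : q → Z → LaurentSeries 𝕜) (hy : ∀ j, CoeffIn B (y j))
    (hmem : ∀ j z, y j z ∈ W z) (hred : ∀ j z, Red A (residue A) (y j z) (x j z))
    (hrank : ∀ z, r ≤ Module.finrank 𝕜 (Submodule.span 𝕜 (Set.range fun j => x j z))) :
    Nonempty (Frame B W r) := by
  obtain ⟨P, hP⟩ := exists_coordMatrix b hy
  obtain ⟨T₀, hT₀⟩ := exists_chart_of_image (W := fun z => (W z).map (coeffsAt b.idx))
    (r := Fin r) P
    (fun z => by
      rw [colSpace_eq_span, Submodule.span_le]
      rintro _ ⟨j, rfl⟩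
      exact ⟨y j z, hmem j z, funext fun l => (hP l j z).symm⟩)
    (fun z => by rw [finrank_map_coeffs b (hWV z), hr z, Fintype.card_fin])
    (fun z => by
      have he : (fun j => (fun l => resB B z (P l j))) = fun j => coeffsAt b.idx (x j z) :=
        funext fun j => funext fun l => coeff_red (hred j z) (hP l j z)
      rw [resRange_eq_span, he, ← map_span_coeffs, finrank_map_coeffs_red b, Fintype.card_fin]
      · exact hrank z
      · rw [Submodule.span_le]
        rintro _ ⟨j, rfl⟩
        exact ⟨y j z, hWV z (hmem j z), hred j z⟩)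
  choose sl hsl using fun c : 𝕜 => residue_surjective c
  obtain ⟨C, hC⟩ := hT₀ (T₀.map sl) (Matrix.ext fun i j => hsl _)
  exact exists_frame_of_isChart b hWV hfin hr hC

/-- The part of `X` multiplied into `Y` by the `a i`. -/
def colonSub {q : Type*} (X Y : Submodule 𝕜 (LaurentSeries 𝕜)) (a : q → LaurentSeries 𝕜) :
    Submodule 𝕜 (LaurentSeries 𝕜) :=
  X ⊓ ⨅ i, Y.comap (mulLin (a i))

omit [Infinite (ResidueField A)] in
theorem mem_colonSub {q : Type*} {X Y : Submodule 𝕜 (LaurentSeries 𝕜)}
    {a : q → LaurentSeries 𝕜} {x : LaurentSeries 𝕜} :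
    x ∈ colonSub X Y a ↔ x ∈ X ∧ ∀ i, a i * x ∈ Y := by
  simp [colonSub, mulLin]

include b in
/-- **Colon.** The sections multiplied by the `a i` into a frame form a frame, if residually they
form a space of no larger dimension. -/
theorem exists_frame_of_colon [Nonempty Z]
    (b' : LatBasis (A := A) (π := residue A) IsLocalRing.residue_surjective V' R')
    {W W' : Z → Submodule Qbar (LaurentSeries Qbar)} {r r' : ℕ} (F : Frame B W' r')
    (hW'V : ∀ z, W' z ≤ V') (hWV : ∀ z, W z ≤ V) (hfin : ∀ z, FiniteDimensional Qbar (W z))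
    (hr : ∀ z, Module.finrank Qbar (W z) = r) {q : Type*} [Fintype q]
    {Va : Submodule Qbar (LaurentSeries Qbar)} {Ra : ℕ}
    (ba : LatBasis (A := A) (π := residue A) IsLocalRing.residue_surjective Va Ra)
    (a : q → Z → LaurentSeries Qbar) (ar : q → Z → LaurentSeries 𝕜) (ha : ∀ i, CoeffIn B (a i))
    (haV : ∀ i z, a i z ∈ Va) (har : ∀ i z, Red A (residue A) (a i z) (ar i z))
    (hmul : ∀ w ∈ Va, ∀ u ∈ V, w * u ∈ V')
    (hW : ∀ z, ∀ u ∈ W z, ∀ i, a i z * u ∈ W' z)
    (hres : ∀ z, Module.finrank 𝕜 (colonSub (redSub IsLocalRing.residue_surjective V)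
      (Submodule.span 𝕜 (Set.range fun j => F.rvec j z)) fun i => ar i z) ≤ r) :
    Nonempty (Frame B W r) := by
  classical
  have := finite_of_latBasis b
  have hrR : r ≤ R := by
    obtain ⟨z⟩ := ‹Nonempty Z›
    rw [← hr z, ← b.finrank_eq]
    exact Submodule.finrank_mono (hWV z)
  obtain ⟨P', hP'⟩ := exists_coordMatrix b' F.coeff
  have hres' : ∀ z, Submodule.span 𝕜 (Set.range fun j => F.rvec j z) ≤
      redSub IsLocalRing.residue_surjective V' := fun z => by
    rw [Submodule.span_le]
    rintro _ ⟨j, rfl⟩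
    exact ⟨_, hW'V z (F.mem j z), F.red j z⟩
  have hP'red : ∀ z, (fun j => fun l => resB B z (P' l j)) =
      fun j => coeffsAt b'.idx (F.rvec j z) :=
    fun z => funext fun j => funext fun l => coeff_red (F.red j z) (hP' l j z)
  obtain ⟨T₀, hT₀⟩ := exists_chart_of_image (W := fun z => (W' z).map (coeffsAt b'.idx))
    (r := Fin r') P'
    (fun z => by
      rw [colSpace_eq_span, Submodule.span_le]
      rintro _ ⟨j, rfl⟩
      exact ⟨F.vec j z, F.mem j z, funext fun l => (hP' l j z).symm⟩)
    (fun z => by rw [finrank_map_coeffs b' (hW'V z), F.finrank z, Fintype.card_fin])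
    (fun z => by
      rw [resRange_eq_span, hP'red, ← map_span_coeffs, finrank_map_coeffs_red b' (hres' z),
        finrank_span_eq_card (F.li z)])
  choose sl hsl using fun c : 𝕜 => residue_surjective c
  obtain ⟨C', hC'⟩ := hT₀ (T₀.map sl) (Matrix.ext fun i j => hsl _)
  set T' : Matrix (Fin r') (Fin R') A := T₀.map sl
  -- the columns of `P'` are combinations of those of `C'`
  have hP'C : P' = C' * (T'.map (algebraMap A B) * P') := by
    refine Matrix.ext fun l j => Subtype.ext (funext fun z => Subtype.ext ?_)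
    obtain ⟨x, hx⟩ : (fun l => valB B z (P' l j)) ∈ colSpace C' z := by
      rw [hC'.space z]
      exact ⟨F.vec j z, F.mem j z, funext fun l => (hP' l j z).symm⟩
    have h1 : (T'.map A.subtype) *ᵥ (fun l => valB B z (P' l j)) = x := by
      rw [← hx, Matrix.mulVecLin_apply, Matrix.mulVec_mulVec, ← map_algebraMap_val (B := B) T' z,
        ← Matrix.map_mul, hC'.mul_eq, Matrix.map_one _ (map_zero _) (map_one _), Matrix.one_mulVec]
    show valB B z (P' l j) = valB B z ((C' * (T'.map (algebraMap A B) * P')) l j)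
    rw [← congrFun hx l, Matrix.mul_apply, map_sum, Matrix.mulVecLin_apply]
    simp only [Matrix.mulVec, dotProduct, Matrix.map_apply]
    refine Finset.sum_congr rfl fun c _ => ?_
    rw [map_mul, ← h1, Matrix.mul_apply, map_sum]
    simp only [Matrix.mulVec, dotProduct]
    refine congrArg _ (Finset.sum_congr rfl fun d _ => ?_)
    rw [map_mul]
    rfl
  have hC'red : ∀ z, LinearMap.range (C'.map (resB B z)).mulVecLin =
      (Submodule.span 𝕜 (Set.range fun j => F.rvec j z)).map (coeffsAt b'.idx) := by
    intro z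
    symm
    refine Submodule.eq_of_le_of_finrank_le ?_ ?_
    · rw [map_span_coeffs, ← hP'red, ← resRange_eq_span]
      conv_lhs => rw [hP'C, Matrix.map_mul, Matrix.mulVecLin_mul]
      exact LinearMap.range_comp_le_range _ _
    · rw [finrank_map_coeffs_red b' (hres' z), finrank_span_eq_card (F.li z)]
      exact (LinearMap.finrank_range_le _).trans_eq (Module.finrank_fintype_fun_eq_card _)
  -- the equations
  choose c hc using fun (i : q) (l' : Fin R') (l : Fin R) =>
    (CoeffIn.mul ba b (ha i) (CoeffIn.const (b.red l)) (haV i) fun _ => b.mem l) (b'.idx l')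
  let Cm : q → Matrix (Fin R') (Fin R) B := fun i => Matrix.of (c i)
  set E : Matrix (Fin R') (Fin R') B := 1 - C' * T'.map (algebraMap A B) with hE
  let Meq : Matrix (q × Fin R') (Fin R) B := Matrix.of fun p l => (E * Cm p.1) p.2 l
  have hprod : ∀ (i : q) (z : Z) (u : Fin R → Qbar),
      ((Cm i).map (valB B z)) *ᵥ u = coeffsAt b'.idx (a i z * ∑ l, u l • b.vec l) := by
    intro i z u
    funext l'
    rw [coeffsAt_apply, Finset.mul_sum, HahnSeries.coeff_sum]
    simp only [Matrix.mulVec, dotProduct, Matrix.map_apply, Cm, Matrix.of_apply, hc]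
    refine Finset.sum_congr rfl fun l _ => ?_
    rw [smul_eq_algebraMap_mul (u l), mul_left_comm, ← smul_eq_algebraMap_mul, coeff_smulC,
      mul_comm]
  have hEmap : ∀ (z : Z), E.map (valB B z) = 1 - C'.map (valB B z) * T'.map A.subtype := by
    intro z
    rw [hE, Matrix.map_sub _ (map_sub _), Matrix.map_one _ (map_zero _) (map_one _),
      Matrix.map_mul, map_algebraMap_val]
  obtain ⟨T₁, hT₁⟩ := exists_chart_of_kernel (W := fun z => (W z).map (coeffsAt b.idx))
    (r := Fin r) Meq (by simpa using hrR)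
    (fun z => by
      rintro _ ⟨u, hu, rfl⟩
      funext p
      have h1 : (E.map (valB B z)) *ᵥ (coeffsAt b'.idx (a p.1 z * u)) = 0 := by
        obtain ⟨x, hx⟩ : coeffsAt b'.idx (a p.1 z * u) ∈ colSpace C' z := by
          rw [hC'.space z]
          exact Submodule.mem_map_of_mem (hW z u hu p.1)
        rw [← hx, Matrix.mulVecLin_apply, Matrix.mulVec_mulVec, hEmap, Matrix.sub_mul,
          Matrix.one_mul, Matrix.mul_assoc, ← map_algebraMap_val (B := B) T' z, ← Matrix.map_mul,
          ← Matrix.map_mul, hC'.mul_eq, Matrix.mul_one, sub_self, Matrix.zero_mulVec]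
      have h2 := congrFun h1 p.2
      rw [← b.sum_vec (hWV z hu), ← hprod p.1 z, Matrix.mulVec_mulVec, ← Matrix.map_mul] at h2
      exact h2)
    (fun z => by rw [finrank_map_coeffs b (hWV z), hr z, Fintype.card_fin])
    (fun z => by
      rw [Fintype.card_fin]
      refine le_trans ?_ (hres z)
      have hin : ∀ φ ∈ LinearMap.ker (Meq.map (resB B z)).mulVecLin,
          (∑ l, φ l • b.rvec l) ∈ colonSub (redSub IsLocalRing.residue_surjective V)
            (Submodule.span 𝕜 (Set.range fun j => F.rvec j z)) fun i => ar i z := by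
        intro φ hφ
        refine mem_colonSub.mpr ⟨Submodule.sum_mem _ fun l _ =>
          Submodule.smul_mem _ _ (b.rvec_mem l), fun i => ?_⟩
        set x := ar i z * ∑ l, φ l • b.rvec l with hx
        have hxV' : x ∈ redSub IsLocalRing.residue_surjective V' := by
          rw [hx, Finset.mul_sum]
          refine Submodule.sum_mem _ fun l _ => ?_
          rw [smul_eq_algebraMap_mul (φ l), mul_left_comm, ← smul_eq_algebraMap_mul]
          exact Submodule.smul_mem _ _
            ⟨_, hmul _ (haV i z) _ (b.mem l), (har i z).mul (b.red l)⟩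
        have h1 : ((Cm i).map (resB B z)) *ᵥ φ = coeffsAt b'.idx x := by
          funext l'
          rw [coeffsAt_apply, hx, Finset.mul_sum, HahnSeries.coeff_sum]
          simp only [Matrix.mulVec, dotProduct, Matrix.map_apply, Cm, Matrix.of_apply]
          refine Finset.sum_congr rfl fun l _ => ?_
          rw [smul_eq_algebraMap_mul (φ l), mul_left_comm, ← smul_eq_algebraMap_mul, coeff_smulC,
            ← coeff_red ((har i z).mul (b.red l)) (hc i l' l z), mul_comm]
        have h2 : (E.map (resB B z)) *ᵥ (coeffsAt b'.idx x) = 0 := by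
          rw [← h1, Matrix.mulVec_mulVec, ← Matrix.map_mul]
          funext l'
          exact congrFun (LinearMap.mem_ker.mp hφ) (i, l')
        have h3 : coeffsAt b'.idx x ∈ LinearMap.range (C'.map (resB B z)).mulVecLin := by
          refine ⟨(T'.map (residue A)) *ᵥ coeffsAt b'.idx x, ?_⟩
          rw [hE, Matrix.map_sub _ (map_sub _), Matrix.map_one _ (map_zero _) (map_one _),
            Matrix.map_mul, map_algebraMap_res, Matrix.sub_mulVec, Matrix.one_mulVec,
            sub_eq_zero, ← Matrix.mulVec_mulVec] at h2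
          exact h2.symm
        rw [hC'red] at h3
        obtain ⟨s, hs, hse⟩ := h3
        have hxs : x - s = 0 := b'.red_eq_zero _ (Submodule.sub_mem _ hxV' (hres' z hs))
          fun l => by
            have := congrFun hse l
            rw [coeffsAt_apply, coeffsAt_apply] at this
            rw [HahnSeries.coeff_sub, this, sub_self]
        rw [sub_eq_zero.mp hxs]
        exact hs
      have := (finiteDimensional_redSub (A := A) (π := residue A)
        IsLocalRing.residue_surjective V).1
      have : FiniteDimensional 𝕜 (colonSub (redSub IsLocalRing.residue_surjective V)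
          (Submodule.span 𝕜 (Set.range fun j => F.rvec j z)) fun i => ar i z) :=
        Submodule.finiteDimensional_of_le inf_le_left
      let L : (Fin R → 𝕜) →ₗ[𝕜] LaurentSeries 𝕜 := Fintype.linearCombination 𝕜 b.rvec
      refine LinearMap.finrank_le_finrank_of_injective
        (f := (L.domRestrict _).codRestrict _ fun φ => hin φ.1 φ.2) fun φ ψ h => ?_
      refine Subtype.ext (funext fun l => ?_)
      have h4 := congrArg (fun x : LaurentSeries 𝕜 => x.coeff (b.idx l)) (congrArg Subtype.val h)
      have hL : ∀ (χ : Fin R → 𝕜), (L χ).coeff (b.idx l) = χ l := fun χ => by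
        simp [L, Fintype.linearCombination_apply, HahnSeries.coeff_sum, b.rvec_coeff]
      exact (hL φ.1).symm.trans (h4.trans (hL ψ.1)))
  obtain ⟨C, hC⟩ := hT₁ (T₁.map sl) (Matrix.ext fun i j => hsl _)
  exact exists_frame_of_isChart b hWV hfin hr hC

/-- `T` is injective on the reductions of `W`. -/
def Reg (T : Matrix (Fin r₁) (Fin R) A) (W : Submodule Qbar (LaurentSeries Qbar)) : Prop :=
  ∀ x ∈ redSub IsLocalRing.residue_surjective W,
    (T.map (residue A)) *ᵥ (coeffsAt b.idx x) = 0 → x = 0

/-- Normalised with respect to `T`. -/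
def IsNorm (T : Matrix (Fin r₁) (Fin R) A) (j : Fin r₁) (y : LaurentSeries Qbar) : Prop :=
  (T.map A.subtype) *ᵥ (coeffsAt b.idx y) = Pi.single j 1

variable {b}

omit [Finite Z] [Infinite (ResidueField A)] in
theorem Reg.eq_zero {T : Matrix (Fin r₁) (Fin R) A} {W : Submodule Qbar (LaurentSeries Qbar)}
    (h : Reg b T W) (hW : NormalizableSub A (residue A) W) {y : LaurentSeries Qbar} (hy : y ∈ W)
    (h0 : (T.map A.subtype) *ᵥ (coeffsAt b.idx y) = 0) : y = 0 := by
  by_contra hy0
  obtain ⟨c, -, x, hx, hcy, hred⟩ := hW.exists_red hy hy0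
  refine hx (h x ⟨_, hcy, hred⟩ ?_)
  funext i
  have h1 : (T.map A.subtype *ᵥ coeffsAt b.idx (c • y)) i = 0 := by
    rw [map_smul, Matrix.mulVec_smul, h0, smul_zero, Pi.zero_apply]
  have h2 : (∑ l, T i l * ⟨_, hred.coeff_mem (b.idx l)⟩ : A) = 0 := by
    refine Subtype.ext ?_
    rw [AddSubmonoidClass.coe_finsetSum]
    exact h1
  have h3 := congrArg (residue A) h2
  rw [map_sum, map_zero] at h3
  rw [Pi.zero_apply, ← h3]
  simp only [Matrix.mulVec, dotProduct, Matrix.map_apply]
  refine Finset.sum_congr rfl fun l _ => ?_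
  rw [map_mul, coeffsAt_apply]
  obtain ⟨h4, h5⟩ := hred (b.idx l)
  rw [← h5]

omit [Finite Z] [Infinite (ResidueField A)] in
theorem Reg.eq_of_isNorm {T : Matrix (Fin r₁) (Fin R) A}
    {W : Submodule Qbar (LaurentSeries Qbar)} (h : Reg b T W)
    (hW : NormalizableSub A (residue A) W) {j : Fin r₁} {y y' : LaurentSeries Qbar} (hy : y ∈ W)
    (hy' : y' ∈ W) (hn : IsNorm b T j y) (hn' : IsNorm b T j y') : y = y' :=
  sub_eq_zero.mp (h.eq_zero hW (W.sub_mem hy hy') (by
    rw [map_sub, Matrix.mulVec_sub, hn, hn', sub_self]))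

variable (b)

omit [Infinite (ResidueField A)] in
/-- The normalised sections have coefficients in `B`. -/
theorem exists_normalised {W : Z → Submodule Qbar (LaurentSeries Qbar)} {r : ℕ}
    (F : Frame B W r) (hWV : ∀ z, W z ≤ V) {T : Matrix (Fin r) (Fin R) A}
    (hreg : ∀ z, Reg b T (W z)) :
    ∃ nv : Fin r → Z → LaurentSeries Qbar, (∀ j, CoeffIn B (nv j)) ∧
      (∀ j z, nv j z ∈ W z) ∧ ∀ j z, IsNorm b T j (nv j z) := by
  obtain ⟨P, hP⟩ := exists_coordMatrix b F.coeff
  obtain ⟨C, hC⟩ := exists_isChart_of_det (W := fun z => (W z).map (coeffsAt b.idx)) P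
    (fun z => by
      rw [colSpace_eq_span, Submodule.span_le]
      rintro _ ⟨j, rfl⟩
      exact ⟨F.vec j z, F.mem j z, funext fun l => (hP l j z).symm⟩)
    (fun z => by rw [finrank_map_coeffs b (hWV z), F.finrank z, Fintype.card_fin]) T
    (fun z => by
      intro hdet
      obtain ⟨v, hv, hv0⟩ := Matrix.exists_mulVec_eq_zero_iff.mpr hdet
      refine hv (funext fun j => ?_)
      have hx := hreg z (∑ j, v j • F.rvec j z) (Submodule.sum_mem _ fun j _ =>
        Submodule.smul_mem _ _ ⟨_, F.mem j z, F.red j z⟩) (by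
          rw [← hv0, ← Matrix.mulVec_mulVec]
          congr 1
          funext l
          simp only [coeffsAt_apply, HahnSeries.coeff_sum, coeff_smulC, Matrix.mulVec, dotProduct,
            Matrix.map_apply]
          exact Finset.sum_congr rfl fun j _ => by
            rw [coeff_red (F.red j z) (hP l j z), mul_comm])
      exact (Fintype.linearIndependent_iff.mp (F.li z)) v hx j)
  refine ⟨fun j z => ∑ l, valB B z (C l j) • b.vec l,
    fun j => CoeffIn.sum _ fun l _ => (CoeffIn.const (b.red l)).smul _, fun j z => ?_,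
    fun j z => ?_⟩
  · have hmem : (fun l => valB B z (C l j)) ∈ (W z).map (coeffsAt b.idx) := by
      rw [← hC.space z, colSpace_eq_span]
      exact Submodule.subset_span ⟨j, rfl⟩
    obtain ⟨w, hw, hwe⟩ := hmem
    have hwe' : ∀ l, valB B z (C l j) = w.coeff (b.idx l) := fun l => (congrFun hwe l).symm
    show ∑ l, valB B z (C l j) • b.vec l ∈ W z
    simp only [hwe']
    rw [b.sum_vec (hWV z hw)]
    exact hw
  · funext i
    have h1 := congrArg (fun N : Matrix (Fin r) (Fin r) B => valB B z (N i j)) hC.mul_eq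
    simp only [Matrix.mul_apply, map_sum, map_mul, Matrix.map_apply, valB_algebraMap] at h1
    simp only [Matrix.mulVec, dotProduct, Matrix.map_apply, coeffsAt_apply, b.coeff_sum_vec]
    refine h1.trans ?_
    rw [Matrix.one_apply, Pi.single_apply]
    split_ifs <;> simp

/-- Some `T` is regular for all the spaces of a frame. -/
theorem exists_reg {W : Z → Submodule Qbar (LaurentSeries Qbar)} {r : ℕ}
    (F : Frame B W r) (hWV : ∀ z, W z ≤ V) :
    ∃ T₀ : Matrix (Fin r) (Fin R) 𝕜, ∀ T : Matrix (Fin r) (Fin R) A,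
      T.map (residue A) = T₀ → ∀ z, Reg b T (W z) := by
  classical
  let X : Matrix (Fin r) (Fin R) (MvPolynomial (Fin r × Fin R) 𝕜) :=
    Matrix.of fun i l => MvPolynomial.X (i, l)
  let Pz : Z → Matrix (Fin R) (Fin r) 𝕜 := fun z =>
    Matrix.of fun l j => (F.rvec j z).coeff (b.idx l)
  let Φ : Z → Matrix (Fin r) (Fin r) (MvPolynomial (Fin r × Fin R) 𝕜) :=
    fun z => X * (Pz z).map MvPolynomial.C
  have hmap : ∀ z (x : Fin r × Fin R → 𝕜), (Φ z).map (MvPolynomial.eval x) =
      (Matrix.of (fun i l => x (i, l)) : Matrix (Fin r) (Fin R) 𝕜) * Pz z := fun z x => by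
    ext i j
    show MvPolynomial.eval x (∑ l, X i l * ((Pz z).map MvPolynomial.C) l j) =
      ∑ l, x (i, l) * Pz z l j
    simp [X]
  obtain ⟨x, hx⟩ := exists_forall_det_ne_zero Φ fun z => by
    obtain ⟨T₁, hT₁⟩ := exists_mul_eq_one_of_injective (Pz z) fun v w hvw => by
      have hs : ∀ u : Fin r → 𝕜, (Pz z) *ᵥ u = coeffsAt b.idx (∑ j, u j • F.rvec j z) := fun u =>
        funext fun l => by
          simp [Pz, Matrix.mulVec, dotProduct, HahnSeries.coeff_sum, mul_comm]
      have h0 : ∑ j, (v - w) j • F.rvec j z = 0 :=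
        b.red_eq_zero _ (Submodule.sum_mem _ fun j _ => Submodule.smul_mem _ _
          ⟨_, hWV z (F.mem j z), F.red j z⟩) fun l => by
          have h1 := congrFun (hs (v - w)) l
          rw [Matrix.mulVec_sub, hvw, sub_self, Pi.zero_apply, coeffsAt_apply] at h1
          exact h1.symm
      exact sub_eq_zero.mp (funext fun j => Fintype.linearIndependent_iff.mp (F.li z) _ h0 j)
    refine ⟨fun p => T₁ p.1 p.2, ?_⟩
    rw [hmap, show (Matrix.of (fun i l => T₁ i l) : Matrix (Fin r) (Fin R) 𝕜) = T₁ from rfl, hT₁,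
      Matrix.det_one]
    exact one_ne_zero
  refine ⟨Matrix.of fun i l => x (i, l), fun T hT z y hy hy0 => ?_⟩
  rw [F.span_rvec] at hy
  obtain ⟨v, rfl⟩ := Submodule.mem_span_range_iff_exists_fun 𝕜 |>.mp hy
  have h1 := hx z
  rw [hmap, ← hT] at h1
  by_contra hne
  refine h1 (Matrix.exists_mulVec_eq_zero_iff.mp ⟨v, fun h0 => hne (by simp [h0]), ?_⟩)
  rw [← hy0, ← Matrix.mulVec_mulVec]
  congr 1
  funext l
  simp [Pz, Matrix.mulVec, dotProduct, HahnSeries.coeff_sum, mul_comm]

omit [Finite Z] [Infinite (ResidueField A)] b in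
/-- Over all functions every family of normalisable spaces has a frame. -/
theorem exists_frame_top {W : Z → Submodule Qbar (LaurentSeries Qbar)} {r : ℕ}
    (hfin : ∀ z, FiniteDimensional Qbar (W z)) (hr : ∀ z, Module.finrank Qbar (W z) = r)
    (hW : ∀ z, NormalizableSub A (residue A) (W z)) :
    Nonempty (Frame (⊤ : Subalgebra A (Z → A)) W r) := by
  have h : ∀ z, Nonempty (LatBasis (A := A) (π := residue A) IsLocalRing.residue_surjective
      (W z) r) := fun z => by
    have := hfin z
    have h1 := exists_latBasis (A := A) (π := residue A) IsLocalRing.residue_surjective (W z) (hW z)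
    rwa [hr z] at h1
  let c := fun z => (h z).some
  refine ⟨⟨fun j z => (c z).vec j, fun j z => (c z).rvec j, fun j i =>
    ⟨⟨fun z => ⟨_, ((c z).red j).coeff_mem i⟩, Algebra.mem_top⟩, fun z => rfl⟩,
    fun j z => (c z).mem j, fun j z => (c z).red j, fun z => ?_, hfin, hr⟩⟩
  rw [Fintype.linearIndependent_iff]
  intro g hg l
  have h1 := congrArg (fun x : LaurentSeries 𝕜 => x.coeff ((c z).idx l)) hg
  simpa [HahnSeries.coeff_sum, coeff_smulC, (c z).rvec_coeff] using h1

end Fermat.Agent.FlatModel
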