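import Fermat.Agent.FlatModel.Descent
import Fermat.Agent.FlatModel.Classes
import Fermat.Prelude.Def_ModularCurve_LaurentCoeff
import Fermat.Prelude.Def_AlgebraicCurve_BaseChangeGalois

/-!
# Galois action on a reduced curve defined over `ℚ`

`GalAct` is an action through the coefficients of series; it fixes the base point and maps
`L(D)` to `L(σ D)` (`GalAct.cmap_mem_space_iff`).
-/

set_option autoImplicit false

noncomputable section

open AlgebraicCurve HahnSeries ModularCurve

open scoped Pointwise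

namespace Fermat.Agent.FlatModel

open Fermat.Agent.Reduction

variable {A : ValuationSubring Qbar}

/-- Applying a Galois element to all coefficients. -/
abbrev cmap (σ : GalQ) : LaurentSeries Qbar →+* LaurentSeries Qbar := coeffMap (σ : Qbar →+* Qbar)

theorem cmap_mul (σ τ : GalQ) (y : LaurentSeries Qbar) : cmap (σ * τ) y = cmap σ (cmap τ y) := by
  rw [cmap, cmap, cmap, coeffMap_coeffMap]
  rfl

theorem cmap_inv_cancel (σ : GalQ) (y : LaurentSeries Qbar) : cmap σ (cmap σ⁻¹ y) = y := by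
  rw [← cmap_mul, mul_inv_cancel]
  exact coeffMap_id y

theorem order_cmap (σ : GalQ) (y : LaurentSeries Qbar) : (cmap σ y).order = y.order := by
  rcases eq_or_ne y 0 with rfl | hy
  · simp
  refine le_antisymm (HahnSeries.order_le_of_coeff_ne_zero ?_) ?_
  · rw [cmap, coeffMap_coeff]
    exact (map_ne_zero _).mpr fun h => hy (HahnSeries.coeff_order_eq_zero.mp h)
  · have hy' : cmap σ y ≠ 0 := (map_ne_zero_iff _ fun a b h => by
      ext i
      exact σ.injective (congrArg (fun z : LaurentSeries Qbar => z.coeff i) h)).mpr hy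
    refine HahnSeries.order_le_of_coeff_ne_zero fun h => ?_
    have h2 : (cmap σ y).coeff (cmap σ y).order = 0 := by
      rw [cmap, coeffMap_coeff, h, map_zero]
    exact hy' (HahnSeries.coeff_order_eq_zero.mp h2)

/-- The Galois group acts on the function field through the coefficients. -/
structure GalAct (S : CurveRed A (IsLocalRing.residue A)) where
  /-- the action -/
  gal : GalQ →* SemilinearAut Qbar S.F
  coe_gal : ∀ (σ : GalQ) (y : S.F),
    ((gal σ • y : S.F) : LaurentSeries Qbar) = cmap σ (y : LaurentSeries Qbar)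

namespace GalAct

variable {S : CurveRed A (IsLocalRing.residue A)} (Γ : GalAct S)

/-- Galois conjugate of a place. -/
abbrev sm (σ : GalQ) (D : Divisor Qbar S.F) : Divisor Qbar S.F := Γ.gal σ • D

theorem gal_pt (σ : GalQ) : Γ.gal σ • S.pt = S.pt := by
  have hord : ∀ y : S.F, (Γ.gal σ • S.pt).ord y = S.pt.ord y := fun y => by
    have h := SemilinearAut.ord_smul (Γ.gal σ) S.pt ((Γ.gal σ)⁻¹ • y)
    rw [smul_inv_smul] at h
    rw [h, S.ord_pt, S.ord_pt, ← map_inv, Γ.coe_gal, order_cmap]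
  ext y
  rcases eq_or_ne y 0 with rfl | hy
  · exact ⟨fun _ => zero_mem _, fun _ => zero_mem _⟩
  · rw [FF.mem_toValuationSubring_iff_ord _ hy, FF.mem_toValuationSubring_iff_ord _ hy, hord]

theorem sm_atPt (σ : GalQ) (n : ℤ) : Γ.sm σ (S.atPt n) = S.atPt n := by
  rw [sm, CurveRed.atPt, SemilinearAut.smul_single, Γ.gal_pt]

theorem sm_mul (σ τ : GalQ) (D : Divisor Qbar S.F) : Γ.sm (σ * τ) D = Γ.sm σ (Γ.sm τ D) := by
  rw [sm, sm, sm, map_mul, mul_smul]

theorem isEff_sm (σ : GalQ) {D : Divisor Qbar S.F} (hD : S.IsEff D) : S.IsEff (Γ.sm σ D) :=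
  fun v => by
    rw [sm, SemilinearAut.divisor_smul_apply]
    exact hD _

theorem cmap_mem_space (σ : GalQ) {D : Divisor Qbar S.F} {y : LaurentSeries Qbar}
    (hy : y ∈ S.space D) : cmap σ y ∈ S.space (Γ.sm σ D) := by
  obtain ⟨u, rfl, hu⟩ := S.exists_of_mem_space hy
  rw [← Γ.coe_gal]
  refine S.coe_mem_space.mpr fun v => ?_
  rcases hu ((Γ.gal σ)⁻¹ • v) with h | h
  · exact Or.inl (by rw [h, smul_zero])
  · right
    rw [sm, SemilinearAut.divisor_smul_apply]
    have h2 := SemilinearAut.ord_smul (Γ.gal σ) ((Γ.gal σ)⁻¹ • v) u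
    rw [smul_inv_smul] at h2
    rwa [h2]

include Γ in
theorem cmap_mem_space_atPt (σ : GalQ) (n : ℤ) {y : LaurentSeries Qbar}
    (hy : y ∈ S.space (S.atPt n)) : cmap σ y ∈ S.space (S.atPt n) :=
  sm_atPt Γ σ n ▸ cmap_mem_space Γ σ hy

theorem cmap_mem_space_iff (σ : GalQ) {D : Divisor Qbar S.F} {y : LaurentSeries Qbar} :
    cmap σ y ∈ S.space (Γ.sm σ D) ↔ y ∈ S.space D := by
  refine ⟨fun h => ?_, Γ.cmap_mem_space σ⟩
  have h2 := Γ.cmap_mem_space σ⁻¹ h
  rwa [← cmap_mul, inv_mul_cancel, ← Γ.sm_mul, inv_mul_cancel,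
    show cmap (1 : GalQ) y = y from coeffMap_id y,
    show Γ.sm 1 D = D by rw [sm, map_one, one_smul]] at h2

end GalAct

end Fermat.Agent.FlatModel
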