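import Fermat.Agent.FlatModel.Trace

/-!
# Charts of families of subspaces over a valuation ring

Linear algebra for finitely many subspaces at once: matrices have entries in an algebra `B` of
`A`-valued functions on a finite set `Z`; if the residual ranks are the expected ones, a single
generic choice gives a basis with entries in `B`.

Main results: `exists_chart_of_image` and `exists_chart_of_kernel`.
-/

set_option autoImplicit false

open IsLocalRing Matrix

namespace Fermat.Agent.FlatModel

variable {Z : Type*} {A : ValuationSubring Qbar} (B : Subalgebra A (Z → A))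

/-- Evaluation of an element of `B` at a point. -/
noncomputable def evalB (z : Z) : B →+* A :=
  (Pi.evalRingHom (fun _ : Z => A) z).comp B.val.toRingHom

@[simp]
theorem evalB_apply (z : Z) (b : B) : evalB B z b = (b : Z → A) z := rfl

/-- The residual value at a point. -/
noncomputable def resB (z : Z) : B →+* ResidueField A := (residue A).comp (evalB B z)

/-- The value at a point, in `ℚ̄`. -/
noncomputable def valB (z : Z) : B →+* Qbar := A.subtype.comp (evalB B z)

variable {B}

/-- An element with unit values is a unit: it is killed by `∏ z, (X - a z)`. -/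
theorem isUnit_of_forall_res_ne_zero [Finite Z] (b : B) (h : ∀ z, resB B z b ≠ 0) : IsUnit b := by
  classical
  cases nonempty_fintype Z
  have hu : ∀ z, IsUnit ((b : Z → A) z) := fun z =>
    (residue_ne_zero_iff_isUnit _).mp (h z)
  obtain ⟨g, hg⟩ : ∃ g : Polynomial A, g = ∏ z, (Polynomial.X - Polynomial.C ((b : Z → A) z)) :=
    ⟨_, rfl⟩
  have hzero : Polynomial.aeval b g = 0 := by
    refine Subtype.ext (funext fun z => ?_)
    have h1 : ((Polynomial.aeval b g : B) : Z → A) z =
        Polynomial.eval ((b : Z → A) z) g := by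
      rw [Polynomial.aeval_subalgebra_coe, Polynomial.aeval_pi_apply]
      simp [Polynomial.coe_aeval_eq_eval]
    rw [h1, hg, Polynomial.eval_prod]
    exact Finset.prod_eq_zero (Finset.mem_univ z) (by simp)
  have h0 : IsUnit (g.coeff 0) := by
    rw [hg, Polynomial.coeff_zero_eq_eval_zero, Polynomial.eval_prod]
    refine IsUnit.prod_iff.mpr fun z _ => ?_
    simpa using (hu z).neg
  have hd := congrArg (Polynomial.aeval b) g.divX_mul_X_add
  rw [map_add, map_mul, Polynomial.aeval_X, Polynomial.aeval_C, hzero] at hd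
  obtain ⟨u, hu0⟩ := h0
  refine IsUnit.of_mul_eq_one (b := -(Polynomial.aeval b g.divX) * algebraMap A B ↑u⁻¹) ?_
  have h2 : b * -(Polynomial.aeval b g.divX) = algebraMap A B (g.coeff 0) :=
    (eq_neg_of_add_eq_zero_right hd).symm ▸ by ring
  rw [← mul_assoc, h2, ← map_mul, ← hu0, Units.mul_inv, map_one]

/-- A matrix with invertible residual values is invertible over `B`. -/
theorem isUnit_det_of_forall_res [Finite Z] {ι : Type*} [Fintype ι] [DecidableEq ι]
    (M : Matrix ι ι B) (h : ∀ z, (M.map (resB B z)).det ≠ 0) : IsUnit M.det :=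
  isUnit_of_forall_res_ne_zero _ fun z => by rw [RingHom.map_det]; exact h z

/-- The column space at a point. -/
noncomputable def colSpace {ι κ : Type*} [Fintype κ] (M : Matrix ι κ B) (z : Z) :
    Submodule Qbar (ι → Qbar) :=
  LinearMap.range (M.map (valB B z)).mulVecLin

/-- A chart: a basis of `W` with entries in `B` on which `T` is the identity. -/
structure IsChart {n r : Type*} [Fintype n] [Fintype r] [DecidableEq r]
    (W : Z → Submodule Qbar (n → Qbar)) (T : Matrix r n A) (V : Matrix n r B) : Prop where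
  mul_eq : T.map (algebraMap A B) * V = 1
  space : ∀ z, colSpace V z = W z

/-- Finitely many nonzero polynomials have a common nonzero value. -/
theorem exists_forall_eval_ne_zero [Finite Z] {k : Type*} [CommRing k] [IsDomain k] [Infinite k]
    {σ : Type*} (p : Z → MvPolynomial σ k) (h : ∀ z, ∃ x, MvPolynomial.eval x (p z) ≠ 0) :
    ∃ x : σ → k, ∀ z, MvPolynomial.eval x (p z) ≠ 0 := by
  classical
  cases nonempty_fintype Z
  have hp : ∏ z, p z ≠ 0 := by
    refine Finset.prod_ne_zero_iff.mpr fun z _ hz => ?_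
    obtain ⟨x, hx⟩ := h z
    exact hx (by rw [hz, map_zero])
  by_contra hno
  push Not at hno
  refine hp (MvPolynomial.funext fun x => ?_)
  obtain ⟨z, hz⟩ := hno x
  rw [map_prod, map_zero]
  exact Finset.prod_eq_zero (Finset.mem_univ z) hz

/-- One substitution making finitely many square matrices invertible. -/
theorem exists_forall_det_ne_zero [Finite Z] {k : Type*} [CommRing k] [IsDomain k] [Infinite k]
    {σ ι : Type*} [Fintype ι] [DecidableEq ι] (Φ : Z → Matrix ι ι (MvPolynomial σ k))
    (h : ∀ z, ∃ x, ((Φ z).map (MvPolynomial.eval x)).det ≠ 0) :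
    ∃ x, ∀ z, ((Φ z).map (MvPolynomial.eval x)).det ≠ 0 := by
  obtain ⟨x, hx⟩ := exists_forall_eval_ne_zero (fun z => (Φ z).det) fun z => by
    obtain ⟨x, hx⟩ := h z
    exact ⟨x, by rw [RingHom.map_det]; exact hx⟩
  exact ⟨x, fun z => by
    have := hx z
    rwa [RingHom.map_det] at this⟩

variable {n r : Type*} [Fintype n] [Fintype r] [DecidableEq r]
  {W : Z → Submodule Qbar (n → Qbar)}

omit [Fintype n] [Fintype r] [DecidableEq r] in
theorem map_algebraMap_res (T : Matrix r n A) (z : Z) :
    (T.map (algebraMap A B)).map (resB B z) = T.map (residue A) := by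
  ext i j
  rfl

omit [Fintype n] [Fintype r] [DecidableEq r] in
theorem map_algebraMap_val (T : Matrix r n A) (z : Z) :
    (T.map (algebraMap A B)).map (valB B z) = T.map A.subtype := by
  ext i j
  rfl

omit [Fintype n] in
theorem colSpace_mul_le {κ : Type*} [Fintype κ] {ι : Type*} [Fintype ι] (P : Matrix n κ B)
    (Q : Matrix κ ι B) (z : Z) : colSpace (P * Q) z ≤ colSpace P z := by
  rintro _ ⟨x, rfl⟩
  refine ⟨(Q.map (valB B z)) *ᵥ x, ?_⟩
  simp only [Matrix.mulVecLin_apply, Matrix.map_mul, Matrix.mulVec_mulVec]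

theorem finrank_colSpace_of_mul_eq_one {T : Matrix r n A} {V : Matrix n r B}
    (h : T.map (algebraMap A B) * V = 1) (z : Z) :
    Module.finrank Qbar (colSpace V z) = Fintype.card r := by
  rw [colSpace, LinearMap.finrank_range_of_inj, Module.finrank_fintype_fun_eq_card]
  refine Function.LeftInverse.injective (g := (T.map A.subtype).mulVecLin) fun x => ?_
  simp only [Matrix.mulVecLin_apply, Matrix.mulVec_mulVec]
  rw [← map_algebraMap_val (B := B) T z, ← Matrix.map_mul, h,
    Matrix.map_one _ (map_zero _) (map_one _), Matrix.one_mulVec]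

/-- A basis with residually invertible coordinates gives a chart. -/
theorem exists_isChart_of_det [Finite Z] (P : Matrix n r B) (hP : ∀ z, colSpace P z ≤ W z)
    (hW : ∀ z, Module.finrank Qbar (W z) = Fintype.card r) (T : Matrix r n A)
    (hT : ∀ z, (T.map (residue A) * P.map (resB B z)).det ≠ 0) :
    ∃ V : Matrix n r B, IsChart W T V := by
  set Q : Matrix r r B := T.map (algebraMap A B) * P with hQ
  have hu : IsUnit Q.det := isUnit_det_of_forall_res Q fun z => by
    rw [hQ, Matrix.map_mul, map_algebraMap_res]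
    exact hT z
  have h1 : T.map (algebraMap A B) * (P * Q⁻¹) = 1 := by
    rw [← Matrix.mul_assoc, ← hQ, Matrix.mul_nonsing_inv _ hu]
  exact ⟨P * Q⁻¹, h1, fun z => Submodule.eq_of_le_of_finrank_eq
    ((colSpace_mul_le _ _ _).trans (hP z)) (by rw [finrank_colSpace_of_mul_eq_one h1, hW])⟩

theorem exists_mul_eq_one_of_injective {k : Type*} [Field k] {a b : Type*} [Fintype a]
    [Fintype b] [DecidableEq b] (M : Matrix a b k) (h : Function.Injective M.mulVec) :
    ∃ T : Matrix b a k, T * M = 1 := by
  classical
  obtain ⟨g, hg⟩ := LinearMap.exists_leftInverse_of_injective M.mulVecLin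
    (LinearMap.ker_eq_bot.mpr h)
  refine ⟨LinearMap.toMatrix' g, ?_⟩
  have := congrArg LinearMap.toMatrix' hg
  rwa [LinearMap.toMatrix'_comp, ← Matrix.toLin'_apply' M, LinearMap.toMatrix'_toLin',
    LinearMap.toMatrix'_id] at this

variable [Finite Z] [Infinite (ResidueField A)]

local notation "𝕜" => ResidueField A

/-- **Image theorem.** If the columns of `P` lie in `W` and have residual rank at least `dim W`,
a generic `T` gives a chart of `W`. -/
theorem exists_chart_of_image {q : Type*} [Fintype q] (P : Matrix n q B)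
    (hP : ∀ z, colSpace P z ≤ W z) (hW : ∀ z, Module.finrank Qbar (W z) = Fintype.card r)
    (hrank : ∀ z, Fintype.card r ≤
      Module.finrank (ResidueField A) (LinearMap.range (P.map (resB B z)).mulVecLin)) :
    ∃ T₀ : Matrix r n (ResidueField A), ∀ T : Matrix r n A, T.map (residue A) = T₀ →
      ∃ V : Matrix n r B, IsChart W T V := by
  classical
  let X₁ : Matrix r n (MvPolynomial ((r × n) ⊕ (q × r)) 𝕜) :=
    Matrix.of fun i j => MvPolynomial.X (Sum.inl (i, j))
  let X₂ : Matrix q r (MvPolynomial ((r × n) ⊕ (q × r)) 𝕜) :=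
    Matrix.of fun i j => MvPolynomial.X (Sum.inr (i, j))
  let P' : Z → Matrix n q (MvPolynomial ((r × n) ⊕ (q × r)) 𝕜) :=
    fun z => (P.map (resB B z)).map MvPolynomial.C
  let Φ : Z → Matrix r r (MvPolynomial ((r × n) ⊕ (q × r)) 𝕜) := fun z => X₁ * P' z * X₂
  have hΦ : ∀ z (x : ((r × n) ⊕ (q × r)) → 𝕜), (Φ z).map (MvPolynomial.eval x) =
      Matrix.of (fun i j => x (Sum.inl (i, j))) * P.map (resB B z) *
        Matrix.of (fun i j => x (Sum.inr (i, j))) := fun z x => by
    ext i j
    simp [Φ, X₁, X₂, P', Matrix.mul_apply]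
  obtain ⟨x, hx⟩ := exists_forall_det_ne_zero Φ fun z => by
    set L := (P.map (resB B z)).mulVecLin
    obtain ⟨v, hv⟩ := exists_linearIndependent_of_le_finrank (hrank z)
    let v' : r → LinearMap.range L := v ∘ Fintype.equivFin r
    choose u hu using fun i => LinearMap.mem_range.mp (v' i).2
    let S₀ : Matrix q r 𝕜 := Matrix.of fun i j => u j i
    have hinj : Function.Injective (P.map (resB B z) * S₀).mulVec := by
      rw [Matrix.mulVec_injective_iff]
      have hcol : (P.map (resB B z) * S₀).col = fun j => ((v' j : LinearMap.range L) : n → 𝕜) := by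
        funext j
        rw [← hu j]
        rfl
      rw [hcol]
      exact ((hv.comp _ (Fintype.equivFin r).injective).map' (LinearMap.range L).subtype
        (Submodule.ker_subtype _))
    obtain ⟨T₀, hT₀⟩ := exists_mul_eq_one_of_injective _ hinj
    refine ⟨Sum.elim (fun p => T₀ p.1 p.2) (fun p => S₀ p.1 p.2), ?_⟩
    rw [hΦ, show Matrix.of (fun i j => Sum.elim (fun p : r × n => T₀ p.1 p.2)
      (fun p : q × r => S₀ p.1 p.2) (Sum.inl (i, j))) = T₀ from rfl,
      show Matrix.of (fun i j => Sum.elim (fun p : r × n => T₀ p.1 p.2)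
      (fun p : q × r => S₀ p.1 p.2) (Sum.inr (i, j))) = S₀ from rfl,
      Matrix.mul_assoc, hT₀, Matrix.det_one]
    exact one_ne_zero
  choose sl hsl using fun c : 𝕜 => residue_surjective c
  let S : Matrix q r A := Matrix.of fun i j => sl (x (Sum.inr (i, j)))
  refine ⟨Matrix.of fun i j => x (Sum.inl (i, j)), fun T hT =>
    exists_isChart_of_det (P * S.map (algebraMap A B))
      (fun z => (colSpace_mul_le _ _ _).trans (hP z)) hW T fun z => ?_⟩
  have h := hx z
  rw [hΦ] at h
  rw [Matrix.map_mul, hT, ← Matrix.mul_assoc]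
  convert h using 3
  ext i j
  show residue A (sl (x (Sum.inr (i, j)))) = _
  rw [hsl]
  rfl

/-- **Kernel theorem.** If `W` is killed by `M` and the residual kernels of `M` have dimension at
most `dim W`, a generic `T` gives a chart of `W`. -/
theorem exists_chart_of_kernel {p : Type*} [Fintype p] (M : Matrix p n B)
    (hr : Fintype.card r ≤ Fintype.card n)
    (hM : ∀ z, ∀ w ∈ W z, (M.map (valB B z)) *ᵥ w = 0)
    (hW : ∀ z, Module.finrank Qbar (W z) = Fintype.card r)
    (hker : ∀ z, Module.finrank (ResidueField A)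
      (LinearMap.ker (M.map (resB B z)).mulVecLin) ≤ Fintype.card r) :
    ∃ T₀ : Matrix r n (ResidueField A), ∀ T : Matrix r n A, T.map (residue A) = T₀ →
      ∃ V : Matrix n r B, IsChart W T V := by
  classical
  set s := Fintype.card n - Fintype.card r with hs
  let e : Fin s ⊕ r ≃ n := Fintype.equivOfCardEq (by simp [hs]; omega)
  let X₁ : Matrix (Fin s) p (MvPolynomial ((Fin s × p) ⊕ (r × n)) 𝕜) :=
    Matrix.of fun i j => MvPolynomial.X (Sum.inl (i, j))
  let X₂ : Matrix r n (MvPolynomial ((Fin s × p) ⊕ (r × n)) 𝕜) :=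
    Matrix.of fun i j => MvPolynomial.X (Sum.inr (i, j))
  let M' : Z → Matrix p n (MvPolynomial ((Fin s × p) ⊕ (r × n)) 𝕜) :=
    fun z => (M.map (resB B z)).map MvPolynomial.C
  let Φ : Z → Matrix (Fin s ⊕ r) (Fin s ⊕ r) (MvPolynomial ((Fin s × p) ⊕ (r × n)) 𝕜) :=
    fun z => (Matrix.fromRows (X₁ * M' z) X₂).submatrix id e
  have hΦ : ∀ z (x : ((Fin s × p) ⊕ (r × n)) → 𝕜), (Φ z).map (MvPolynomial.eval x) =
      (Matrix.fromRows (Matrix.of (fun i j => x (Sum.inl (i, j))) * M.map (resB B z))
        (Matrix.of fun i j => x (Sum.inr (i, j)))).submatrix id e := fun z x => by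
    ext i j
    rcases i with i | i <;> simp [Φ, X₁, X₂, M', Matrix.mul_apply]
  obtain ⟨x, hx⟩ := exists_forall_det_ne_zero Φ fun z => by
    set L := (M.map (resB B z)).mulVecLin
    have hrk : s ≤ Module.finrank 𝕜 (LinearMap.range L) := by
      have h1 := LinearMap.finrank_range_add_finrank_ker L
      rw [Module.finrank_fintype_fun_eq_card] at h1
      have h2 : Module.finrank 𝕜 (LinearMap.ker L) ≤ Fintype.card r := hker z
      omega
    obtain ⟨v, hv⟩ := exists_linearIndependent_of_le_finrank hrk
    have hinj : Function.Injective (Matrix.of fun i j => (v j : p → 𝕜) i).mulVec := by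
      rw [Matrix.mulVec_injective_iff]
      exact hv.map' (LinearMap.range L).subtype (Submodule.ker_subtype _)
    obtain ⟨S₀, hS₀⟩ := exists_mul_eq_one_of_injective _ hinj
    set K := LinearMap.ker (S₀ * M.map (resB B z)).mulVecLin with hK
    have hsurj : LinearMap.range (S₀ * M.map (resB B z)).mulVecLin = ⊤ := by
      refine eq_top_iff.mpr fun y _ => ?_
      choose u hu using fun i => LinearMap.mem_range.mp (v i).2
      refine ⟨∑ i, y i • u i, ?_⟩
      rw [Matrix.mulVecLin_mul, LinearMap.comp_apply, map_sum]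
      simp only [map_smul]
      rw [show (∑ i, y i • (M.map (resB B z)).mulVecLin (u i)) =
        (Matrix.of fun i j => (v j : p → 𝕜) i) *ᵥ y from ?_, Matrix.mulVecLin_apply,
        Matrix.mulVec_mulVec, hS₀, Matrix.one_mulVec]
      funext a
      simp only [Finset.sum_apply, Pi.smul_apply, smul_eq_mul, Matrix.mulVec, dotProduct,
        Matrix.of_apply]
      exact Finset.sum_congr rfl fun i _ => by rw [← hu i]; exact mul_comm _ _
    have hKdim : Module.finrank 𝕜 K = Fintype.card r := by
      have h1 := LinearMap.finrank_range_add_finrank_ker (S₀ * M.map (resB B z)).mulVecLin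
      rw [hsurj, finrank_top, Module.finrank_fintype_fun_eq_card,
        Module.finrank_fintype_fun_eq_card, Fintype.card_fin] at h1
      rw [hK]
      omega
    let bK := (Module.finBasisOfFinrankEq 𝕜 K hKdim).reindex (Fintype.equivFin r).symm
    obtain ⟨π, hπ⟩ := LinearMap.exists_leftInverse_of_injective K.subtype (Submodule.ker_subtype _)
    let T₀ : Matrix r n 𝕜 := LinearMap.toMatrix' (bK.equivFun.toLinearMap.comp π)
    refine ⟨Sum.elim (fun q => S₀ q.1 q.2) (fun q => T₀ q.1 q.2), ?_⟩
    rw [hΦ, show Matrix.of (fun i j => Sum.elim (fun q : Fin s × p => S₀ q.1 q.2)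
      (fun q : r × n => T₀ q.1 q.2) (Sum.inl (i, j))) = S₀ from rfl,
      show Matrix.of (fun i j => Sum.elim (fun q : Fin s × p => S₀ q.1 q.2)
      (fun q : r × n => T₀ q.1 q.2) (Sum.inr (i, j))) = T₀ from rfl, ← isUnit_iff_ne_zero,
      ← Matrix.isUnit_iff_isUnit_det, ← Matrix.mulVec_injective_iff_isUnit]
    intro a b hab
    rw [← sub_eq_zero]
    set d := a - b with hd
    have h0 : (Matrix.fromRows (S₀ * M.map (resB B z)) T₀) *ᵥ (d ∘ e.symm) = 0 := by
      have h1 := sub_eq_zero.mpr hab
      rw [← Matrix.mulVec_sub, ← hd, Matrix.submatrix_mulVec_equiv, Function.comp_id] at h1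
      exact h1
    rw [Matrix.fromRows_mulVec] at h0
    have hmem : d ∘ e.symm ∈ K := by
      rw [hK, LinearMap.mem_ker]
      exact funext fun i => congrFun h0 (Sum.inl i)
    have hT0 : T₀ *ᵥ (d ∘ e.symm) = 0 := funext fun i => congrFun h0 (Sum.inr i)
    have hzero : bK.equivFun (π (d ∘ e.symm)) = 0 := by
      rw [← hT0]
      exact (LinearMap.toMatrix'_mulVec (bK.equivFun.toLinearMap.comp π) _).symm
    rw [LinearEquiv.map_eq_zero_iff] at hzero
    have := LinearMap.congr_fun hπ ⟨_, hmem⟩
    rw [LinearMap.comp_apply, Submodule.subtype_apply, hzero, LinearMap.id_apply] at this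
    funext i
    have h2 := congrFun (congrArg Subtype.val this.symm) (e i)
    simpa using h2
  choose sl hsl using fun c : 𝕜 => residue_surjective c
  let S : Matrix (Fin s) p A := Matrix.of fun i j => sl (x (Sum.inl (i, j)))
  refine ⟨Matrix.of fun i j => x (Sum.inr (i, j)), fun T hT => ?_⟩
  let F : Matrix (Fin s ⊕ r) n B :=
    Matrix.fromRows (S.map (algebraMap A B) * M) (T.map (algebraMap A B))
  let Q : Matrix (Fin s ⊕ r) (Fin s ⊕ r) B := F.submatrix id e
  have hu : IsUnit Q.det := isUnit_det_of_forall_res Q fun z => by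
    have h := hx z
    rw [hΦ] at h
    convert h using 2
    rw [← hT]
    ext i j
    rcases i with i | i
    · simp only [Q, F, Matrix.map_apply, Matrix.submatrix_apply, Matrix.fromRows_apply_inl,
        Matrix.mul_apply, id_eq, map_sum, map_mul, Matrix.of_apply]
      refine Finset.sum_congr rfl fun c _ => ?_
      congr 1
      exact hsl _
    · rfl
  let J : Matrix (Fin s ⊕ r) r B := Matrix.fromRows 0 1
  let V : Matrix n r B := (Q⁻¹ * J).submatrix e.symm id
  have hFV : F * V = J := by
    have h1 : F * V = Q * (Q⁻¹ * J) := by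
      ext i j : 1
      simp only [Matrix.mul_apply, V, Q, Matrix.submatrix_apply, id_eq, ← e.sum_comp,
        Equiv.symm_apply_apply]
    rw [h1, ← Matrix.mul_assoc, Matrix.mul_nonsing_inv _ hu, Matrix.one_mul]
  have h1 : T.map (algebraMap A B) * V = 1 := by
    ext i j
    have := congrFun (congrFun hFV (Sum.inr i)) j
    simp only [F, J, Matrix.fromRows_mul, Matrix.fromRows_apply_inr] at this
    rw [this]
  refine ⟨V, h1, fun z => (Submodule.eq_of_le_of_finrank_eq (fun w hw => ?_)
    (by rw [finrank_colSpace_of_mul_eq_one h1, hW])).symm⟩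
  refine ⟨(T.map A.subtype) *ᵥ w, ?_⟩
  rw [Matrix.mulVecLin_apply]
  have hQ : IsUnit (Q.map (valB B z)) := by
    rw [Matrix.isUnit_iff_isUnit_det, ← RingHom.mapMatrix_apply, ← RingHom.map_det]
    exact hu.map _
  have hFinj : Function.Injective (F.map (valB B z)).mulVec := by
    intro a b hab
    have h2 := Matrix.mulVec_injective_iff_isUnit.mpr hQ (a₁ := a ∘ e) (a₂ := b ∘ e) (by
      simp only [Q, ← Matrix.submatrix_map]
      rw [Matrix.submatrix_mulVec_equiv, Matrix.submatrix_mulVec_equiv]
      simpa [Function.comp_assoc] using hab)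
    exact e.surjective.injective_comp_right h2
  refine hFinj ?_
  rw [Matrix.mulVec_mulVec, ← Matrix.map_mul, hFV]
  simp only [F, J]
  ext (i | i)
  · have h2 : ((S.map (algebraMap A B) * M).map (valB B z)) *ᵥ w = 0 := by
      rw [Matrix.map_mul, ← Matrix.mulVec_mulVec, hM z w hw, Matrix.mulVec_zero]
    have h3 := congrFun h2 i
    simp only [Matrix.mulVec, dotProduct, Matrix.map_apply, Pi.zero_apply] at h3 ⊢
    rw [show (∑ x, (valB B z) ((Matrix.fromRows (S.map (algebraMap A B) * M)
      (T.map (algebraMap A B))) (Sum.inl i) x) * w x) = 0 from h3]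
    exact Finset.sum_eq_zero fun c _ => by simp
  · simp only [Matrix.mulVec, dotProduct, Matrix.map_apply, Matrix.fromRows_apply_inr]
    rw [Finset.sum_eq_single i]
    · simp
      rfl
    · intro c _ hc
      simp [Matrix.one_apply_ne hc.symm]
    · intro h
      exact absurd (Finset.mem_univ i) h

end Fermat.Agent.FlatModel
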