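import Mathlib
import Fermat.Prelude.Def_GaloisRep_Flat

/-!
# The ring `ℤ_(ℓ)` as a subring of `ℚ`

It is a localisation of `ℤ`, a principal ideal ring, and integrally closed in `ℚ`
(`mem_ratLocalizedAt_of_isIntegral`).
-/

set_option autoImplicit false

open GaloisRep

namespace Fermat.Agent.FlatModel

theorem mem_ratLocalizedAt {ℓ : ℕ} (hℓ : ℓ.Prime) {q : ℚ} :
    q ∈ ratLocalizedAt ℓ ↔ ¬ ℓ ∣ q.den := by
  show q.den.Coprime ℓ ↔ _
  rw [Nat.coprime_comm, hℓ.coprime_iff_not_dvd]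

theorem div_mem_ratLocalizedAt {ℓ : ℕ} (hℓ : ℓ.Prime) {a b : ℤ} (hb : ¬ (ℓ : ℤ) ∣ b) :
    (a : ℚ) / b ∈ ratLocalizedAt ℓ := by
  rw [mem_ratLocalizedAt hℓ]
  intro h
  apply hb
  have h1 : (((a : ℚ) / b).den : ℤ) ∣ b := by
    rw [← Rat.divInt_eq_div]
    exact Rat.den_dvd a b
  exact (Int.natCast_dvd_natCast.mpr h).trans h1

variable (ℓ : ℕ) [hℓ : Fact ℓ.Prime]

instance instAlgebraIntRatLocalizedAt : Algebra ℤ (ratLocalizedAt ℓ) :=
  Ring.toIntAlgebra _

instance isLocalization_ratLocalizedAt :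
    IsLocalization (Submonoid.comap (Int.castRingHom (ratLocalizedAt ℓ)).toMonoidHom
      (IsUnit.submonoid (ratLocalizedAt ℓ))) (ratLocalizedAt ℓ) := by
  rw [isLocalization_iff]
  refine ⟨fun y => y.2, fun z => ?_, fun {x y} h => ⟨1, ?_⟩⟩
  · have hden : ¬ (ℓ : ℤ) ∣ ((z : ℚ).den : ℤ) := fun h =>
      (mem_ratLocalizedAt hℓ.out).mp z.2 (Int.natCast_dvd_natCast.mp h)
    have hu : IsUnit (((z : ℚ).den : ℤ) : ratLocalizedAt ℓ) := by
      refine IsUnit.of_mul_eq_one ⟨((1 : ℤ) : ℚ) / ((z : ℚ).den : ℤ),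
        div_mem_ratLocalizedAt hℓ.out hden⟩ (Subtype.ext ?_)
      simp
    refine ⟨⟨(z : ℚ).num, ⟨((z : ℚ).den : ℤ), hu⟩⟩, Subtype.ext ?_⟩
    simp [eq_intCast, Rat.mul_den_eq_num]
  · have h' : ((x : ratLocalizedAt ℓ) : ℚ) = ((y : ratLocalizedAt ℓ) : ℚ) := by
      simpa [eq_intCast] using congrArg Subtype.val h
    simpa using h'

theorem mem_or_inv_mem_ratLocalizedAt (q : ℚ) :
    q ∈ ratLocalizedAt ℓ ∨ q⁻¹ ∈ ratLocalizedAt ℓ := by
  rw [mem_ratLocalizedAt hℓ.out, mem_ratLocalizedAt hℓ.out]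
  by_contra h
  push Not at h
  obtain ⟨h1, h2⟩ := h
  have h3 : ℓ ∣ q.num.natAbs := by
    rcases eq_or_ne q 0 with rfl | hq
    · simp at h1
      exact absurd h1 hℓ.out.one_lt.ne'
    · rwa [Rat.den_inv_of_ne_zero hq] at h2
  exact Nat.not_coprime_of_dvd_of_dvd hℓ.out.one_lt h3 h1 q.reduced

instance isPrincipalIdealRing_ratLocalizedAt : IsPrincipalIdealRing (ratLocalizedAt ℓ) := by
  have : IsNoetherianRing (ratLocalizedAt ℓ) :=
    IsLocalization.isNoetherianRing (Submonoid.comap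
      (Int.castRingHom (ratLocalizedAt ℓ)).toMonoidHom
      (IsUnit.submonoid (ratLocalizedAt ℓ))) (ratLocalizedAt ℓ) inferInstance
  have : ValuationRing (ratLocalizedAt ℓ) := by
    refine ValuationRing.iff_dvd_total.mpr ⟨fun a b => ?_⟩
    rcases eq_or_ne (a : ℚ) 0 with ha | ha
    · exact Or.inr ⟨0, Subtype.ext (by simp [ha])⟩
    rcases eq_or_ne (b : ℚ) 0 with hb | hb
    · exact Or.inl ⟨0, Subtype.ext (by simp [hb])⟩
    rcases mem_or_inv_mem_ratLocalizedAt ℓ ((b : ℚ) / a) with h | h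
    · exact Or.inl ⟨⟨_, h⟩, Subtype.ext (by simp [mul_div_cancel₀ _ ha])⟩
    · exact Or.inr ⟨⟨_, h⟩, Subtype.ext (by simp [inv_div, mul_div_cancel₀ _ hb])⟩
  exact IsPrincipalIdealRing.of_isNoetherianRing_of_isBezout

/-- A rational number integral over `ℤ_(ℓ)` lies in `ℤ_(ℓ)`. -/
theorem mem_ratLocalizedAt_of_isIntegral {q : ℚ} (h : IsIntegral (ratLocalizedAt ℓ) q) :
    q ∈ ratLocalizedAt ℓ := by
  rcases mem_or_inv_mem_ratLocalizedAt ℓ q with hq | hq
  · exact hq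
  rcases eq_or_ne q 0 with rfl | hq0
  · exact (ratLocalizedAt ℓ).zero_mem
  obtain ⟨p, hp, hpq⟩ := h
  let x : ratLocalizedAt ℓ := ⟨q⁻¹, hq⟩
  obtain ⟨r, hr⟩ : ∃ r : ratLocalizedAt ℓ, x * r = 1 := by
    refine ⟨-(p.reverse.divX.eval x), ?_⟩
    have hd := congrArg (Polynomial.eval x) p.reverse.divX_mul_X_add
    simp only [Polynomial.eval_add, Polynomial.eval_mul, Polynomial.eval_X,
      Polynomial.eval_C, Polynomial.coeff_zero_reverse, hp.leadingCoeff] at hd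
    have h0 : p.reverse.eval x = 0 := by
      have : Invertible q := invertibleOfNonzero hq0
      have h1 := (Polynomial.eval₂_reverse_eq_zero_iff
        (algebraMap (ratLocalizedAt ℓ) ℚ) q p).mpr hpq
      rw [invOf_eq_inv] at h1
      apply Subtype.ext
      rw [show ((p.reverse.eval x : ratLocalizedAt ℓ) : ℚ)
        = algebraMap (ratLocalizedAt ℓ) ℚ (p.reverse.eval x) from rfl,
        ← Polynomial.eval₂_at_apply]
      exact h1
    rw [h0] at hd
    linear_combination -hd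
  have : q = (r : ℚ) := by
    have h2 : q⁻¹ * (r : ℚ) = 1 := congrArg Subtype.val hr
    field_simp at h2
    exact h2.symm
  rw [this]
  exact r.2

end Fermat.Agent.FlatModel
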