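import Fermat.Agent.FlatModel.LocalRing
import Fermat.Agent.Gal.Places

/-!
# Flat models of finite Galois modules

A flat model of a finite abelian group `G` with an action of the absolute Galois group of `ℚ` is a
finite `ℤ_(ℓ)`-algebra of equivariant functions `G → ℚ̄` which separates the points and is closed
under the comultiplication `φ ↦ φ (x + y)`.

Main results: `linearIndependent_qbar` and `Model.exists_eval_eq`, that the points of a model
are the elements of `G`.
-/

set_option autoImplicit false

open GaloisRep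

namespace Fermat.Agent.FlatModel

/-- The algebraic closure of `ℚ`. -/
abbrev Qbar : Type := AlgebraicClosure ℚ

/-- The absolute Galois group of `ℚ`. -/
abbrev GalQ : Type := Qbar ≃ₐ[ℚ] Qbar

variable (ℓ : ℕ) [hℓ : Fact ℓ.Prime]

local notation "R" => ratLocalizedAt ℓ

omit hℓ in
theorem algebraMap_ratLoc_apply (r : R) : algebraMap R Qbar r = algebraMap ℚ Qbar (r : ℚ) := rfl

omit hℓ in
theorem algebraMap_ratLoc_injective : Function.Injective (algebraMap R Qbar) := fun a b h => by
  rw [algebraMap_ratLoc_apply, algebraMap_ratLoc_apply] at h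
  exact Subtype.ext ((algebraMap ℚ Qbar).injective h)

omit hℓ in
theorem smul_ratLoc_apply (r : R) (z : Qbar) : r • z = algebraMap ℚ Qbar (r : ℚ) * z := by
  rw [Algebra.smul_def, algebraMap_ratLoc_apply]

omit hℓ in
theorem isTorsionFree_functions (X : Type*) : Module.IsTorsionFree R (X → Qbar) where
  isSMulRegular r hr := by
    intro f g hfg
    funext x
    have hx : r • f x = r • g x := congrFun hfg x
    rw [smul_ratLoc_apply, smul_ratLoc_apply] at hx
    refine mul_left_cancel₀ ?_ hx
    rw [← algebraMap_ratLoc_apply]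
    exact fun h => hr.ne_zero (algebraMap_ratLoc_injective ℓ (h.trans (map_zero _).symm))

omit hℓ in
/-- Equivariant functions which are independent over `ℤ_(ℓ)` are independent over `ℚ̄`. -/
theorem linearIndependent_qbar {X ι : Type*} (act : GalQ → X → X)
    (hsurj : ∀ σ, Function.Surjective (act σ)) {v : ι → X → Qbar}
    (hv : ∀ i σ x, v i (act σ x) = σ (v i x)) (hli : LinearIndependent R v) :
    LinearIndependent Qbar v := by
  classical
  rw [linearIndependent_iff']
  intro s
  induction s using Finset.strongInduction with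
  | _ s ih =>
    intro c hc j hj
    by_contra hcj
    set d : ι → Qbar := fun i => c i / c j with hd
    have hdj : d j = 1 := div_self hcj
    have hrel : ∀ y, ∑ i ∈ s, d i * v i y = 0 := by
      intro y
      have h1 := congrFun hc y
      simp only [Finset.sum_apply, Pi.smul_apply, smul_eq_mul, Pi.zero_apply] at h1
      calc ∑ i ∈ s, d i * v i y = (c j)⁻¹ * ∑ i ∈ s, c i * v i y := by
            rw [Finset.mul_sum]
            exact Finset.sum_congr rfl fun i _ => by rw [hd]; ring
        _ = 0 := by rw [h1, mul_zero]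
    have hfix : ∀ i ∈ s, ∀ σ : GalQ, σ (d i) = d i := by
      intro i hi σ
      rcases eq_or_ne i j with rfl | hij
      · rw [hdj, map_one]
      refine sub_eq_zero.mp (ih (s.erase j) (Finset.erase_ssubset hj)
        (fun i => σ (d i) - d i) ?_ i (Finset.mem_erase.mpr ⟨hij, hi⟩))
      funext y
      obtain ⟨x, rfl⟩ := hsurj σ y
      simp only [Finset.sum_apply, Pi.smul_apply, smul_eq_mul, Pi.zero_apply]
      rw [Finset.sum_erase _ (by rw [hdj, map_one, sub_self, zero_mul])]
      have h1 := hrel (act σ x)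
      simp only [hv] at h1
      have h2 : ∑ i ∈ s, σ (d i) * σ (v i x) = 0 := by
        simpa [map_sum] using congrArg σ (hrel x)
      simp only [sub_mul, hv, Finset.sum_sub_distrib, h1, h2, sub_self]
    choose q hq using fun (i : ι) (hi : i ∈ s) =>
      (InfiniteGalois.mem_range_algebraMap_iff_fixed (d i)).mpr (hfix i hi)
    let qq : ι → ℚ := fun i => if h : i ∈ s then q i h else 0
    let D : ℕ := ∏ i ∈ s, (qq i).den
    have hD : D ≠ 0 := Finset.prod_ne_zero_iff.mpr fun i _ => (qq i).den_nz
    let n : ι → ℤ := fun i => (qq i).num * ∏ k ∈ s.erase i, ((qq k).den : ℤ)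
    have hn : ∀ i ∈ s, ((n i : ℤ) : Qbar) = (D : Qbar) * d i := by
      intro i hi
      have h1 : ((n i : ℤ) : ℚ) = (D : ℚ) * qq i := by
        simp only [n, D]
        rw [← Finset.mul_prod_erase s _ hi]
        push_cast
        rw [← Rat.mul_den_eq_num]
        ring
      have h2 : d i = algebraMap ℚ Qbar (qq i) := by
        simp only [qq, dif_pos hi]
        exact (hq i hi).symm
      rw [h2, ← map_intCast (algebraMap ℚ Qbar), h1, map_mul, map_natCast]
    have hzero : ∑ i ∈ s, (n i : R) • v i = 0 := by
      funext y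
      rw [Finset.sum_apply, Pi.zero_apply]
      simp only [Pi.smul_apply]
      rw [Finset.sum_congr rfl (g := fun i => (D : Qbar) * (d i * v i y)) fun i hi => by
          rw [Algebra.smul_def, map_intCast, hn i hi, mul_assoc],
        ← Finset.mul_sum, hrel, mul_zero]
    have hnj := linearIndependent_iff'.mp hli s (fun i => (n i : R)) hzero j hj
    have h3 := hn j hj
    rw [hdj, mul_one] at h3
    have h4 : ((n j : ℤ) : Qbar) = 0 := by
      rw [← map_intCast (algebraMap R Qbar), hnj, map_zero]
    exact hD (Nat.cast_eq_zero.mp (h3 ▸ h4))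

omit hℓ in
theorem linearIndependent_mul {X Y ι κ : Type*} {v : ι → X → Qbar} {w : κ → Y → Qbar}
    (hv : LinearIndependent Qbar v) (hw : LinearIndependent Qbar w) :
    LinearIndependent Qbar (fun q : ι × κ => fun p : X × Y => v q.1 p.1 * w q.2 p.2) := by
  classical
  rw [linearIndependent_iff']
  intro s c hc q hq
  let c' : ι × κ → Qbar := fun q => if q ∈ s then c q else 0
  have h : ∀ x y,
      ∑ i ∈ s.image Prod.fst, (∑ j ∈ s.image Prod.snd, c' (i, j) * w j y) * v i x = 0 := by
    intro x y
    have h1 := congrFun hc (x, y)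
    simp only [Finset.sum_apply, Pi.smul_apply, smul_eq_mul, Pi.zero_apply] at h1
    calc ∑ i ∈ s.image Prod.fst, (∑ j ∈ s.image Prod.snd, c' (i, j) * w j y) * v i x
        = ∑ q ∈ s.image Prod.fst ×ˢ s.image Prod.snd, c' q * w q.2 y * v q.1 x := by
          simp only [Finset.sum_mul]
          rw [Finset.sum_product]
      _ = ∑ q ∈ s, c q * (v q.1 x * w q.2 y) := by
          refine (Finset.sum_subset_zero_on_sdiff Finset.subset_product (fun q hq => ?_)
            fun q hq => ?_).symm
          · simp [c', (Finset.mem_sdiff.mp hq).2]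
          · simp [c', hq]; ring
      _ = 0 := h1
  have h' : ∀ y, ∀ i ∈ s.image Prod.fst, ∑ j ∈ s.image Prod.snd, c' (i, j) * w j y = 0 := fun y =>
    linearIndependent_iff'.mp hv _ _ (funext fun x => by simpa using h x y)
  have := linearIndependent_iff'.mp hw _ (fun j => c' (q.1, j))
    (funext fun y => by simpa using h' y q.1 (Finset.mem_image_of_mem _ hq)) q.2
    (Finset.mem_image_of_mem _ hq)
  simpa [c', hq] using this

omit hℓ in
/-- A separating algebra of functions on a finite set spans all functions. -/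
theorem span_eq_top_of_separates {X : Type*} [Finite X] (H : Subalgebra R (X → Qbar))
    (hsep : ∀ x y, (∀ φ ∈ H, φ x = φ y) → x = y) :
    Submodule.span Qbar (H : Set (X → Qbar)) = ⊤ := by
  classical
  cases nonempty_fintype X
  set V := Submodule.span Qbar (H : Set (X → Qbar)) with hV
  have hone : (1 : X → Qbar) ∈ V := Submodule.subset_span H.one_mem
  have hmul : ∀ f ∈ V, ∀ g ∈ V, f * g ∈ V := fun f hf g hg => by
    induction hf, hg using Submodule.span_induction₂ with
    | mem_mem f g hf hg => exact Submodule.subset_span (H.mul_mem hf hg)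
    | zero_left g _ => simp
    | zero_right f _ => simp
    | add_left f g h _ _ _ h₁ h₂ => rw [add_mul]; exact V.add_mem h₁ h₂
    | add_right f g h _ _ _ h₁ h₂ => rw [mul_add]; exact V.add_mem h₁ h₂
    | smul_left c f g _ _ h => rw [smul_mul_assoc]; exact V.smul_mem c h
    | smul_right c f g _ _ h => rw [mul_smul_comm]; exact V.smul_mem c h
  have hδ : ∀ x : X, (Pi.single x (1 : Qbar) : X → Qbar) ∈ V := by
    intro x
    have hy : ∀ y ∈ (Finset.univ.erase x), ∃ f ∈ V, f x = 1 ∧ f y = 0 := by
      intro y hy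
      obtain ⟨φ, hφ, hne⟩ : ∃ φ ∈ H, φ x ≠ φ y := by
        by_contra h
        push Not at h
        exact (Finset.mem_erase.mp hy).1 (hsep x y h).symm
      refine ⟨(φ x - φ y)⁻¹ • (φ - φ y • (1 : X → Qbar)), V.smul_mem _ (V.sub_mem
        (Submodule.subset_span hφ) (V.smul_mem _ hone)), ?_, by simp⟩
      simp [sub_ne_zero.mpr hne]
    choose f hfV hfx hfy using hy
    have : (Pi.single x (1 : Qbar) : X → Qbar)
        = ∏ y ∈ (Finset.univ.erase x).attach, f y.1 y.2 := by
      funext z
      rcases eq_or_ne z x with rfl | hz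
      · simp [Finset.prod_apply, hfx]
      · rw [Pi.single_eq_of_ne hz, Finset.prod_apply, Finset.prod_eq_zero
          (Finset.mem_attach _ ⟨z, Finset.mem_erase.mpr ⟨hz, Finset.mem_univ z⟩⟩) (hfy _ _)]
    rw [this]
    exact Finset.prod_induction _ (· ∈ V) (fun a b ha hb => hmul a ha b hb) hone
      fun y _ => hfV y.1 y.2
  refine eq_top_iff.mpr fun g _ => ?_
  have : g = ∑ x, g x • (Pi.single x (1 : Qbar) : X → Qbar) := by
    funext z
    simp [Finset.sum_apply, Pi.single_apply]
  rw [this]
  exact V.sum_mem fun x _ => V.smul_mem _ (hδ x)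

variable {G : Type*} [AddCommGroup G] (act : GalQ →* AddMonoid.End G)

/-- `φ` commutes with the Galois actions. -/
def Equivariant (φ : G → Qbar) : Prop := ∀ σ x, φ (act σ x) = σ (φ x)

theorem act_surjective (σ : GalQ) : Function.Surjective (act σ) := fun x =>
  ⟨act σ⁻¹ x, by
    show (act σ * act σ⁻¹) x = x
    rw [← map_mul, mul_inv_cancel, map_one]
    rfl⟩

/-- A flat model of the Galois module `(G, act)` over `ℤ_(ℓ)`. -/
structure Model where
  /-- the algebra of functions -/
  H : Subalgebra R (G → Qbar)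
  finite : Module.Finite R H
  equivariant : ∀ φ ∈ H, Equivariant act φ
  separates : ∀ x y, (∀ φ ∈ H, φ x = φ y) → x = y
  add_mem : ∀ φ ∈ H, (fun p : G × G => φ (p.1 + p.2)) ∈
    Submodule.span R {F : G × G → Qbar | ∃ a ∈ H, ∃ b ∈ H, F = fun p => a p.1 * b p.2}

namespace Model

variable {ℓ act} (M : Model ℓ act)

theorem free : Module.Free R M.H := by
  have := M.finite
  have := isTorsionFree_functions ℓ G
  have : Module.IsTorsionFree R M.H :=
    Function.Injective.moduleIsTorsionFree _ Subtype.val_injective fun _ _ => rfl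
  exact Module.free_of_finite_type_torsion_free'

omit hℓ in
theorem linearIndependent_basis {ι : Type*} (b : Module.Basis ι R M.H) :
    LinearIndependent Qbar (fun i => ((b i : M.H) : G → Qbar)) :=
  linearIndependent_qbar ℓ (fun σ x => act σ x) (act_surjective act)
    (fun i σ x => M.equivariant _ (b i).2 σ x)
    (b.linearIndependent.map' M.H.val.toLinearMap
      (LinearMap.ker_eq_bot.mpr Subtype.val_injective))

theorem apply_zero_mem {φ : G → Qbar} (hφ : φ ∈ M.H) :
    ∃ r : R, φ 0 = algebraMap R Qbar r := by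
  have := M.finite
  obtain ⟨q, hq⟩ := (InfiniteGalois.mem_range_algebraMap_iff_fixed (φ 0)).mpr fun σ => by
    have := M.equivariant φ hφ σ 0
    rw [map_zero] at this
    exact this.symm
  have hint : IsIntegral R (φ 0) := by
    have h : IsIntegral R (⟨φ, hφ⟩ : M.H) := IsIntegral.of_finite R _
    exact h.map ((Pi.evalAlgHom R (fun _ : G => Qbar) 0).comp M.H.val)
  rw [← hq] at hint
  have hint' : IsIntegral R q :=
    (isIntegral_algebraMap_iff (A := ℚ) (B := Qbar) (algebraMap ℚ Qbar).injective).mp hint
  exact ⟨⟨q, mem_ratLocalizedAt_of_isIntegral ℓ hint'⟩, hq.symm⟩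

theorem nsmul_comp_mem (m : ℕ) {φ : G → Qbar} (hφ : φ ∈ M.H) : (fun x => φ (m • x)) ∈ M.H := by
  induction m generalizing φ with
  | zero =>
    obtain ⟨r, hr⟩ := M.apply_zero_mem hφ
    have : (fun x : G => φ ((0 : ℕ) • x)) = algebraMap R (G → Qbar) r :=
      funext fun x => by rw [zero_smul, hr]; rfl
    rw [this]
    exact M.H.algebraMap_mem r
  | succ m ih =>
    let L : (G × G → Qbar) →ₗ[R] (G → Qbar) := LinearMap.funLeft R Qbar fun x => (m • x, x)
    have h := Submodule.mem_map_of_mem (f := L) (M.add_mem φ hφ)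
    rw [Submodule.map_span] at h
    have hle : Submodule.span R (L '' {F : G × G → Qbar | ∃ a ∈ M.H, ∃ b ∈ M.H,
        F = fun p => a p.1 * b p.2}) ≤ Subalgebra.toSubmodule M.H := by
      rw [Submodule.span_le]
      rintro _ ⟨_, ⟨a, ha, b, hb, rfl⟩, rfl⟩
      exact M.H.mul_mem (ih ha) hb
    have h' : L (fun p : G × G => φ (p.1 + p.2)) = fun x => φ ((m + 1) • x) :=
      funext fun x => by simp [L, LinearMap.funLeft_apply, succ_nsmul]
    rw [← h']
    exact hle h

theorem neg_comp_mem [Finite G] {φ : G → Qbar} (hφ : φ ∈ M.H) : (fun x => φ (-x)) ∈ M.H := by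
  have : (fun x => φ (-x)) = fun x => φ ((Nat.card G - 1) • x) := funext fun x => by
    congr 1
    rw [eq_comm, ← add_eq_zero_iff_eq_neg, ← succ_nsmul, Nat.sub_add_cancel (Nat.card_pos)]
    exact card_nsmul_eq_zero'
  rw [this]
  exact M.nsmul_comp_mem _ hφ

omit hℓ in
theorem span_eq_top [Finite G] : Submodule.span Qbar (M.H : Set (G → Qbar)) = ⊤ :=
  span_eq_top_of_separates ℓ M.H M.separates

/-- Every point of the algebra of a model is the evaluation at an element of the group. -/
theorem exists_eval_eq [Finite G] (χ : M.H →ₐ[R] Qbar) :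
    ∃ x : G, ∀ φ : M.H, χ φ = (φ : G → Qbar) x := by
  classical
  cases nonempty_fintype G
  have := M.free
  have := M.finite
  let b := Module.Free.chooseBasis R M.H
  have hspan : ⊤ ≤ Submodule.span Qbar (Set.range fun i => ((b i : M.H) : G → Qbar)) := by
    rw [← M.span_eq_top, Submodule.span_le]
    intro φ hφ
    have h1 := congrArg Subtype.val (b.sum_repr ⟨φ, hφ⟩)
    rw [AddSubmonoidClass.coe_finsetSum] at h1
    show φ ∈ Submodule.span Qbar _
    rw [← show _ = φ from h1]
    refine Submodule.sum_mem _ fun i _ => ?_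
    show (b.repr _ i) • ((b i : M.H) : G → Qbar) ∈ _
    rw [← algebraMap_smul Qbar]
    exact Submodule.smul_mem _ _ (Submodule.subset_span ⟨i, rfl⟩)
  let B := Module.Basis.mk (M.linearIndependent_basis b) hspan
  let Ψ : (G → Qbar) →ₗ[Qbar] Qbar := B.constr Qbar fun i => χ (b i)
  have hΨ : ∀ φ : M.H, Ψ φ = χ φ := by
    intro φ
    have h : (Ψ.restrictScalars R).comp M.H.val.toLinearMap = χ.toLinearMap := by
      refine b.ext fun i => ?_
      show Ψ (b i : G → Qbar) = χ (b i)
      rw [show ((b i : M.H) : G → Qbar) = B i by simp [B]]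
      exact B.constr_basis Qbar _ i
    exact LinearMap.congr_fun h φ
  have hmul : ∀ f g, Ψ (f * g) = Ψ f * Ψ g := fun f g => by
    have hf : f ∈ Submodule.span Qbar (M.H : Set (G → Qbar)) := M.span_eq_top ▸ Submodule.mem_top
    have hg : g ∈ Submodule.span Qbar (M.H : Set (G → Qbar)) := M.span_eq_top ▸ Submodule.mem_top
    induction hf, hg using Submodule.span_induction₂ with
    | mem_mem f g hf hg =>
      rw [show f * g = ((⟨f, hf⟩ * ⟨g, hg⟩ : M.H) : G → Qbar) from rfl, hΨ, map_mul,
        hΨ ⟨f, hf⟩ |>.symm, hΨ ⟨g, hg⟩ |>.symm]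
    | zero_left g _ => simp
    | zero_right f _ => simp
    | add_left f g h _ _ _ h₁ h₂ => simp [add_mul, h₁, h₂]
    | add_right f g h _ _ _ h₁ h₂ => simp [mul_add, h₁, h₂]
    | smul_left c f g _ _ h => simp [h]; ring
    | smul_right c f g _ _ h => simp [h]; ring
  have hone : Ψ 1 = 1 := by
    rw [show (1 : G → Qbar) = ((1 : M.H) : G → Qbar) from rfl, hΨ, map_one]
  let δ : G → G → Qbar := fun x => Pi.single x 1
  have hdec : ∀ f : G → Qbar, Ψ f = ∑ x, f x * Ψ (δ x) := by
    intro f
    conv_lhs => rw [show f = ∑ x, f x • δ x from funext fun z => by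
      simp [δ, Finset.sum_apply, Pi.single_apply]]
    simp [map_sum]
  obtain ⟨x, hx⟩ : ∃ x, Ψ (δ x) ≠ 0 := by
    by_contra h
    push Not at h
    have := hdec 1
    simp [h, hone] at this
  refine ⟨x, fun φ => ?_⟩
  have hz : ∀ z, z ≠ x → Ψ (δ z) = 0 := by
    intro z hz
    have h1 := hmul (δ x) (δ z)
    rw [show δ x * δ z = 0 from funext fun w => by
      rcases eq_or_ne w x with rfl | hw
      · simp [δ, hz.symm]
      · simp [δ, hw], map_zero] at h1
    exact (mul_eq_zero.mp h1.symm).resolve_left hx
  have hx1 : Ψ (δ x) = 1 := by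
    have h1 := hmul (δ x) (δ x)
    rw [show δ x * δ x = δ x from funext fun w => by simp [δ, Pi.single_apply]] at h1
    exact mul_left_cancel₀ hx (by rw [mul_one, ← h1])
  rw [← hΨ, hdec, Finset.sum_eq_single x (fun z _ h => by rw [hz z h, mul_zero])
    (fun h => absurd (Finset.mem_univ x) h), hx1, mul_one]

end Model

end Fermat.Agent.FlatModel
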