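import Fermat.Agent.FlatModel.Order

/-!
# Flat models of submodules, quotients and powers

If a finite Galois module has a flat model, so does every stable subgroup, every equivariant
quotient and every finite product of such modules.

Main constructions: `Model.comap`, `Model.map` and `Model.pi`.
-/

set_option autoImplicit false

open GaloisRep

namespace Fermat.Agent.FlatModel

variable {ℓ : ℕ} [Fact ℓ.Prime]

local notation "R" => ratLocalizedAt ℓ

omit [Fact ℓ.Prime] in
/-- Pullback of functions, as an algebra homomorphism. -/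
def pullback {X Y : Type*} (f : X → Y) : (Y → Qbar) →ₐ[R] (X → Qbar) where
  toFun φ x := φ (f x)
  map_one' := rfl
  map_mul' _ _ := rfl
  map_zero' := rfl
  map_add' _ _ := rfl
  commutes' _ := rfl

omit [Fact ℓ.Prime] in
@[simp]
theorem pullback_apply {X Y : Type*} (f : X → Y) (φ : Y → Qbar) (x : X) :
    pullback (ℓ := ℓ) f φ x = φ (f x) := rfl

omit [Fact ℓ.Prime] in
/-- Spans of products of two functions of a subalgebra are closed under multiplication. -/
theorem mul_mem_span_products {X : Type*} (K : Subalgebra R (X → Qbar))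
    {f g : X × X → Qbar}
    (hf : f ∈ Submodule.span R {F | ∃ a ∈ K, ∃ b ∈ K, F = fun p => a p.1 * b p.2})
    (hg : g ∈ Submodule.span R {F | ∃ a ∈ K, ∃ b ∈ K, F = fun p => a p.1 * b p.2}) :
    f * g ∈ Submodule.span R {F | ∃ a ∈ K, ∃ b ∈ K, F = fun p => a p.1 * b p.2} := by
  induction hf, hg using Submodule.span_induction₂ with
  | mem_mem f g hf hg =>
    obtain ⟨a, ha, b, hb, rfl⟩ := hf
    obtain ⟨a', ha', b', hb', rfl⟩ := hg
    refine Submodule.subset_span ⟨a * a', K.mul_mem ha ha', b * b', K.mul_mem hb hb', ?_⟩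
    funext p
    simp only [Pi.mul_apply]
    ring
  | zero_left g _ => simp
  | zero_right f _ => simp
  | add_left f g h _ _ _ h₁ h₂ => rw [add_mul]; exact Submodule.add_mem _ h₁ h₂
  | add_right f g h _ _ _ h₁ h₂ => rw [mul_add]; exact Submodule.add_mem _ h₁ h₂
  | smul_left c f g _ _ h => rw [smul_mul_assoc]; exact Submodule.smul_mem _ c h
  | smul_right c f g _ _ h => rw [mul_smul_comm]; exact Submodule.smul_mem _ c h

namespace Model

variable {G G' : Type*} [AddCommGroup G] [AddCommGroup G'] {act : GalQ →* AddMonoid.End G}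
  {act' : GalQ →* AddMonoid.End G'}

/-- The model of a stable subgroup: restrict the functions. -/
noncomputable def comap (M : Model ℓ act) (i : G' →+ G) (hi : Function.Injective i)
    (hcomm : ∀ σ x, i (act' σ x) = act σ (i x)) : Model ℓ act' where
  H := M.H.map (pullback i)
  finite := by
    have h : (Subalgebra.toSubmodule M.H).FG :=
      Module.Finite.iff_fg.mp (show Module.Finite R (Subalgebra.toSubmodule M.H) from M.finite)
    exact Module.Finite.iff_fg.mpr (h.map (pullback (ℓ := ℓ) i).toLinearMap)
  equivariant := by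
    rintro _ ⟨φ, hφ, rfl⟩ σ x
    show φ (i (act' σ x)) = σ (φ (i x))
    rw [hcomm, M.equivariant φ hφ]
  separates x y h := hi (M.separates _ _ fun φ hφ => h _ ⟨φ, hφ, rfl⟩)
  add_mem := by
    rintro _ ⟨φ, hφ, rfl⟩
    let L : (G × G → Qbar) →ₗ[R] (G' × G' → Qbar) :=
      LinearMap.funLeft R Qbar (Prod.map i i)
    have h := Submodule.mem_map_of_mem (f := L) (M.add_mem φ hφ)
    rw [Submodule.map_span] at h
    have hL : L (fun p : G × G => φ (p.1 + p.2)) = fun p => φ (i (p.1 + p.2)) :=
      funext fun p => by simp [L, LinearMap.funLeft_apply, map_add]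
    rw [hL] at h
    refine Submodule.span_mono ?_ h
    rintro _ ⟨_, ⟨a, ha, b, hb, rfl⟩, rfl⟩
    exact ⟨pullback (ℓ := ℓ) i a, Subalgebra.mem_map.mpr ⟨a, ha, rfl⟩,
      pullback (ℓ := ℓ) i b, Subalgebra.mem_map.mpr ⟨b, hb, rfl⟩, rfl⟩

/-- A basis of all functions coming from a basis of the model. -/
noncomputable def qBasis [Finite G] (M : Model ℓ act) {ι : Type*} (b : Module.Basis ι R M.H) :
    Module.Basis ι Qbar (G → Qbar) :=
  Module.Basis.mk
    (linearIndependent_qbar ℓ (fun σ x => act σ x) (act_surjective act)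
      (fun i σ x => M.equivariant _ (b i).2 σ x)
      (b.linearIndependent.map' M.H.val.toLinearMap
        (LinearMap.ker_eq_bot.mpr Subtype.val_injective)))
    (by
      rw [← M.span_eq_top, Submodule.span_le]
      intro φ hφ
      have h1 : (Finsupp.linearCombination R (fun i => ((b i : M.H) : G → Qbar))
          (b.repr ⟨φ, hφ⟩)) = φ := by
        have h2 := congrArg M.H.val.toLinearMap (b.linearCombination_repr ⟨φ, hφ⟩)
        rwa [Finsupp.apply_linearCombination] at h2
      rw [SetLike.mem_coe, ← h1, Finsupp.linearCombination_apply]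
      refine Submodule.sum_mem _ fun i _ => ?_
      show (b.repr _ i) • ((b i : M.H) : G → Qbar) ∈ _
      rw [← algebraMap_smul Qbar]
      exact Submodule.smul_mem _ _ (Submodule.subset_span ⟨i, rfl⟩))

omit [AddCommGroup G'] in
/-- Some nonzero multiple of an equivariant function lies in the model. -/
theorem exists_nsmul_mem [Finite G] (M : Model ℓ act) {φ : G → Qbar} (hφ : Equivariant act φ) :
    ∃ D : ℕ, D ≠ 0 ∧ (fun x => (D : Qbar) * φ x) ∈ M.H := by
  classical
  have := M.free
  have := M.finite
  let b := Module.Free.chooseBasis R M.H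
  let B := M.qBasis b
  have hB : ∀ i, B i = ((b i : M.H) : G → Qbar) := fun i => Module.Basis.mk_apply _ _ i
  have hfix : ∀ i (σ : GalQ), σ (B.repr φ i) = B.repr φ i := by
    intro i σ
    have h : ∑ j, (σ (B.repr φ j) - B.repr φ j) • B j = 0 := by
      funext y
      obtain ⟨x, rfl⟩ := act_surjective act σ y
      have h1 : ∀ z, ∑ j, B.repr φ j * B j z = φ z := fun z => by
        simpa [Finset.sum_apply] using congrFun (B.sum_repr φ) z
      simp only [Finset.sum_apply, Pi.smul_apply, smul_eq_mul, sub_mul, Pi.zero_apply,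
        Finset.sum_sub_distrib]
      rw [h1, sub_eq_zero, hφ σ x, ← h1 x, map_sum]
      refine Finset.sum_congr rfl fun j _ => ?_
      rw [map_mul, hB, M.equivariant _ (b j).2 σ x]
    exact sub_eq_zero.mp (Fintype.linearIndependent_iff.mp B.linearIndependent _ h i)
  choose q hq using fun i =>
    (InfiniteGalois.mem_range_algebraMap_iff_fixed (B.repr φ i)).mpr (hfix i)
  refine ⟨∏ i, (q i).den, Finset.prod_ne_zero_iff.mpr fun i _ => (q i).den_nz, ?_⟩
  let n : Module.Free.ChooseBasisIndex R M.H → ℤ :=
    fun i => (q i).num * ∏ k ∈ Finset.univ.erase i, ((q k).den : ℤ)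
  have hn : ∀ i, ((n i : ℤ) : Qbar) = ((∏ k, (q k).den : ℕ) : Qbar) * B.repr φ i := by
    intro i
    have h1 : ((n i : ℤ) : ℚ) = ((∏ k, (q k).den : ℕ) : ℚ) * q i := by
      simp only [n]
      rw [← Finset.mul_prod_erase Finset.univ _ (Finset.mem_univ i)]
      push_cast
      rw [← Rat.mul_den_eq_num]
      ring
    rw [← hq i, ← map_intCast (algebraMap ℚ Qbar), h1, map_mul, map_natCast]
  have h : (fun x => ((∏ k, (q k).den : ℕ) : Qbar) * φ x) =
      ((∑ i, (n i : R) • b i : M.H) : G → Qbar) := by
    funext x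
    rw [AddSubmonoidClass.coe_finsetSum, Finset.sum_apply]
    conv_lhs => rw [← B.sum_repr φ, Finset.sum_apply, Finset.mul_sum]
    refine Finset.sum_congr rfl fun i _ => ?_
    show ((∏ k, (q k).den : ℕ) : Qbar) * (B.repr φ i * B i x) =
      (n i : R) • ((b i : M.H) : G → Qbar) x
    rw [Algebra.smul_def, map_intCast, hn, ← hB i, mul_assoc]
  rw [h]
  exact SetLike.coe_mem _

/-- The functions constant on the fibres separate the points of the quotient. -/
theorem map_separates [Finite G] (M : Model ℓ act) (π : G →+ G') (hπ : Function.Surjective π)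
    (hcomm : ∀ σ x, π (act σ x) = act' σ (π x)) (y y' : G')
    (h : ∀ ψ ∈ M.H.comap (pullback π), ψ y = ψ y') : y = y' := by
    classical
    have := Finite.of_surjective π hπ
    cases nonempty_fintype G
    cases nonempty_fintype G'
    let push : (G → Qbar) →ₗ[Qbar] (G' → Qbar) :=
      { toFun := fun φ z => ∑ x ∈ Finset.univ.filter (fun x => π x = z), φ x
        map_add' := fun f g => funext fun z => by simp [Finset.sum_add_distrib]
        map_smul' := fun c f => funext fun z => by simp [Finset.mul_sum] }
    have hpush : ∀ φ ∈ M.H, push φ y = push φ y' := by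
      intro φ hφ
      have heq : Equivariant act (fun x => push φ (π x)) := by
        intro σ x
        have hbij : Function.Bijective (act σ) :=
          Finite.surjective_iff_bijective.mp (act_surjective act σ)
        show ∑ z ∈ _, φ z = σ (∑ z ∈ _, φ z)
        rw [map_sum]
        refine (Finset.sum_bij (fun z _ => act σ z) ?_ (fun z _ z' _ h => hbij.1 h) ?_
          fun z _ => (M.equivariant φ hφ σ z).symm).symm
        · intro z hz
          simp only [Finset.mem_filter, Finset.mem_univ, true_and] at hz ⊢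
          rw [hcomm, hcomm, hz]
        · intro z hz
          obtain ⟨z', rfl⟩ := hbij.2 z
          simp only [Finset.mem_filter, Finset.mem_univ, true_and] at hz ⊢
          rw [hcomm, hcomm] at hz
          refine ⟨z', ?_, rfl⟩
          have h2 := congrArg (act' σ⁻¹) hz
          rwa [← Function.comp_apply (f := act' σ⁻¹), ← Function.comp_apply (f := act' σ⁻¹),
            ← AddMonoid.End.coe_mul, ← map_mul, inv_mul_cancel, map_one] at h2
      obtain ⟨D, hD, hDmem⟩ := M.exists_nsmul_mem heq
      have h2 := h (fun z => (D : Qbar) * push φ z)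
        (show (fun z => (D : Qbar) * push φ z) ∈ M.H.comap (pullback π) from hDmem)
      exact mul_left_cancel₀ (Nat.cast_ne_zero.mpr hD) h2
    by_contra hne
    obtain ⟨x, rfl⟩ := hπ y
    have hδ : ∀ f : G → Qbar, push f (π x) = push f y' := fun f => by
      have hf : f ∈ Submodule.span Qbar (M.H : Set (G → Qbar)) :=
        M.span_eq_top ▸ Submodule.mem_top
      induction hf using Submodule.span_induction with
      | mem g hg => exact hpush g hg
      | zero => simp
      | add a b _ _ ha hb => simp [ha, hb]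
      | smul c a _ ha => simp [ha]
    have h2 := hδ (Pi.single x 1)
    simp [push, hne] at h2

/-- The model of an equivariant quotient: the functions of `H` constant on the fibres. -/
noncomputable def map [Finite G] (M : Model ℓ act) (π : G →+ G') (hπ : Function.Surjective π)
    (hcomm : ∀ σ x, π (act σ x) = act' σ (π x)) : Model ℓ act' where
  H := M.H.comap (pullback π)
  finite := by
    have := M.finite
    let P : (M.H.comap (pullback (ℓ := ℓ) π)) →ₗ[R] M.H :=
      (((pullback (ℓ := ℓ) π).comp (M.H.comap (pullback π)).val).codRestrict M.H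
        fun ψ => ψ.2).toLinearMap
    refine Module.Finite.of_injective P fun a b h => Subtype.ext (funext fun y => ?_)
    obtain ⟨x, rfl⟩ := hπ y
    exact congrFun (congrArg Subtype.val h) x
  equivariant ψ hψ σ y := by
    obtain ⟨x, rfl⟩ := hπ y
    rw [← hcomm]
    exact M.equivariant _ hψ σ x
  separates := M.map_separates π hπ hcomm
  add_mem := by
    classical
    intro ψ hψ
    have := Finite.of_surjective π hπ
    have := M.free
    have := M.finite
    -- the functions of `H` constant on the fibres form a saturated submodule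
    let S : Submodule R M.H :=
      (Subalgebra.toSubmodule (M.H.comap (pullback (ℓ := ℓ) π))).map (pullback π).toLinearMap
        |>.comap M.H.val.toLinearMap
    have htf : Module.IsTorsionFree R (M.H ⧸ S) := by
      refine ⟨fun r hr => fun u v huv => ?_⟩
      obtain ⟨u, rfl⟩ := Submodule.Quotient.mk_surjective S u
      obtain ⟨v, rfl⟩ := Submodule.Quotient.mk_surjective S v
      have huv' : r • (u - v) ∈ S := by
        rw [← Submodule.Quotient.mk_eq_zero, smul_sub, Submodule.Quotient.mk_sub, sub_eq_zero]
        exact huv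
      refine (Submodule.Quotient.eq S).mpr ?_
      obtain ⟨g, hg, hgw⟩ := huv'
      have hr0 : algebraMap R Qbar r ≠ 0 := fun h =>
        hr.ne_zero (algebraMap_ratLoc_injective ℓ (h.trans (map_zero _).symm))
      have hgwx : ∀ x, g (π x) = algebraMap R Qbar r * ((u - v : M.H) : G → Qbar) x := fun x => by
        rw [← Algebra.smul_def]
        exact congrFun hgw x
      have he : pullback (ℓ := ℓ) π (fun z => (algebraMap R Qbar r)⁻¹ * g z) =
          ((u - v : M.H) : G → Qbar) := funext fun x => by
        show (algebraMap R Qbar r)⁻¹ * g (π x) = _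
        rw [hgwx, ← mul_assoc, inv_mul_cancel₀ hr0, one_mul]
      exact ⟨fun z => (algebraMap R Qbar r)⁻¹ * g z,
        (show pullback (ℓ := ℓ) π _ ∈ M.H from he ▸ (u - v).2), he⟩
    have : Module.Free R (M.H ⧸ S) := Module.free_of_finite_type_torsion_free'
    obtain ⟨sec, hsec⟩ := Module.projective_lifting_property S.mkQ LinearMap.id S.mkQ_surjective
    let P : M.H →ₗ[R] M.H := LinearMap.id - sec ∘ₗ S.mkQ
    have hP : ∀ v, P v ∈ S := fun v => by
      rw [← Submodule.Quotient.mk_eq_zero]
      show S.mkQ (v - sec (S.mkQ v)) = 0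
      rw [map_sub, show S.mkQ (sec (S.mkQ v)) = S.mkQ v from LinearMap.congr_fun hsec _, sub_self]
    have hPS : ∀ v ∈ S, P v = v := fun v hv => by
      show v - sec (S.mkQ v) = v
      rw [show S.mkQ v = 0 from (Submodule.Quotient.mk_eq_zero S).mpr hv, map_zero, sub_zero]
    let b := Module.Free.chooseBasis R M.H
    let B := M.qBasis b
    have hB : ∀ i, B i = ((b i : M.H) : G → Qbar) := fun i => Module.Basis.mk_apply _ _ i
    let T : (G → Qbar) →ₗ[Qbar] (G → Qbar) := B.constr Qbar fun i => ((P (b i) : M.H) : G → Qbar)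
    have hT : ∀ v : M.H, T v = ((P v : M.H) : G → Qbar) := by
      intro v
      have h : (T.restrictScalars R).comp M.H.val.toLinearMap = M.H.val.toLinearMap.comp P := by
        refine b.ext fun i => ?_
        show T (b i : G → Qbar) = _
        rw [← hB i]
        exact B.constr_basis Qbar _ i
      exact LinearMap.congr_fun h v
    have hTpull : ∀ f : G' → Qbar, T (fun x => f (π x)) = fun x => f (π x) := by
      intro f
      let K := M.H.comap (pullback (ℓ := ℓ) π)
      have hf : f ∈ Submodule.span Qbar (K : Set (G' → Qbar)) := by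
        rw [span_eq_top_of_separates ℓ K (M.map_separates π hπ hcomm)]
        exact Submodule.mem_top
      induction hf using Submodule.span_induction with
      | mem g hg =>
        have hg' : pullback (ℓ := ℓ) π g ∈ M.H := hg
        have h1 := hT ⟨_, hg'⟩
        rw [hPS _ ⟨g, hg, rfl⟩] at h1
        exact h1
      | zero => exact map_zero T
      | add a b _ _ ha hb =>
        show T ((fun x => a (π x)) + fun x => b (π x)) = _
        rw [map_add, ha, hb]; rfl
      | smul c a _ ha =>
        show T (c • fun x => a (π x)) = _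
        rw [map_smul, ha]; rfl
    have hPsec : ∀ v : M.H, ∃ g ∈ M.H.comap (pullback (ℓ := ℓ) π),
        (fun x => g (π x)) = ((P v : M.H) : G → Qbar) := fun v => hP v
    choose g hgmem hgeq using hPsec
    let sc : G' → G := Function.surjInv hπ
    have hsc : ∀ y, π (sc y) = y := Function.surjInv_eq hπ
    let L : (G × G → Qbar) →ₗ[R] (G' × G' → Qbar) :=
      { toFun := fun F p => T (fun x₁ => T (fun x₂ => F (x₁, x₂)) (sc p.2)) (sc p.1)
        map_add' := fun F F' => funext fun p => by
          show T (fun x₁ => T ((fun x₂ => F (x₁, x₂)) + fun x₂ => F' (x₁, x₂)) (sc p.2)) _ =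
            T _ _ + T _ _
          rw [← Pi.add_apply, ← map_add T]
          exact congrArg (fun F => T F (sc p.1))
            (funext fun x₁ => by rw [map_add, Pi.add_apply, Pi.add_apply])
        map_smul' := fun r F => funext fun p => by
          show T (fun x₁ => T (r • fun x₂ => F (x₁, x₂)) (sc p.2)) _ = r • T _ (sc p.1)
          rw [← Pi.smul_apply, ← LinearMap.map_smul_of_tower T]
          exact congrArg (fun F => T F (sc p.1))
            (funext fun x₁ => by rw [LinearMap.map_smul_of_tower, Pi.smul_apply, Pi.smul_apply]) }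
    have h := Submodule.mem_map_of_mem (f := L)
      (M.add_mem (pullback (ℓ := ℓ) π ψ) (show pullback (ℓ := ℓ) π ψ ∈ M.H from hψ))
    rw [Submodule.map_span] at h
    have hL : L (fun p : G × G => pullback (ℓ := ℓ) π ψ (p.1 + p.2)) =
        fun p => ψ (p.1 + p.2) := funext fun p => by
      have h1 : ∀ x₁, T (fun x₂ => ψ (π (x₁ + x₂))) (sc p.2) = ψ (π x₁ + p.2) := fun x₁ => by
        have h2 := congrFun (hTpull fun y => ψ (π x₁ + y)) (sc p.2)
        simpa [map_add, hsc] using h2
      show T (fun x₁ => T (fun x₂ => ψ (π (x₁ + x₂))) (sc p.2)) (sc p.1) = _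
      simp only [h1]
      have h2 := congrFun (hTpull fun y => ψ (y + p.2)) (sc p.1)
      simpa [hsc] using h2
    rw [hL] at h
    refine Submodule.span_mono ?_ h
    rintro _ ⟨_, ⟨a, ha, c, hc, rfl⟩, rfl⟩
    refine ⟨g ⟨a, ha⟩, hgmem _, g ⟨c, hc⟩, hgmem _, funext fun p => ?_⟩
    show T (fun x₁ => T (fun x₂ => a x₁ * c x₂) (sc p.2)) (sc p.1) = _
    have h1 : ∀ x₁, T (fun x₂ => a x₁ * c x₂) (sc p.2) = g ⟨c, hc⟩ p.2 * a x₁ := fun x₁ => by
      rw [show (fun x₂ => a x₁ * c x₂) = a x₁ • c from rfl, map_smul, hT ⟨c, hc⟩, Pi.smul_apply,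
        ← hgeq ⟨c, hc⟩]
      show a x₁ * g ⟨c, hc⟩ (π (sc p.2)) = _
      rw [hsc, mul_comm]
    simp only [h1]
    rw [show (fun x₁ => g ⟨c, hc⟩ p.2 * a x₁) = g ⟨c, hc⟩ p.2 • a from rfl, map_smul,
      hT ⟨a, ha⟩, Pi.smul_apply, ← hgeq ⟨a, ha⟩]
    show g ⟨c, hc⟩ p.2 * g ⟨a, ha⟩ (π (sc p.1)) = _
    rw [hsc, mul_comm]
/-- The model of a finite product. -/
noncomputable def pi {κ : Type*} [Finite κ] {F : κ → Type*} [∀ i, AddCommGroup (F i)]
    {actF : ∀ i, GalQ →* AddMonoid.End (F i)} (M : ∀ i, Model ℓ (actF i))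
    (act : GalQ →* AddMonoid.End (∀ i, F i)) (hact : ∀ σ x i, act σ x i = actF i σ (x i)) :
    Model ℓ act where
  H := Algebra.adjoin R (⋃ i, pullback (ℓ := ℓ) (fun x : ∀ i, F i => x i) '' ((M i).H : Set _))
  finite := by
    classical
    have hfg : ∀ i, (Subalgebra.toSubmodule (M i).H).FG := fun i =>
      Module.Finite.iff_fg.mp (show Module.Finite R (Subalgebra.toSubmodule (M i).H) from
        (M i).finite)
    choose s hs using hfg
    set t : Set ((∀ i, F i) → Qbar) :=
      ⋃ i, pullback (ℓ := ℓ) (fun x : ∀ i, F i => x i) '' (s i : Set _) with ht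
    have heq : Algebra.adjoin R (⋃ i, pullback (ℓ := ℓ) (fun x : ∀ i, F i => x i) ''
        ((M i).H : Set _)) = Algebra.adjoin R t := by
      refine le_antisymm (Algebra.adjoin_le ?_) (Algebra.adjoin_mono ?_)
      · intro f hf
        obtain ⟨i, φ, hφ, rfl⟩ := Set.mem_iUnion.mp hf
        have hφ' : φ ∈ Submodule.span R (s i : Set _) := (hs i).symm ▸ hφ
        have h := Submodule.mem_map_of_mem
          (f := (pullback (ℓ := ℓ) (fun x : ∀ i, F i => x i)).toLinearMap) hφ'
        rw [Submodule.map_span] at h
        show (pullback (ℓ := ℓ) (fun x : ∀ i, F i => x i)).toLinearMap φ ∈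
          Subalgebra.toSubmodule (Algebra.adjoin R t)
        refine Submodule.span_le.mpr (fun g hg => ?_) h
        exact Algebra.subset_adjoin (Set.mem_iUnion.mpr ⟨i, hg⟩)
      · refine Set.iUnion_mono fun i => Set.image_mono fun φ hφ => ?_
        exact (hs i).le (Submodule.subset_span hφ)
    rw [heq]
    refine Module.Finite.iff_fg.mpr (fg_adjoin_of_finite
      (Set.finite_iUnion fun i => (s i).finite_toSet.image _) ?_)
    intro f hf
    obtain ⟨i, φ, hφ, rfl⟩ := Set.mem_iUnion.mp hf
    have hmem : φ ∈ (M i).H := (hs i).le (Submodule.subset_span hφ)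
    have := (M i).finite
    exact ((IsIntegral.of_finite R (⟨φ, hmem⟩ : (M i).H)).map (M i).H.val).map _
  equivariant φ hφ := by
    induction hφ using Algebra.adjoin_induction with
    | mem f hf =>
      obtain ⟨i, φ, hφ, rfl⟩ := Set.mem_iUnion.mp hf
      intro σ x
      show φ (act σ x i) = σ (φ (x i))
      rw [hact, (M i).equivariant φ hφ]
    | algebraMap r => exact fun σ x => (σ.commutes _).symm
    | add a b _ _ ha hb =>
      intro σ x
      simp only [Pi.add_apply, map_add, ha σ x, hb σ x]
    | mul a b _ _ ha hb =>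
      intro σ x
      simp only [Pi.mul_apply, map_mul, ha σ x, hb σ x]
  separates x y h := funext fun i => (M i).separates _ _ fun φ hφ =>
    h _ (Algebra.subset_adjoin (Set.mem_iUnion.mpr ⟨i, φ, hφ, rfl⟩))
  add_mem φ hφ := by
    set K := Algebra.adjoin R (⋃ i, pullback (ℓ := ℓ) (fun x : ∀ i, F i => x i) ''
      ((M i).H : Set _)) with hK
    induction hφ using Algebra.adjoin_induction with
    | mem f hf =>
      obtain ⟨i, φ, hφ, rfl⟩ := Set.mem_iUnion.mp hf
      let L : (F i × F i → Qbar) →ₗ[R] ((∀ i, F i) × (∀ i, F i) → Qbar) :=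
        LinearMap.funLeft R Qbar fun p => (p.1 i, p.2 i)
      have h := Submodule.mem_map_of_mem (f := L) ((M i).add_mem φ hφ)
      rw [Submodule.map_span] at h
      refine Submodule.span_mono ?_ h
      rintro _ ⟨_, ⟨a, ha, b, hb, rfl⟩, rfl⟩
      exact ⟨_, Algebra.subset_adjoin (Set.mem_iUnion.mpr ⟨i, a, ha, rfl⟩), _,
        Algebra.subset_adjoin (Set.mem_iUnion.mpr ⟨i, b, hb, rfl⟩), rfl⟩
    | algebraMap r =>
      refine Submodule.subset_span ⟨algebraMap R _ r, K.algebraMap_mem r, 1, K.one_mem, ?_⟩
      funext p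
      simp
    | add a b _ _ ha hb => exact Submodule.add_mem _ ha hb
    | mul a b _ _ ha hb =>
      show (fun p : (∀ i, F i) × (∀ i, F i) => a (p.1 + p.2)) *
        (fun p : (∀ i, F i) × (∀ i, F i) => b (p.1 + p.2)) ∈ _
      refine mul_mem_span_products K ha hb

end Model

end Fermat.Agent.FlatModel
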