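import Fermat.Agent.FlatModel.Order
import Fermat.Agent.Gal.Residue
import Fermat.Agent.Gal.Frobenius

/-!
# Unramified subgroups and the trace identity

For an open subgroup `U` of the absolute Galois group fixing only elements unramified over `ℓ`
there are elements `e i`, `f i`, integral at every place over `ℓ`, with `f i` fixed by `U` and
`∑ e i * σ (f i) = 1` or `0` according as `σ ∈ U` or not.

Main results: `TraceData.finset` and `exists_separator`.
-/

set_option autoImplicit false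

open GaloisRep Polynomial

open scoped Pointwise

namespace Fermat.Agent.FlatModel

/-- The Galois elements fixing a set pointwise. -/
def fixer (S : Set Qbar) : Subgroup GalQ where
  carrier := {σ | ∀ r ∈ S, σ r = r}
  one_mem' _ _ := rfl
  mul_mem' {σ τ} hσ hτ r hr := by rw [AlgEquiv.mul_apply, hτ r hr, hσ r hr]
  inv_mem' {σ} hσ r hr := by
    conv_lhs => rw [← hσ r hr]
    exact σ.symm_apply_apply r

theorem mem_fixer {S : Set Qbar} {σ : GalQ} : σ ∈ fixer S ↔ ∀ r ∈ S, σ r = r := Iff.rfl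

theorem isClosed_fixer (S : Set Qbar) : IsClosed (fixer S : Set GalQ) := by
  have h : (fixer S : Set GalQ) = ⋂ r ∈ S, (MulAction.stabilizer GalQ r : Set GalQ) := by
    ext σ
    simp [mem_fixer]
  rw [h]
  refine isClosed_biInter fun r _ => ?_
  exact Subgroup.isClosed_of_isOpen _ (stabilizer_isOpen_of_isIntegral (K := ℚ) r)

/-- The permutations of a stable finite set. -/
noncomputable def permHom (S : Finset Qbar) (hS : ∀ σ : GalQ, ∀ r ∈ S, σ r ∈ S) :
    GalQ →* Equiv.Perm S where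
  toFun σ :=
    { toFun := fun r => ⟨σ r, hS σ r r.2⟩
      invFun := fun r => ⟨σ.symm r, hS σ.symm r r.2⟩
      left_inv := fun r => Subtype.ext (σ.symm_apply_apply r.1)
      right_inv := fun r => Subtype.ext (σ.apply_symm_apply r.1) }
  map_one' := rfl
  map_mul' _ _ := rfl

theorem fixer_eq_ker (S : Finset Qbar) (hS : ∀ σ : GalQ, ∀ r ∈ S, σ r ∈ S) :
    fixer (S : Set Qbar) = (permHom S hS).ker := by
  ext σ
  rw [mem_fixer, MonoidHom.mem_ker]
  constructor
  · intro h
    exact Equiv.ext fun r => Subtype.ext (h r r.2)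
  · intro h r hr
    exact congrArg Subtype.val (Equiv.congr_fun h ⟨r, hr⟩)

theorem finiteIndex_fixer (S : Finset Qbar) (hS : ∀ σ : GalQ, ∀ r ∈ S, σ r ∈ S) :
    (fixer (S : Set Qbar)).FiniteIndex := by
  rw [fixer_eq_ker S hS]
  exact Subgroup.finiteIndex_ker _

theorem normal_fixer (S : Finset Qbar) (hS : ∀ σ : GalQ, ∀ r ∈ S, σ r ∈ S) :
    (fixer (S : Set Qbar)).Normal := by
  rw [fixer_eq_ker S hS]
  infer_instance

variable (ℓ : ℕ)

/-- Integrality at all places over `ℓ`. -/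
def IntAt (x : Qbar) : Prop := ∀ A : ValuationSubring Qbar, A.LiesOverPrime ℓ → x ∈ A

/-- Integral with integral inverse at all places over `ℓ`. -/
def UnitAt (x : Qbar) : Prop :=
  x ≠ 0 ∧ IntAt ℓ x ∧ IntAt ℓ x⁻¹

/-- The trace identity for `U`. -/
def TraceData (U : Subgroup GalQ) : Prop :=
  ∃ (ι : Type) (_ : Fintype ι) (e f : ι → Qbar),
    (∀ i, IntAt ℓ (e i) ∧ IntAt ℓ (f i)) ∧ (∀ i, ∀ σ ∈ U, σ (f i) = f i) ∧
      ∀ σ : GalQ, ∑ i, e i * σ (f i) = @ite Qbar (σ ∈ U) (Classical.dec _) 1 0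

theorem traceData_top : TraceData ℓ (⊤ : Subgroup GalQ) :=
  ⟨Unit, inferInstance, fun _ => 1, fun _ => 1,
    fun _ => ⟨fun A _ => one_mem A, fun A _ => one_mem A⟩, fun _ σ _ => map_one σ,
    fun σ => by simp⟩

variable {ℓ}

/-- Add one element which is separated modulo every place from its conjugates under `U`. -/
theorem TraceData.step {U : Subgroup GalQ} (hU : TraceData ℓ U) {r : Qbar} (hr : IntAt ℓ r)
    {T : Finset Qbar} (hT : ∀ σ ∈ U, σ r ∈ T)
    (hTint : ∀ r' ∈ T, IntAt ℓ r')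
    (hsep : ∀ r' ∈ T, r' ≠ r → UnitAt ℓ (r - r')) :
    TraceData ℓ (U ⊓ fixer {r}) := by
  classical
  obtain ⟨ι, _, e, f, hint, hfix, hid⟩ := hU
  let P : Polynomial Qbar := ∏ r' ∈ T.erase r, C (r - r')⁻¹ * (X - C r')
  have hP : ∀ j, IntAt ℓ (P.coeff j) := by
    intro j A hA
    let AS : Subring Qbar := A.toSubring
    have : P ∈ Polynomial.lifts AS.subtype := by
      refine prod_mem fun r' hr' => mul_mem ?_ ?_
      · exact Polynomial.C_mem_lifts AS.subtype
          (⟨_, (hsep r' (Finset.mem_of_mem_erase hr') (Finset.ne_of_mem_erase hr')).2.2 A hA⟩ : AS)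
      · rw [sub_eq_add_neg, ← C_neg]
        exact add_mem (Polynomial.X_mem_lifts _) (Polynomial.C_mem_lifts AS.subtype
          (⟨_, neg_mem (hTint r' (Finset.mem_of_mem_erase hr') A hA)⟩ : AS))
    obtain ⟨c, hc⟩ := (Polynomial.lifts_iff_coeff_lifts P).mp this j
    rw [← hc]
    exact c.2
  set n := P.natDegree + 1
  refine ⟨ι × Fin n, inferInstance, fun q => e q.1 * P.coeff q.2, fun q => f q.1 * r ^ (q.2 : ℕ),
    fun q => ⟨fun A hA => mul_mem ((hint q.1).1 A hA) (hP _ A hA),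
      fun A hA => mul_mem ((hint q.1).2 A hA) (pow_mem (hr A hA) _)⟩,
    fun q σ hσ => by rw [map_mul, map_pow, hfix q.1 σ hσ.1, hσ.2 r rfl], fun σ => ?_⟩
  have heval : ∑ q : ι × Fin n, e q.1 * P.coeff q.2 * σ (f q.1 * r ^ (q.2 : ℕ)) =
      (∑ i, e i * σ (f i)) * P.eval (σ r) := by
    rw [Polynomial.eval_eq_sum_range, ← Fin.sum_univ_eq_sum_range (fun j => P.coeff j * σ r ^ j),
      Fintype.sum_mul_sum, ← Fintype.sum_prod_type']
    refine Finset.sum_congr rfl fun q _ => ?_
    rw [map_mul, map_pow]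
    ring
  rw [heval, hid σ]
  by_cases hσ : σ ∈ U
  · rw [if_pos hσ, one_mul]
    by_cases hσr : σ r = r
    · rw [if_pos ⟨hσ, fun x hx => by rw [Set.mem_singleton_iff.mp hx]; exact hσr⟩, hσr,
        Polynomial.eval_prod]
      refine Finset.prod_eq_one fun r' hr' => ?_
      have h0 := (hsep r' (Finset.mem_of_mem_erase hr') (Finset.ne_of_mem_erase hr')).1
      simp [inv_mul_cancel₀ h0]
    · rw [if_neg fun h => hσr (h.2 r rfl), Polynomial.eval_prod]
      exact Finset.prod_eq_zero (Finset.mem_erase.mpr ⟨hσr, hT σ hσ⟩) (by simp)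
  · rw [if_neg hσ, zero_mul, if_neg fun h => hσ h.1]

/-- Add a finite set each of whose elements is separated from its conjugates under `U`. -/
theorem TraceData.finset {U : Subgroup GalQ} (hU : TraceData ℓ U) {T : Finset Qbar}
    (hT : ∀ σ ∈ U, ∀ r ∈ T, σ r ∈ T) (hTint : ∀ r ∈ T, IntAt ℓ r)
    (hsep : ∀ r ∈ T, ∀ σ ∈ U, σ r ≠ r → UnitAt ℓ (r - σ r)) :
    TraceData ℓ (U ⊓ fixer (T : Set Qbar)) := by
  classical
  suffices h : ∀ S : Finset Qbar, S ⊆ T → TraceData ℓ (U ⊓ fixer (S : Set Qbar)) from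
    h T subset_rfl
  intro S
  induction S using Finset.induction with
  | empty =>
    intro _
    have : U ⊓ fixer ((∅ : Finset Qbar) : Set Qbar) = U :=
      inf_eq_left.mpr fun σ _ r hr => absurd hr (by simp)
    rwa [this]
  | insert r S hr ih =>
    intro hS
    rw [Finset.insert_subset_iff] at hS
    have heq : U ⊓ fixer ((insert r S : Finset Qbar) : Set Qbar) =
        (U ⊓ fixer (S : Set Qbar)) ⊓ fixer {r} := by
      ext σ
      simp only [Subgroup.mem_inf, mem_fixer, Finset.coe_insert, Set.mem_insert_iff,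
        Finset.mem_coe, Set.mem_singleton_iff, forall_eq_or_imp, forall_eq]
      tauto
    rw [heq]
    refine (ih hS.2).step (hTint r hS.1)
      (T := T.filter fun r' => ∃ σ ∈ U, σ r = r') (fun σ hσ => ?_) (fun r' hr' => ?_)
      fun r' hr' hne => ?_
    · exact Finset.mem_filter.mpr ⟨hT σ hσ.1 r hS.1, σ, hσ.1, rfl⟩
    · exact hTint r' (Finset.mem_filter.mp hr').1
    · obtain ⟨σ, hσ, rfl⟩ := (Finset.mem_filter.mp hr').2
      exact hsep r hS.1 σ hσ hne

/-- A nonzero residue has finite multiplicative order. -/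
theorem exists_pow_sub_one_mem_nonunits [Fact ℓ.Prime] {A : ValuationSubring Qbar}
    (hA : A.LiesOverPrime ℓ) {x : Qbar} (hx : x ∈ A) (hxu : x ∉ A.nonunits) :
    ∃ m : ℕ, 0 < m ∧ x ^ m - 1 ∈ A.nonunits := by
  have := Gal.charP_residueField A Fact.out hA
  let : Algebra (ZMod ℓ) (IsLocalRing.ResidueField A) := ZMod.algebra _ ℓ
  have := Gal.isAlgebraic_residueField A hA
  set u := IsLocalRing.residue A ⟨x, hx⟩ with hu
  have hu0 : u ≠ 0 := by
    rw [hu, Ne, IsLocalRing.residue_eq_zero_iff, ← A.coe_mem_nonunits_iff]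
    exact hxu
  let E := IntermediateField.adjoin (ZMod ℓ) ({u} : Set (IsLocalRing.ResidueField A))
  have : FiniteDimensional (ZMod ℓ) E :=
    IntermediateField.adjoin.finiteDimensional (Algebra.IsIntegral.isIntegral u)
  have : Finite E := Module.finite_of_finite (ZMod ℓ)
  let := Fintype.ofFinite E
  have hm : 1 < Fintype.card E := Fintype.one_lt_card
  have hpow : u ^ (Fintype.card E - 1) = 1 :=
    congrArg Subtype.val (FiniteField.pow_card_sub_one_eq_one
      (⟨u, IntermediateField.mem_adjoin_simple_self _ u⟩ : E)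
      (fun h => hu0 (congrArg Subtype.val h)))
  refine ⟨Fintype.card E - 1, by omega, ?_⟩
  have := (Gal.residue_eq_residue_iff A (⟨x, hx⟩ ^ (Fintype.card E - 1)) 1).1
    (by rw [map_pow, map_one, ← hu]; exact hpow)
  simpa using this

/-- An element fixed by `U` which is a unit at `A` and a nonunit at the conjugates of `A` outside
the orbit of `A` under `U`. -/
theorem exists_separator [Fact ℓ.Prime] {A : ValuationSubring Qbar} (hA : A.LiesOverPrime ℓ)
    (U : Subgroup GalQ) (hUc : IsClosed (U : Set GalQ)) [U.Normal] [U.FiniteIndex] :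
    ∃ c : Qbar, IntAt ℓ c ∧ c ∉ A.nonunits ∧ (∀ σ ∈ U, σ c = c) ∧
      ∀ τ : GalQ, τ c ∈ A.nonunits ∨ ∃ d : GalQ, d • A = A ∧ d⁻¹ * τ ∈ U := by
  classical
  let : Fintype (GalQ ⧸ U) := Fintype.ofFinite _
  have hy : ∀ q : GalQ ⧸ U, ∃ y : Qbar, IsIntegral ℤ y ∧ (∀ σ ∈ U, σ y = y) ∧ y ∉ A.nonunits ∧
      ((∃ d : GalQ, d • A = A ∧ d⁻¹ * q.out ∈ U) ∨ y ∈ ((q.out)⁻¹ • A).nonunits) := by
    intro q
    by_cases hd : ∃ d : GalQ, d • A = A ∧ d⁻¹ * q.out ∈ U
    · exact ⟨1, isIntegral_one, fun σ _ => map_one σ, Gal.one_notMem_nonunits A, Or.inl hd⟩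
    set A' := (q.out)⁻¹ • A with hA'
    have hA'l : A'.LiesOverPrime ℓ := Gal.liesOverPrime_smul _ hA
    obtain ⟨x, hx, hxfix, hne⟩ : ∃ x : Qbar, IsIntegral ℤ x ∧ (∀ σ ∈ U, σ x = x) ∧
        ¬ (x ∈ A.nonunits ↔ x ∈ A'.nonunits) := by
      by_contra hno
      push Not at hno
      obtain ⟨σ, hσ, hσA⟩ := Gal.exists_mem_smul_eq U hUc A A' fun x hx hfix => by
        have := hno x hx hfix
        tauto
      refine hd ⟨q.out * σ, ?_, ?_⟩
      · rw [mul_smul, hσA, hA', smul_inv_smul]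
      · rw [mul_inv_rev, mul_assoc, inv_mul_cancel, mul_one]
        exact U.inv_mem hσ
    by_cases hxA : x ∈ A.nonunits
    · have hxA' : x ∉ A'.nonunits := fun h => hne ⟨fun _ => h, fun _ => hxA⟩
      obtain ⟨m, hm, hm1⟩ := exists_pow_sub_one_mem_nonunits hA'l (Gal.mem_of_isIntegral A' hx) hxA'
      refine ⟨x ^ m - 1, (hx.pow m).sub isIntegral_one,
        fun σ hσ => by rw [map_sub, map_pow, map_one, hxfix σ hσ], fun h => ?_, Or.inr hm1⟩
      have := sub_mem (Gal.pow_mem_nonunits A hm.ne' hxA) h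
      exact Gal.one_notMem_nonunits A (by simpa using this)
    · have hxA' : x ∈ A'.nonunits := by
        by_contra h
        exact hne ⟨fun h' => absurd h' hxA, fun h' => absurd h' h⟩
      exact ⟨x, hx, hxfix, hxA, Or.inr hxA'⟩
  choose y hyint hyfix hyA hyq using hy
  have hprodint : IsIntegral ℤ (∏ q, y q) := IsIntegral.prod _ fun q _ => hyint q
  refine ⟨∏ q, y q, fun A' _ => Gal.mem_of_isIntegral A' hprodint, ?_, ?_, fun τ => ?_⟩
  · exact Finset.prod_induction _ (fun z => z ∈ A ∧ z ∉ A.nonunits)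
      (fun a b ha hb => ⟨mul_mem ha.1 hb.1,
        fun h => (Gal.mem_nonunits_or_mem_nonunits A ha.1 hb.1 h).elim ha.2 hb.2⟩)
      ⟨one_mem A, Gal.one_notMem_nonunits A⟩
      (fun q _ => ⟨Gal.mem_of_isIntegral A (hyint q), hyA q⟩) |>.2
  · exact fun σ hσ => by rw [map_prod]; exact Finset.prod_congr rfl fun q _ => hyfix q σ hσ
  · set q : GalQ ⧸ U := QuotientGroup.mk τ
    have hu : (q.out)⁻¹ * τ ∈ U := QuotientGroup.eq.mp q.out_eq
    rcases hyq q with ⟨d, hd, hdu⟩ | hn
    · refine Or.inr ⟨d, hd, ?_⟩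
      have h := U.mul_mem hdu hu
      rwa [mul_assoc, mul_inv_cancel_left] at h
    · left
      have h1 : τ (y q) = q.out (y q) := by
        conv_rhs => rw [← hyfix q _ hu]
        rw [← AlgEquiv.mul_apply, mul_inv_cancel_left]
      rw [Gal.mem_nonunits_smul_iff] at hn
      replace hn : q.out (y q) ∈ A.nonunits := by
        rwa [← AlgEquiv.aut_inv, inv_inv] at hn
      rw [map_prod, ← Finset.prod_erase_mul Finset.univ _ (Finset.mem_univ q), h1]
      refine Gal.mul_mem_nonunits_right A ?_ hn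
      exact prod_mem fun i _ =>
        Gal.mem_of_isIntegral A (Gal.isIntegral_apply τ (hyint i))

end Fermat.Agent.FlatModel
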