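import Fermat.Agent.FlatModel.Subquotient
import Fermat.Agent.FlatModel.Hopf

/-!
# Subquotients of powers of a module cut out by relations

If every relation `∑ h (b) * act σ = 0` between endomorphisms of a finite Galois module `M` holds in
`Q`, then a flat model of `M` gives one of `Q`.

Main result: `nonempty_model_of_relations`.
-/

set_option autoImplicit false

noncomputable section

namespace Fermat.Agent.FlatModel

variable {ℓ : ℕ} [Fact ℓ.Prime] {M Q : Type} [AddCommGroup M] [AddCommGroup Q]
  {B : Type} [CommRing B]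

/-- Left multiplication on a power of `M`. -/
def piAct (act : GalQ →* AddMonoid.End M) (κ : Type) : GalQ →* AddMonoid.End (κ → M) where
  toFun σ :=
    { toFun := fun x i => act σ (x i)
      map_zero' := funext fun _ => map_zero (act σ)
      map_add' := fun _ _ => funext fun _ => map_add (act σ) _ _ }
  map_one' := AddMonoidHom.ext fun x => funext fun i => by
    show act 1 (x i) = x i
    rw [map_one]
    rfl
  map_mul' σ τ := AddMonoidHom.ext fun x => funext fun i => by
    show act (σ * τ) (x i) = act σ (act τ (x i))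
    rw [map_mul]
    rfl

variable (act : GalQ →* AddMonoid.End M) (actQ : GalQ →* AddMonoid.End Q)
  (h : B →+* AddMonoid.End M) (g : B →+* AddMonoid.End Q)

/-- The endomorphism of a formal combination. -/
def combo : (B × GalQ →₀ ℤ) →+ AddMonoid.End M :=
  Finsupp.liftAddHom fun q => zmultiplesHom (AddMonoid.End M) (h q.1 * act q.2)

theorem combo_single (q : B × GalQ) (n : ℤ) :
    combo act h (Finsupp.single q n) = n • (h q.1 * act q.2) := by
  simp [combo]

theorem combo_eq_sum (f : B × GalQ →₀ ℤ) :
    combo act h f = ∑ q ∈ f.support, h (f q • q.1) * act q.2 := by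
  rw [combo, Finsupp.liftAddHom_apply, Finsupp.sum]
  refine Finset.sum_congr rfl fun q _ => ?_
  rw [map_zsmul, smul_mul_assoc]
  rfl

theorem combo_mapDomain (hcomm : ∀ b σ, Commute (h b) (act σ)) (τ : GalQ) (f : B × GalQ →₀ ℤ) :
    combo act h (f.mapDomain fun q => (q.1, τ * q.2)) = act τ * combo act h f := by
  induction f using Finsupp.induction_linear with
  | zero => rw [Finsupp.mapDomain_zero, map_zero, mul_zero]
  | add f f' hf hf' => rw [Finsupp.mapDomain_add, map_add, map_add, hf, hf', mul_add]
  | single q n =>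
    rw [Finsupp.mapDomain_single, combo_single, combo_single, map_mul, ← mul_assoc,
      (hcomm q.1 τ).eq, mul_assoc, mul_smul_comm]

/-- **Relations give models.** -/
theorem nonempty_model_of_relations [Finite M] [Finite Q] (MM : Model ℓ act)
    (hcomm : ∀ b σ, Commute (h b) (act σ)) (gcomm : ∀ b σ, Commute (g b) (actQ σ))
    (hrel : ∀ (s : Finset (B × GalQ)) (c : B × GalQ → B),
      ∑ q ∈ s, h (c q) * act q.2 = 0 → ∑ q ∈ s, g (c q) * actQ q.2 = 0) :
    Nonempty (Model ℓ actQ) := by
  classical
  set Λ := (combo act h).range with hΛ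
  have hτ : ∀ (τ : GalQ), ∀ x ∈ Λ, act τ * x ∈ Λ := by
    rintro τ _ ⟨f, rfl⟩
    exact ⟨_, combo_mapDomain act h hcomm τ f⟩
  let actΛ : GalQ →* AddMonoid.End Λ :=
    { toFun := fun τ =>
        { toFun := fun x => ⟨act τ * (x : AddMonoid.End M), hτ τ x x.2⟩
          map_zero' := Subtype.ext (mul_zero _)
          map_add' := fun x y => Subtype.ext (mul_add _ _ _) }
      map_one' := AddMonoidHom.ext fun x => Subtype.ext (by
        show act 1 * (x : AddMonoid.End M) = (x : AddMonoid.End M)
        rw [map_one, one_mul])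
      map_mul' := fun σ τ => AddMonoidHom.ext fun x => Subtype.ext (by
        show act (σ * τ) * (x : AddMonoid.End M) = act σ * (act τ * (x : AddMonoid.End M))
        rw [map_mul, mul_assoc]) }
  let i : Λ →+ (M → M) :=
    { toFun := fun x m => (x : AddMonoid.End M) m
      map_zero' := rfl
      map_add' := fun _ _ => rfl }
  have hi : Function.Injective i := fun x y hxy =>
    Subtype.ext (AddMonoidHom.ext fun m => congrFun hxy m)
  have : Finite Λ := Finite.of_injective i hi
  let MΛ : Model ℓ actΛ :=
    (Model.pi (F := fun _ : M => M) (fun _ => MM) (piAct act M) fun _ _ _ => rfl).comap i hi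
      fun _ _ => rfl
  -- the evaluation maps
  have hker : (combo act h).ker ≤ (combo actQ g).ker := fun f hf => by
    rw [AddMonoidHom.mem_ker, combo_eq_sum] at hf ⊢
    exact hrel f.support (fun q => f q • q.1) hf
  let q₀ : (B × GalQ →₀ ℤ) →+ Λ := (combo act h).rangeRestrict
  have hq₀ : Function.Surjective q₀ := AddMonoidHom.rangeRestrict_surjective _
  have hker₀ : q₀.ker ≤ (combo actQ g).ker := by
    rw [AddMonoidHom.ker_rangeRestrict]
    exact hker
  let Φ : Λ →+ AddMonoid.End Q :=
    AddMonoidHom.liftOfSurjective q₀ hq₀ ⟨combo actQ g, hker₀⟩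
  have hΦ : ∀ f, Φ (q₀ f) = combo actQ g f := fun f =>
    AddMonoidHom.liftOfRightInverse_comp_apply q₀ _ _ _ f
  have hΦτ : ∀ τ x, Φ (actΛ τ x) = actQ τ * Φ x := by
    intro τ x
    obtain ⟨f, rfl⟩ := hq₀ x
    have : actΛ τ (q₀ f) = q₀ (f.mapDomain fun q => (q.1, τ * q.2)) :=
      Subtype.ext (combo_mapDomain act h hcomm τ f).symm
    rw [this, hΦ, hΦ, combo_mapDomain actQ g gcomm]
  cases nonempty_fintype Q
  let π : (Q → Λ) →+ Q :=
    { toFun := fun x => ∑ v, Φ (x v) v
      map_zero' := by simp
      map_add' := fun x y => by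
        rw [← Finset.sum_add_distrib]
        exact Finset.sum_congr rfl fun v _ => by rw [Pi.add_apply, map_add]; rfl }
  have hone : (1 : AddMonoid.End M) ∈ Λ := ⟨Finsupp.single (1, 1) 1, by
    rw [combo_single, one_smul, map_one, map_one, one_mul]⟩
  have hΦone : Φ ⟨1, hone⟩ = 1 := by
    have : (⟨1, hone⟩ : Λ) = q₀ (Finsupp.single (1, 1) 1) := Subtype.ext (by
      show (1 : AddMonoid.End M) = combo act h (Finsupp.single (1, 1) 1)
      rw [combo_single, one_smul, map_one, map_one, one_mul])
    rw [this, hΦ, combo_single, one_smul, map_one, map_one, one_mul]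
  have hπ : Function.Surjective π := fun v => by
    refine ⟨Pi.single v ⟨1, hone⟩, ?_⟩
    show ∑ w, Φ ((Pi.single v (⟨1, hone⟩ : Λ) : Q → Λ) w) w = v
    rw [Finset.sum_eq_single v (fun w _ hw => by rw [Pi.single_eq_of_ne hw, map_zero]; rfl)
      fun h => absurd (Finset.mem_univ v) h, Pi.single_eq_same, hΦone]
    rfl
  exact ⟨(Model.pi (F := fun _ : Q => Λ) (fun _ => MΛ) (piAct actΛ Q) fun _ _ _ => rfl).map π hπ
    fun σ x => by
      show ∑ v, Φ (actΛ σ (x v)) v = actQ σ (∑ v, Φ (x v) v)
      rw [map_sum]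
      exact Finset.sum_congr rfl fun v _ => by rw [hΦτ]; rfl⟩

end Fermat.Agent.FlatModel
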